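import Fermat.Agent.GoodReductionS18.PullbackInjective
import Fermat.Agent.UnipotentInertia.LevelRaise
import Fermat.Agent.Hecke.Inputs

/-!
# The pullback `J₀(N) → J₀(M)`, `M = lcm(N, 2)` or `lcm(N, 3)`

It commutes with the Galois action and is injective on torsion.
-/

set_option autoImplicit false

noncomputable section

open AlgebraicCurve ModularCurve

namespace Fermat.Agent.GoodModel

local notation "ℚbar" => AlgebraicClosure ℚ

/-- Pullback along a step `N → M` of index `2` or `3`. -/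
theorem exists_pullback_hom (N M : ℕ) [NeZero N] [NeZero M] (hdvd : N ∣ M) {m₀ : ℕ}
    (hstep : GoodReductionS18.TameStep N M m₀) :
    ∃ φ : JZero N →+ JZero M,
      (∀ (σ : ℚbar ≃ₐ[ℚ] ℚbar) (x : JZero N), φ (σ • x) = σ • φ x) ∧
      ∀ m : ℕ, m ≠ 0 → ∀ x : JZero N, m • x = 0 → φ x = 0 → x = 0 := by
  have : FunctionField.IsFunctionField ℚbar (modularFunctionFieldBar N) :=
    Hecke.isFunctionField_modular ℚbar N
  have : FunctionField.IsFunctionField ℚbar (modularFunctionFieldBar M) :=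
    Hecke.isFunctionField_modular ℚbar M
  have hle : modularFunctionFieldBar N ≤ modularFunctionFieldBar M :=
    IntermediateField.adjoin.mono _ _ _ (Set.image_mono (full_degeneracy_le hdvd))
  set ι := IntermediateField.inclusion hle with hιdef
  have hint := Hecke.isIntegral_of_isFunctionField ι
  let := algebraAlong ι
  have := isScalarTower_along ι
  have := isIntegral_along ι hint
  have : FundamentalIdentity ℚbar (modularFunctionFieldBar N) (modularFunctionFieldBar M) :=
    Hecke.fundamentalIdentityAlong ι hint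
  refine ⟨Pic0.pullbackHom (modularFunctionFieldBar M), fun σ x => ?_, fun m hm x hx h0 => ?_⟩
  · have hcomm : ∀ f : modularFunctionFieldBar N,
        arithmeticGalois (modularFunctionFieldFull M) σ • ι f
          = ι (arithmeticGalois (modularFunctionFieldFull N) σ • f) := fun f => Subtype.ext (by
        rw [coe_arithmeticGalois_smul, hιdef, IntermediateField.coe_inclusion,
          IntermediateField.coe_inclusion, coe_arithmeticGalois_smul])
    exact UnipotentInertia.pullbackHom_smul (K := ℚbar) (F := modularFunctionFieldBar N)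
      (F' := modularFunctionFieldBar M) (s := arithmeticGalois (modularFunctionFieldFull N) σ)
      (s' := arithmeticGalois (modularFunctionFieldFull M) σ) hcomm x
  · obtain ⟨D, rfl⟩ := Pic0.mk_surjective x
    rw [Pic0.pullbackHom_mk, Pic0.mk, QuotientAddGroup.eq_zero_iff,
      AddSubgroup.mem_addSubgroupOf, Pic0.coe_pullbackDegZeroHom] at h0
    rw [Pic0.mk, ← QuotientAddGroup.mk_nsmul, QuotientAddGroup.eq_zero_iff,
      AddSubgroup.mem_addSubgroupOf, AddSubgroupClass.coe_nsmul] at hx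
    rw [Pic0.mk, QuotientAddGroup.eq_zero_iff, AddSubgroup.mem_addSubgroupOf]
    exact GoodReductionS18.isPrincipal_of_pullbackAlong_step ℚbar hstep hm ι hint
      (fun f => IntermediateField.coe_inclusion hle f) D hx h0

/-- For `ℓ ∤ N`, a level prime to `ℓ` above `N` divisible by `2` or `3`, with injective pullback
on the `ℓ`-power torsion. -/
theorem exists_auxLevel_pullback (N : ℕ) [NeZero N] {ℓ : ℕ} (hℓ : ℓ.Prime) (hℓN : ¬ ℓ ∣ N) :
    ∃ (h M : ℕ) (_ : NeZero h) (_ : NeZero M), (h = 2 ∨ h = 3) ∧ h ∣ M ∧ ¬ ℓ ∣ M ∧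
      ∃ φ : JZero N →+ JZero M,
        (∀ (σ : ℚbar ≃ₐ[ℚ] ℚbar) (x : JZero N), φ (σ • x) = σ • φ x) ∧
        ∀ (e : ℕ) (x : JZero N), (ℓ : ℤ) ^ e • x = 0 → φ x = 0 → x = 0 := by
  obtain ⟨h, hh, hℓh⟩ : ∃ h, (h = 2 ∨ h = 3) ∧ ¬ ℓ ∣ h := by
    by_cases h2 : ℓ = 2
    · exact ⟨3, .inr rfl, h2 ▸ (by decide)⟩
    · exact ⟨2, .inl rfl, fun hd =>
        h2 ((Nat.prime_dvd_prime_iff_eq hℓ Nat.prime_two).mp hd)⟩
  have : NeZero h := ⟨by omega⟩
  have : NeZero (N.lcm h) := ⟨Nat.lcm_ne_zero (NeZero.ne N) (NeZero.ne h)⟩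
  have hstep : GoodReductionS18.TameStep N (N.lcm h) 1 := by
    rcases hh with rfl | rfl
    · exact GoodReductionS18.tameStep_lcm_two N 1
    · exact GoodReductionS18.tameStep_lcm_three N 1 (by decide)
  obtain ⟨φ, hφ, hinj⟩ := exists_pullback_hom N (N.lcm h) (Nat.dvd_lcm_left N h) hstep
  refine ⟨h, N.lcm h, inferInstance, inferInstance, hh, Nat.dvd_lcm_right N h,
    fun hd => ((hℓ.dvd_mul).mp (hd.trans (Nat.lcm_dvd_mul N h))).elim hℓN hℓh, φ, hφ,
    fun e x hx h0 => hinj (ℓ ^ e) (pow_ne_zero _ hℓ.ne_zero) x ?_ h0⟩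
  rw [← natCast_zsmul, Nat.cast_pow]
  exact hx

end Fermat.Agent.GoodModel
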