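import Fermat.Agent.GoodModel.ModularData
import Fermat.Agent.EisensteinDescent.JZeroSmooth
import Fermat.Agent.CurveBaseChange.Reduction
import Fermat.Agent.CurveJacobian.Torsion

/-!
# Finite flat models of torsion in `J₀(N)` from an injection into a level with a good model

If a Galois equivariant map `J₀(N) → J₀(M)` is injective on `ℓ ^ e`-torsion, where `M` has a good
model at `ℓ`, that torsion is the group of points of a finite flat Hopf algebra over `ℤ_(ℓ)`.
-/

set_option autoImplicit false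

noncomputable section

open AlgebraicCurve ModularCurve

namespace Fermat.Agent.GoodModel

open Fermat.Agent.GaloisBasics

/-- The Galois action on torsion. -/
@[reducible] def torsionByAction (N : ℕ) (n : ℤ) :
    DistribMulAction GalQ ↥(Submodule.torsionBy ℤ (JZero N) n) where
  smul σ x := ⟨σ • (x : JZero N), by
    rw [Submodule.mem_torsionBy_iff, galois_smul_pic0_def, ← SemilinearAut.smul_zsmul,
      (Submodule.mem_torsionBy_iff n (x : JZero N)).mp x.2, smul_zero]⟩
  one_smul x := Subtype.ext (one_smul GalQ (x : JZero N))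
  mul_smul σ τ x := Subtype.ext (mul_smul σ τ (x : JZero N))
  smul_zero σ := Subtype.ext (smul_zero σ)
  smul_add σ x y := Subtype.ext (smul_add σ (x : JZero N) (y : JZero N))

/-- Points of `J₀(N)` have open stabilisers. -/
theorem isOpen_stabilizer_jZero (N : ℕ) [NeZero N] (x : JZero N) :
    IsOpen (MulAction.stabilizer GalQ x : Set GalQ) := by
  have : FunctionField.IsFunctionField Qbar
      (laurentBaseChange Qbar (modularFunctionFieldFull N)) :=
    Hecke.isFunctionField_modular Qbar N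
  obtain ⟨_, ⟨L, hL, rfl⟩, h⟩ := EisensteinDescent.exists_level_jZero N x
  exact Subgroup.isOpen_mono (H₁ := L.fixingSubgroup) (fun σ hσ => h σ hσ)
    L.fixingSubgroup_isOpen

/-- Torsion in `J₀(N)` is finite. -/
theorem finite_torsionBy_jZero (N : ℕ) [NeZero N] {ℓ : ℕ} (hℓ : ℓ.Prime) (e : ℕ) :
    Finite ↥(Submodule.torsionBy ℤ (JZero N) ((ℓ : ℤ) ^ e)) := by
  have : FunctionField.IsFunctionField Qbar (modularFunctionFieldBar N) :=
    Hecke.isFunctionField_modular Qbar N
  have h := CurveBaseChange.natCard_torsion_eq (K := Qbar) (F := modularFunctionFieldBar N)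
    (fun F _ _ _ _ n hn => CurveJacobian.natCard_torsion F n hn) (ℓ ^ e) (pow_pos hℓ.pos e)
  have : Finite (Pic0.torsion Qbar (modularFunctionFieldBar N) (ℓ ^ e)) :=
    Nat.finite_of_card_ne_zero (h ▸ pow_ne_zero _ (pow_ne_zero _ hℓ.pos.ne'))
  exact Finite.of_injective (fun x => (⟨x.1, Pic0.mem_torsion.mpr (by
    push_cast; exact (Submodule.mem_torsionBy_iff _ _).mp x.2)⟩ :
      Pic0.torsion Qbar (modularFunctionFieldBar N) (ℓ ^ e)))
    fun x y h => Subtype.ext (congrArg (fun z : Pic0.torsion _ _ _ => z.1) h)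

/-- The finite flat model of the `ℓ`-power torsion of `J₀(N)`, given an equivariant map to the
level `M` injective on that torsion. -/
theorem exists_finiteFlat_model_torsion {ℓ : ℕ} (hℓ : ℓ.Prime) {N M h : ℕ} [NeZero N] [NeZero M]
    [NeZero h] (hh : h = 2 ∨ h = 3) (hhM : h ∣ M) (hℓM : ¬ ℓ ∣ M) (e : ℕ)
    (φ : JZero N →+ JZero M) (hφ : ∀ (σ : GalQ) x, φ (σ • x) = σ • φ x)
    (hinj : ∀ x : JZero N, (ℓ : ℤ) ^ e • x = 0 → φ x = 0 → x = 0) :
    ∃ (H : Type) (_ : CommRing H) (_ : HopfAlgebra (GaloisRep.ratLocalizedAt ℓ) H),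
      Module.Finite (GaloisRep.ratLocalizedAt ℓ) H ∧ Module.Flat (GaloisRep.ratLocalizedAt ℓ) H ∧
      Coalgebra.IsCocomm (GaloisRep.ratLocalizedAt ℓ) H ∧
      ∃ e' : WithConv (H →ₐ[GaloisRep.ratLocalizedAt ℓ] AlgebraicClosure ℚ) ≃
          ↥(Submodule.torsionBy ℤ (JZero N) ((ℓ : ℤ) ^ e)),
        (∀ f g, e' (f * g) = e' f + e' g) ∧
        ∀ (σ : AlgebraicClosure ℚ ≃ₐ[ℚ] AlgebraicClosure ℚ)
          (f g : WithConv (H →ₐ[GaloisRep.ratLocalizedAt ℓ] AlgebraicClosure ℚ)),
          (∀ h : H, g h = σ (f h)) → ((e' g : JZero N)) = σ • (e' f : JZero N) := by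
  obtain ⟨A, hA⟩ := exists_liesOverPrime (q := ℓ) hℓ
  have := Fact.mk hℓ
  have : IsAlgClosed (IsLocalRing.ResidueField A) := residueField_isAlgClosed A
  have : CharP (IsLocalRing.ResidueField A) ℓ := residueField_charP hA hℓ
  have : Infinite (IsLocalRing.ResidueField A) := IsAlgClosed.instInfinite
  have hMk : (M : IsLocalRing.ResidueField A) ≠ 0 := by
    rwa [Ne, CharP.cast_eq_zero_iff _ ℓ]
  obtain ⟨HG, g, c, Hd, Hb, G, D⟩ :=
    exists_galoisData hh hhM hMk IsLocalRing.residue_surjective hA hℓ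
  have := finite_torsionBy_jZero N hℓ e
  let := torsionByAction N ((ℓ : ℤ) ^ e)
  have hT : IsContinuousAction ↥(Submodule.torsionBy ℤ (JZero N) ((ℓ : ℤ) ^ e)) := fun x => by
    convert isOpen_stabilizer_jZero N (x : JZero N) using 1
    ext σ
    exact Subtype.ext_iff
  obtain ⟨H, i1, i2, h1, h2, h3, e', he, heq⟩ := exists_finiteFlat_model_of_galoisData
    (T := ↥(Submodule.torsionBy ℤ (JZero N) ((ℓ : ℤ) ^ e)))
    (φ.comp (Submodule.torsionBy ℤ (JZero N) ((ℓ : ℤ) ^ e)).toAddSubgroup.subtype) D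
    (fun σ x => hφ σ (x : JZero N))
    ((injective_iff_map_eq_zero _).mpr fun x hx => Subtype.ext
      (hinj (x : JZero N) ((Submodule.mem_torsionBy_iff _ _).mp x.2) hx)) hA hℓ hT
  exact ⟨H, i1, i2, h1, h2, h3, e', he, fun σ f g hfg => congrArg Subtype.val (heq σ f g hfg)⟩

end Fermat.Agent.GoodModel
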