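import Fermat.Agent.GoodModel.Descent
import Fermat.Prelude.Def_GaloisRep_Flat
import Mathlib.LinearAlgebra.TensorProduct.Basis
import Mathlib.LinearAlgebra.Basis.Submodule
import Mathlib.RingTheory.Flat.Basic

/-!
# Hopf orders from integral algebras of functions

A criterion for a finite Galois module to be the `Qbar`-points of a finite flat cocommutative
Hopf algebra over `ℤ_(ℓ)`: it suffices to give an integral, separating algebra of functions,
stable under the decomposition group, generated by inertia-fixed functions, and closed under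
comultiplication and antipode.
-/

set_option autoImplicit false

noncomputable section

open scoped TensorProduct

namespace Fermat.Agent.GoodModel

open Fermat.Agent.GaloisBasics

/-- Products of independent families of functions in separate variables are independent. -/
theorem linearIndependent_mul_separate {K : Type*} [Field K] {X Y ι κ : Type*} [Finite ι] [Finite κ]
    {f : ι → X → K} {g : κ → Y → K} (hf : LinearIndependent K f) (hg : LinearIndependent K g) :
    LinearIndependent K (fun q : ι × κ => fun p : X × Y => f q.1 p.1 * g q.2 p.2) := by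
  classical
  have := Fintype.ofFinite ι
  have := Fintype.ofFinite κ
  rw [Fintype.linearIndependent_iff] at hf hg ⊢
  intro c hc q
  have h1 : ∀ y i, ∑ j, c (i, j) * g j y = 0 := by
    intro y
    refine hf _ (funext fun x => ?_)
    have h := congr_fun hc (x, y)
    simp only [Finset.sum_apply, Pi.smul_apply, smul_eq_mul, Pi.zero_apply,
      Fintype.sum_prod_type] at h ⊢
    rw [← h]
    refine Finset.sum_congr rfl fun i _ => ?_
    rw [Finset.sum_mul]
    exact Finset.sum_congr rfl fun j _ => by ring
  refine hg (fun j => c (q.1, j)) (funext fun y => ?_) q.2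
  simpa [Finset.sum_apply] using h1 y q.1

/-- A linear map sending a basis to an independent family is injective. -/
theorem injective_of_basis_image {R M N : Type*} [CommSemiring R] [AddCommMonoid M] [Module R M]
    [AddCommMonoid N] [Module R N] {ι : Type*} (B : Module.Basis ι R M) (L : M →ₗ[R] N)
    (h : LinearIndependent R fun i => L (B i)) : Function.Injective L := by
  have hL : L = Finsupp.linearCombination R (fun i => L (B i)) ∘ₗ B.repr.toLinearMap :=
    B.ext fun i => by simp
  rw [hL]
  intro x y hxy
  exact B.repr.injective (h hxy)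

/-- Data for the Hopf order criterion. -/
structure OrderData (A : ValuationSubring Qbar) (T : Type*) [AddCommGroup T]
    [DistribMulAction GalQ T] extends FunctionData A T where
  gen_add_mem : ∀ i, (fun p : T × T => gen i (p.1 + p.2)) ∈
    Algebra.adjoin A ((Set.range fun j => fun p : T × T => gen j p.1) ∪
      Set.range fun j => fun p : T × T => gen j p.2)
  gen_neg_mem : ∀ i, (fun x => gen i (-x)) ∈ Algebra.adjoin A (Set.range gen)

namespace OrderData

variable {ℓ : ℕ} {A : ValuationSubring Qbar} {T : Type} [AddCommGroup T]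
  [DistribMulAction GalQ T] [Finite T] (D : OrderData A T)

local notation "R" => GaloisRep.ratLocalizedAt ℓ

/-- Pullback of functions along a map, over `ℤ_(ℓ)`. -/
def pull {X Y : Type*} (u : X → Y) : (Y → Qbar) →ₐ[R] (X → Qbar) where
  toFun h x := h (u x)
  map_one' := rfl
  map_mul' _ _ := rfl
  map_zero' := rfl
  map_add' _ _ := rfl
  commutes' _ := rfl

@[simp] theorem pull_apply {X Y : Type*} (u : X → Y) (h : Y → Qbar) (x : X) :
    pull (ℓ := ℓ) u h x = h (u x) := rfl

theorem coe_mem_A (hA : A.LiesOverPrime ℓ) (hℓ : ℓ.Prime) (r : R) :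
    algebraMap R Qbar r ∈ A :=
  (algebraMap_rat_mem_iff hA hℓ r.1).mpr r.2

theorem algebraMap_R_injective : Function.Injective (algebraMap R Qbar) := fun _ _ h =>
  Subtype.ext ((algebraMap ℚ Qbar).injective h)

/-- Independence over `Qbar` gives independence over `ℤ_(ℓ)`. -/
theorem restrict_scalars_R {ι X : Type*} {v : ι → X → Qbar} (h : LinearIndependent Qbar v) :
    LinearIndependent R v := by
  rw [linearIndependent_iff'] at h ⊢
  intro s g hg i hi
  have h1 : ∑ i ∈ s, algebraMap R Qbar (g i) • v i = 0 := by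
    rw [← hg]
    refine Finset.sum_congr rfl fun i _ => funext fun x => ?_
    simp only [Pi.smul_apply, Algebra.smul_def, Algebra.algebraMap_self, RingHom.id_apply]
  exact algebraMap_R_injective (by rw [h s _ h1 i hi, map_zero])

/-- A fixed element of `A` comes from `ℤ_(ℓ)`. -/
theorem exists_eq_algebraMap (hA : A.LiesOverPrime ℓ) (hℓ : ℓ.Prime) {c : Qbar} (hc : c ∈ A)
    (hfix : ∀ σ : GalQ, σ c = c) : ∃ r : R, algebraMap R Qbar r = c := by
  obtain ⟨q, rfl⟩ := (InfiniteGalois.mem_range_algebraMap_iff_fixed c).mpr hfix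
  exact ⟨⟨q, (algebraMap_rat_mem_iff hA hℓ q).mp hc⟩, rfl⟩

variable (hA : A.LiesOverPrime ℓ) (hℓ : ℓ.Prime)

/-- The order: equivariant members of the algebra. -/
def order : Subalgebra R (T → Qbar) where
  carrier := D.fixedSet
  mul_mem' hf hg := ⟨mul_mem hf.1 hg.1, fun σ => by rw [map_mul, hf.2 σ, hg.2 σ]⟩
  one_mem' := ⟨one_mem _, fun σ => map_one _⟩
  add_mem' hf hg := ⟨add_mem hf.1 hg.1, fun σ => by rw [map_add, hf.2 σ, hg.2 σ]⟩
  zero_mem' := ⟨zero_mem _, fun σ => map_zero _⟩
  algebraMap_mem' r := by
    refine ⟨?_, fun σ => funext fun x => ?_⟩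
    · have : algebraMap R (T → Qbar) r =
          algebraMap A (T → Qbar) ⟨_, coe_mem_A hA hℓ r⟩ := rfl
      rw [this]
      exact Subalgebra.algebraMap_mem _ _
    · exact σ.commutes (r : ℚ)

omit [Finite T] in
theorem order_apply {f : T → Qbar} (hf : f ∈ D.order hA hℓ) (σ : GalQ) (x : T) :
    f (σ • x) = σ (f x) := (twist_eq_self_iff σ f).mp (hf.2 σ) x

variable (hT : IsContinuousAction T)

/-- Equivariant functions spanning the algebra, independent over `Qbar`. -/
theorem exists_gens (hA : A.LiesOverPrime ℓ) (hℓ : ℓ.Prime) (hT : IsContinuousAction T) :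
    ∃ s : Finset (T → Qbar), ↑s ⊆ D.fixedSet ∧
      Submodule.span A (s : Set (T → Qbar)) = D.alg.toSubmodule ∧
      LinearIndependent Qbar (fun g : s => (g : T → Qbar)) := by
  classical
  have hspan := D.span_fixedSet hA hℓ hT
  obtain ⟨G, hG⟩ := D.fg_alg
  have h0 : ∃ s : Finset (T → Qbar), ↑s ⊆ D.fixedSet ∧
      Submodule.span A (s : Set (T → Qbar)) = D.alg.toSubmodule := by
    have hex : ∀ g : G, ∃ s : Finset (T → Qbar), ↑s ⊆ D.fixedSet ∧
        (g : T → Qbar) ∈ Submodule.span A (s : Set (T → Qbar)) := fun g =>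
      Submodule.mem_span_finite_of_mem_span (hspan ▸ hG ▸ Submodule.subset_span g.2)
    choose s hs hgs using hex
    refine ⟨G.attach.biUnion s, fun f hf => ?_, le_antisymm ?_ ?_⟩
    · obtain ⟨g, -, hfg⟩ := Finset.mem_biUnion.mp hf
      exact hs g hfg
    · rw [← hspan]
      refine Submodule.span_mono fun f hf => ?_
      obtain ⟨g, -, hfg⟩ := Finset.mem_biUnion.mp hf
      exact hs g hfg
    · rw [← hG, Submodule.span_le]
      exact fun g hg => Submodule.span_mono
        (Finset.coe_subset.mpr (Finset.subset_biUnion_of_mem s (Finset.mem_attach G ⟨g, hg⟩)))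
        (hgs ⟨g, hg⟩)
  have hcard : ∃ n, ∃ s : Finset (T → Qbar), ↑s ⊆ D.fixedSet ∧
      Submodule.span A (s : Set (T → Qbar)) = D.alg.toSubmodule ∧ s.card = n :=
    let ⟨s, h1, h2⟩ := h0; ⟨_, s, h1, h2, rfl⟩
  obtain ⟨s, hsF, hsS, hsn⟩ := Nat.find_spec hcard
  refine ⟨s, hsF, hsS, ?_⟩
  rw [Fintype.linearIndependent_iff]
  intro c hc i
  by_contra hi
  obtain ⟨j, -, hj⟩ :=
      Finset.exists_max_image Finset.univ (fun k => A.valuation (c k)) ⟨i, Finset.mem_univ i⟩
  have hcj : c j ≠ 0 := fun h => hi (by
    have := hj i (Finset.mem_univ i)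
    rw [h, map_zero, le_zero_iff, map_eq_zero] at this
    exact this)
  have hcA : ∀ k, -(c k / c j) ∈ A := fun k => by
    rw [← A.valuation_le_one_iff, Valuation.map_neg, map_div₀]
    exact div_le_one_of_le₀ (hj k (Finset.mem_univ k)) zero_le
  have hjmem : (j : T → Qbar) ∈ Submodule.span A (↑(s.erase j) : Set (T → Qbar)) := by
    have heq : (j : T → Qbar) = ∑ k ∈ Finset.univ.erase j, (⟨_, hcA k⟩ : A) • (k : T → Qbar) := by
      funext x
      have h := congr_fun hc x
      simp only [Finset.sum_apply, Pi.smul_apply, smul_eq_mul, Pi.zero_apply,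
        ← Finset.add_sum_erase _ _ (Finset.mem_univ j)] at h
      rw [Finset.sum_apply]
      have hsm : ∀ (a : A) (y : Qbar), a • y = (a : Qbar) * y := fun _ _ => rfl
      simp only [Pi.smul_apply, hsm, neg_mul, Finset.sum_neg_distrib, div_mul_eq_mul_div,
        ← Finset.sum_div]
      rw [eq_comm, ← neg_div, div_eq_iff hcj]
      linear_combination -h
    refine Eq.subst (motive := fun z => z ∈ Submodule.span A (↑(s.erase j) : Set (T → Qbar)))
        heq.symm ?_
    refine Submodule.sum_mem _ fun k hk => Submodule.smul_mem _ _ (Submodule.subset_span ?_)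
    exact Finset.mem_coe.mpr (Finset.mem_erase.mpr
      ⟨fun h' => (Finset.mem_erase.mp hk).1 (Subtype.ext h'), k.2⟩)
  refine Nat.find_min hcard (m := (s.erase j).card) (hsn ▸ Finset.card_erase_lt_of_mem j.2)
    ⟨s.erase j, fun f hf => hsF (Finset.mem_of_mem_erase hf), le_antisymm ?_ ?_, rfl⟩
  · exact hsS ▸ Submodule.span_mono (Finset.coe_subset.mpr (Finset.erase_subset _ _))
  · rw [← hsS, Submodule.span_le]
    intro f hf
    by_cases hfj : f = j
    · exact hfj ▸ hjmem
    · exact Submodule.subset_span (Finset.mem_coe.mpr (Finset.mem_erase.mpr ⟨hfj, hf⟩))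

/-- Index set of the basis. -/
def gens : Finset (T → Qbar) := (D.exists_gens hA hℓ hT).choose

theorem gens_subset : ↑(D.gens hA hℓ hT) ⊆ D.fixedSet := (D.exists_gens hA hℓ hT).choose_spec.1

theorem gens_span : Submodule.span A (D.gens hA hℓ hT : Set (T → Qbar)) = D.alg.toSubmodule :=
  (D.exists_gens hA hℓ hT).choose_spec.2.1

theorem gens_indep : LinearIndependent Qbar (fun g : D.gens hA hℓ hT => (g : T → Qbar)) :=
  (D.exists_gens hA hℓ hT).choose_spec.2.2

/-- Members of the algebra are `A`-combinations of the chosen equivariant generators. -/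
theorem exists_coeff {f : T → Qbar} (hf : f ∈ D.alg) :
    ∃ a : D.gens hA hℓ hT → Qbar, (∀ g, a g ∈ A) ∧ ∑ g, a g • (g : T → Qbar) = f := by
  have h : f ∈ Submodule.span A (Set.range fun g : D.gens hA hℓ hT => (g : T → Qbar)) := by
    rw [Subtype.range_coe_subtype]
    exact (D.gens_span hA hℓ hT).symm ▸ hf
  obtain ⟨a, ha⟩ := Submodule.mem_span_range_iff_exists_fun A |>.mp h
  exact ⟨fun g => a g, fun g => (a g).2, ha⟩

/-- Elements of the basis as members of the order. -/
def gensEl (g : D.gens hA hℓ hT) : D.order hA hℓ := ⟨g, D.gens_subset hA hℓ hT g.2⟩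

theorem linearIndependent_gensEl : LinearIndependent R (D.gensEl hA hℓ hT) := by
  refine LinearIndependent.of_comp (D.order hA hℓ).val.toLinearMap ?_
  exact restrict_scalars_R (D.gens_indep hA hℓ hT)

theorem span_gensEl : ⊤ ≤ Submodule.span R (Set.range (D.gensEl hA hℓ hT)) := by
  rintro ⟨h, hh⟩ -
  obtain ⟨a, haA, ha⟩ := D.exists_coeff hA hℓ hT hh.1
  have hfix : ∀ g (σ : GalQ), σ (a g) = a g := by
    intro g σ
    have h1 : ∑ g, σ (a g) • (g : T → Qbar) = ∑ g, a g • (g : T → Qbar) := by
      conv_rhs => rw [ha, ← hh.2 σ, ← ha, map_sum]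
      refine Finset.sum_congr rfl fun g _ => ?_
      rw [twist_smul, (D.gens_subset hA hℓ hT g.2).2 σ]
    have h2 := Fintype.linearIndependent_iff.mp (D.gens_indep hA hℓ hT) (fun g => σ (a g) - a g)
      (by simp only [sub_smul, Finset.sum_sub_distrib, h1, sub_self]) g
    exact sub_eq_zero.mp h2
  choose r hr using fun g => exists_eq_algebraMap hA hℓ (haA g) (hfix g)
  rw [Submodule.mem_span_range_iff_exists_fun]
  refine ⟨r, Subtype.ext ?_⟩
  simp only [AddSubmonoidClass.coe_finsetSum, SetLike.val_smul, gensEl]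
  rw [← ha]
  refine Finset.sum_congr rfl fun g _ => funext fun x => ?_
  simp only [Pi.smul_apply, Algebra.smul_def, ← hr g]
  rfl

/-- Basis of the order. -/
def basis : Module.Basis (D.gens hA hℓ hT) R (D.order hA hℓ) :=
  .mk (D.linearIndependent_gensEl hA hℓ hT) (D.span_gensEl hA hℓ hT)

@[simp] theorem basis_apply (g : D.gens hA hℓ hT) :
    ((D.basis hA hℓ hT g : D.order hA hℓ) : T → Qbar) = g := by
  rw [basis, Module.Basis.mk_apply]; rfl

theorem span_field_top :
    Submodule.span Qbar (Set.range fun g : D.gens hA hℓ hT => (g : T → Qbar)) = ⊤ := by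
  rw [eq_top_iff]
  intro f _
  have := Fintype.ofFinite T
  obtain ⟨v, hv0, -, hv⟩ := D.exists_conductor
  classical
  rw [← Finset.univ_sum_single f]
  refine Submodule.sum_mem _ fun x _ => ?_
  obtain ⟨a, -, ha⟩ := D.exists_coeff hA hℓ hT (hv (Pi.single x v) fun y => by
    rcases eq_or_ne y x with rfl | h
    · simp
    · simp [Pi.single_eq_of_ne h])
  have : (Pi.single x (f x) : T → Qbar) = (f x / v) • ∑ g, a g • (g : T → Qbar) := by
    rw [ha]
    funext y
    rcases eq_or_ne y x with rfl | h
    · simp [div_mul_cancel₀ _ hv0]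
    · simp [Pi.single_eq_of_ne h]
  rw [this]
  exact Submodule.smul_mem _ _ (Submodule.sum_mem _ fun g _ =>
    Submodule.smul_mem _ _ (Submodule.subset_span ⟨g, rfl⟩))

/-- Two-variable evaluation of tensors. -/
def tensorEval : (D.order hA hℓ ⊗[R] D.order hA hℓ) →ₐ[R] (T × T → Qbar) :=
  Algebra.TensorProduct.lift ((pull Prod.fst).comp (D.order hA hℓ).val)
    ((pull Prod.snd).comp (D.order hA hℓ).val) fun _ _ => Commute.all _ _

omit [Finite T] in
@[simp] theorem tensorEval_tmul (f g : D.order hA hℓ) (x y : T) :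
    D.tensorEval hA hℓ (f ⊗ₜ g) (x, y) = (f : T → Qbar) x * (g : T → Qbar) y := by
  simp [tensorEval]

theorem linearIndependent_pairs :
    LinearIndependent Qbar fun q : D.gens hA hℓ hT × D.gens hA hℓ hT =>
      fun p : T × T => (q.1 : T → Qbar) p.1 * (q.2 : T → Qbar) p.2 :=
  linearIndependent_mul_separate (D.gens_indep hA hℓ hT) (D.gens_indep hA hℓ hT)

theorem tensorEval_injective (hT : IsContinuousAction T) :
    Function.Injective (D.tensorEval hA hℓ) := by
  refine injective_of_basis_image ((D.basis hA hℓ hT).tensorProduct (D.basis hA hℓ hT))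
    (D.tensorEval hA hℓ).toLinearMap ?_
  convert restrict_scalars_R (ℓ := ℓ) (D.linearIndependent_pairs hA hℓ hT) using 1
  · funext q p
    obtain ⟨x, y⟩ := p
    simp [Module.Basis.tensorProduct_apply']
  all_goals rfl

/-- Three-variable evaluation of tensors. -/
def tensorEval₃ :
    (D.order hA hℓ ⊗[R] (D.order hA hℓ ⊗[R] D.order hA hℓ)) →ₐ[R] (T × T × T → Qbar) :=
  Algebra.TensorProduct.lift ((pull Prod.fst).comp (D.order hA hℓ).val)
    ((pull Prod.snd).comp (D.tensorEval hA hℓ)) fun _ _ => Commute.all _ _

omit [Finite T] in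
@[simp] theorem tensorEval₃_tmul (f : D.order hA hℓ) (u : D.order hA hℓ ⊗[R] D.order hA hℓ)
    (x y z : T) : D.tensorEval₃ hA hℓ (f ⊗ₜ u) (x, y, z) =
      (f : T → Qbar) x * D.tensorEval hA hℓ u (y, z) := by
  simp [tensorEval₃]

theorem tensorEval₃_injective (hT : IsContinuousAction T) :
    Function.Injective (D.tensorEval₃ hA hℓ) := by
  refine injective_of_basis_image ((D.basis hA hℓ hT).tensorProduct
    ((D.basis hA hℓ hT).tensorProduct (D.basis hA hℓ hT))) (D.tensorEval₃ hA hℓ).toLinearMap ?_
  convert restrict_scalars_R (ℓ := ℓ) (linearIndependent_mul_separate (D.gens_indep hA hℓ hT)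
    (D.linearIndependent_pairs hA hℓ hT)) using 1
  · funext q p
    obtain ⟨x, y, z⟩ := p
    simp [Module.Basis.tensorProduct_apply']
  all_goals rfl

theorem separated_mem_span {f g : T → Qbar} (hf : f ∈ D.alg) (hg : g ∈ D.alg) :
    (fun p : T × T => f p.1 * g p.2) ∈ Submodule.span A
      (Set.range fun q : D.gens hA hℓ hT × D.gens hA hℓ hT =>
        fun p : T × T => (q.1 : T → Qbar) p.1 * (q.2 : T → Qbar) p.2) := by
  obtain ⟨a, haA, rfl⟩ := D.exists_coeff hA hℓ hT hf
  obtain ⟨b, hbA, rfl⟩ := D.exists_coeff hA hℓ hT hg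
  rw [Submodule.mem_span_range_iff_exists_fun]
  refine ⟨fun q => ⟨a q.1 * b q.2, mul_mem (haA _) (hbA _)⟩, funext fun p => ?_⟩
  have hsm : ∀ (c : A) (y : Qbar), c • y = (c : Qbar) * y := fun _ _ => rfl
  simp only [Finset.sum_apply, Pi.smul_apply, hsm, smul_eq_mul, Finset.sum_mul_sum,
    Fintype.sum_prod_type]
  exact Finset.sum_congr rfl fun i _ => Finset.sum_congr rfl fun j _ => by ring

theorem exists_tensor (hT : IsContinuousAction T) (h : D.order hA hℓ) :
    pull (ℓ := ℓ) (fun p : T × T => p.1 + p.2) (h : T → Qbar) ∈ (D.tensorEval hA hℓ).range := by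
  set W := Submodule.span A (Set.range fun q : D.gens hA hℓ hT × D.gens hA hℓ hT =>
    fun p : T × T => (q.1 : T → Qbar) p.1 * (q.2 : T → Qbar) p.2) with hW
  have hWone : (1 : T × T → Qbar) ∈ W := by
    have h := D.separated_mem_span hA hℓ hT (one_mem D.alg) (one_mem D.alg)
    simp only [Pi.one_apply, mul_one] at h
    exact h
  have hWmul : ∀ u ∈ W, ∀ v ∈ W, u * v ∈ W := by
    intro u hu v hv
    induction hu using Submodule.span_induction with
    | mem u hu =>
      induction hv using Submodule.span_induction with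
      | mem v hv =>
        obtain ⟨q, rfl⟩ := hu
        obtain ⟨q', rfl⟩ := hv
        have := D.separated_mem_span hA hℓ hT
          (mul_mem (D.gens_subset hA hℓ hT q.1.2).1 (D.gens_subset hA hℓ hT q'.1.2).1)
          (mul_mem (D.gens_subset hA hℓ hT q.2.2).1 (D.gens_subset hA hℓ hT q'.2.2).1)
        convert this using 1
        funext p; simp [Pi.mul_apply]; ring
      | zero => simp
      | add a b _ _ ha hb => rw [mul_add]; exact add_mem ha hb
      | smul c a _ ha => rw [mul_smul_comm]; exact Submodule.smul_mem _ c ha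
    | zero => simp
    | add a b _ _ ha hb => rw [add_mul]; exact add_mem ha hb
    | smul c a _ ha => rw [smul_mul_assoc]; exact Submodule.smul_mem _ c ha
  let W' : Subalgebra A (T × T → Qbar) := W.toSubalgebra hWone fun x y hx hy => hWmul x hx y hy
  have hgen : ∀ f ∈ D.alg, (fun p : T × T => f (p.1 + p.2)) ∈ W' := by
    intro f hf
    induction hf using Algebra.adjoin_induction with
    | mem g hg =>
      obtain ⟨i, rfl⟩ := hg
      refine Algebra.adjoin_le ?_ (D.gen_add_mem i)
      rintro _ (⟨j, rfl⟩ | ⟨j, rfl⟩)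
      · have h := D.separated_mem_span hA hℓ hT (Algebra.subset_adjoin ⟨j, rfl⟩) (one_mem D.alg)
        simp only [Pi.one_apply, mul_one] at h
        exact h
      · have h := D.separated_mem_span hA hℓ hT (one_mem D.alg) (Algebra.subset_adjoin ⟨j, rfl⟩)
        simp only [Pi.one_apply, one_mul] at h
        exact h
    | algebraMap a => exact W'.algebraMap_mem a
    | add f g _ _ hf hg => exact add_mem hf hg
    | mul f g _ _ hf hg => exact mul_mem hf hg
  obtain ⟨c, hc⟩ := Submodule.mem_span_range_iff_exists_fun A |>.mp (hgen _ h.2.1)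
  have hc' : ∀ p : T × T, ∑ q, (c q : Qbar) *
      ((q.1 : T → Qbar) p.1 * (q.2 : T → Qbar) p.2) = (h : T → Qbar) (p.1 + p.2) := by
    intro p
    have := congr_fun hc p
    rw [Finset.sum_apply] at this
    exact this
  have hfix : ∀ q (σ : GalQ), σ (c q) = c q := by
    intro q σ
    refine sub_eq_zero.mp (Fintype.linearIndependent_iff.mp (D.linearIndependent_pairs hA hℓ hT)
      (fun q => σ (c q) - c q) (funext fun p => ?_) q)
    simp only [Finset.sum_apply, Pi.smul_apply, smul_eq_mul, sub_mul, Finset.sum_sub_distrib,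
      Pi.zero_apply, hc']
    rw [sub_eq_zero]
    have h1 := congr_arg σ (hc' (σ⁻¹ • p.1, σ⁻¹ • p.2))
    rw [map_sum, ← smul_add] at h1
    rw [← D.order_apply hA hℓ h.2, smul_inv_smul] at h1
    rw [← h1]
    refine Finset.sum_congr rfl fun q _ => ?_
    rw [map_mul, map_mul, ← D.order_apply hA hℓ (D.gens_subset hA hℓ hT q.1.2),
      ← D.order_apply hA hℓ (D.gens_subset hA hℓ hT q.2.2), smul_inv_smul, smul_inv_smul]
  choose r hr using fun q => exists_eq_algebraMap (ℓ := ℓ) hA hℓ (c q).2 (hfix q)
  refine ⟨∑ q, r q • (D.gensEl hA hℓ hT q.1 ⊗ₜ D.gensEl hA hℓ hT q.2), funext fun p => ?_⟩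
  obtain ⟨x, y⟩ := p
  show D.tensorEval hA hℓ _ (x, y) = _
  rw [map_sum, Finset.sum_apply]
  refine Eq.trans ?_ (hc' (x, y))
  refine Finset.sum_congr rfl fun q _ => ?_
  rw [map_smul, Pi.smul_apply, tensorEval_tmul, Algebra.smul_def, hr q]
  rfl

/-- Comultiplication. -/
def comulHom (hT : IsContinuousAction T) :
    D.order hA hℓ →ₐ[R] D.order hA hℓ ⊗[R] D.order hA hℓ :=
  (AlgEquiv.ofInjective _ (D.tensorEval_injective hA hℓ hT)).symm.toAlgHom.comp
    (((pull fun p : T × T => p.1 + p.2).comp (D.order hA hℓ).val).codRestrict _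
      fun h => D.exists_tensor hA hℓ hT h)

@[simp] theorem tensorEval_comulHom (h : D.order hA hℓ) (x y : T) :
    D.tensorEval hA hℓ (D.comulHom hA hℓ hT h) (x, y) = (h : T → Qbar) (x + y) := by
  rw [← AlgEquiv.ofInjective_apply _ (D.tensorEval_injective hA hℓ hT)]
  simp [comulHom]

omit [Finite T] in
theorem exists_counit (h : D.order hA hℓ) :
    ∃ r : R, algebraMap R Qbar r = (h : T → Qbar) 0 :=
  exists_eq_algebraMap hA hℓ (D.alg_apply_mem h.2.1 0) fun σ => by
    rw [← D.order_apply hA hℓ h.2 σ 0, smul_zero]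

/-- Counit. -/
def counitHom : D.order hA hℓ →ₐ[R] R where
  toFun h := (D.exists_counit hA hℓ h).choose
  map_one' := algebraMap_R_injective (by rw [(D.exists_counit hA hℓ 1).choose_spec, map_one]; rfl)
  map_mul' f g := algebraMap_R_injective (by
    rw [(D.exists_counit hA hℓ (f * g)).choose_spec, map_mul,
      (D.exists_counit hA hℓ f).choose_spec, (D.exists_counit hA hℓ g).choose_spec]; rfl)
  map_zero' := algebraMap_R_injective (by rw [(D.exists_counit hA hℓ 0).choose_spec, map_zero]; rfl)
  map_add' f g := algebraMap_R_injective (by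
    rw [(D.exists_counit hA hℓ (f + g)).choose_spec, map_add,
      (D.exists_counit hA hℓ f).choose_spec, (D.exists_counit hA hℓ g).choose_spec]; rfl)
  commutes' r := algebraMap_R_injective (by
    rw [(D.exists_counit hA hℓ (algebraMap R _ r)).choose_spec]; rfl)

omit [Finite T] in
@[simp] theorem algebraMap_counitHom (h : D.order hA hℓ) :
    algebraMap R Qbar (D.counitHom hA hℓ h) = (h : T → Qbar) 0 :=
  (D.exists_counit hA hℓ h).choose_spec

omit [Finite T] in
theorem antipode_mem {f : T → Qbar} (hf : f ∈ D.order hA hℓ) :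
    pull (ℓ := ℓ) (fun x : T => -x) f ∈ D.order hA hℓ := by
  refine ⟨?_, fun σ => funext fun x => ?_⟩
  · have : ∀ g ∈ D.alg, (fun x => g (-x)) ∈ D.alg := by
      intro g hg
      induction hg using Algebra.adjoin_induction with
      | mem g hg => obtain ⟨i, rfl⟩ := hg; exact D.gen_neg_mem i
      | algebraMap a => exact D.alg.algebraMap_mem a
      | add f g _ _ hf hg => exact add_mem hf hg
      | mul f g _ _ hf hg => exact mul_mem hf hg
    exact this f hf.1
  · rw [twist_apply, pull_apply, pull_apply, ← smul_neg, ← D.order_apply hA hℓ hf, smul_inv_smul]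

/-- Antipode. -/
def antipodeHom : D.order hA hℓ →ₐ[R] D.order hA hℓ :=
  ((pull fun x : T => -x).comp (D.order hA hℓ).val).codRestrict _ fun h =>
    D.antipode_mem hA hℓ h.2

omit [Finite T] in
@[simp] theorem coe_antipodeHom (h : D.order hA hℓ) (x : T) :
    (D.antipodeHom hA hℓ h : T → Qbar) x = (h : T → Qbar) (-x) := rfl

/-- The bialgebra structure on the order. -/
abbrev bialgebraOrder (hT : IsContinuousAction T) : Bialgebra R (D.order hA hℓ) :=
  Bialgebra.ofAlgHom (D.comulHom hA hℓ hT) (D.counitHom hA hℓ)
    (by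
      refine AlgHom.ext fun h => D.tensorEval₃_injective hA hℓ hT (funext fun p => ?_)
      obtain ⟨x, y, z⟩ := p
      have h1 : ∀ u : D.order hA hℓ ⊗[R] D.order hA hℓ,
          D.tensorEval₃ hA hℓ (Algebra.TensorProduct.assoc R R R _ _ _
            (Algebra.TensorProduct.map (D.comulHom hA hℓ hT) (.id R _) u)) (x, y, z) =
          D.tensorEval hA hℓ u (x + y, z) := by
        intro u
        induction u using TensorProduct.induction_on with
        | zero => simp
        | add a b ha hb => simp only [map_add, Pi.add_apply, ha, hb]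
        | tmul f g =>
          rw [Algebra.TensorProduct.map_tmul, tensorEval_tmul]
          have h2 : ∀ v : D.order hA hℓ ⊗[R] D.order hA hℓ,
              D.tensorEval₃ hA hℓ (Algebra.TensorProduct.assoc R R R _ _ _ (v ⊗ₜ g)) (x, y, z) =
              D.tensorEval hA hℓ v (x, y) * (g : T → Qbar) z := by
            intro v
            induction v using TensorProduct.induction_on with
            | zero => simp
            | add a b ha hb =>
              simp only [TensorProduct.add_tmul, map_add, Pi.add_apply, ha, hb, add_mul]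
            | tmul a b => simp [mul_assoc]
          rw [AlgHom.id_apply, h2, tensorEval_comulHom]
      have h3 : ∀ u : D.order hA hℓ ⊗[R] D.order hA hℓ,
          D.tensorEval₃ hA hℓ (Algebra.TensorProduct.map (.id R _) (D.comulHom hA hℓ hT) u)
              (x, y, z) =
          D.tensorEval hA hℓ u (x, y + z) := by
        intro u
        induction u using TensorProduct.induction_on with
        | zero => simp
        | add a b ha hb => simp only [map_add, Pi.add_apply, ha, hb]
        | tmul f g => simp
      refine (h1 _).trans (Eq.trans ?_ (h3 _).symm)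
      exact ((D.tensorEval_comulHom hA hℓ hT h (x + y) z).trans (by rw [add_assoc])).trans
        (D.tensorEval_comulHom hA hℓ hT h x (y + z)).symm)
    (by
      refine AlgHom.ext fun h => (Algebra.TensorProduct.lid R (D.order hA hℓ)).injective
        (Subtype.ext (funext fun x => ?_))
      have h1 : ∀ u, ((Algebra.TensorProduct.lid R (D.order hA hℓ))
          (Algebra.TensorProduct.map (D.counitHom hA hℓ) (.id R _) u) : T → Qbar) x =
          D.tensorEval hA hℓ u (0, x) := by
        intro u
        induction u using TensorProduct.induction_on with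
        | zero => simp
        | add a b ha hb => simp only [map_add, Subalgebra.coe_add, Pi.add_apply, ha, hb]
        | tmul f g =>
          rw [Algebra.TensorProduct.map_tmul, AlgHom.id_apply, Algebra.TensorProduct.lid_tmul,
            tensorEval_tmul, ← algebraMap_counitHom, Algebra.smul_def]
          rfl
      rw [AlgHom.comp_apply, h1, tensorEval_comulHom, zero_add]
      exact (congr_arg (fun f : D.order hA hℓ => (f : T → Qbar) x)
        (((Algebra.TensorProduct.lid R (D.order hA hℓ)).apply_symm_apply h))).symm)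
    (by
      refine AlgHom.ext fun h => (Algebra.TensorProduct.rid R R (D.order hA hℓ)).injective
        (Subtype.ext (funext fun x => ?_))
      have h1 : ∀ u, ((Algebra.TensorProduct.rid R R (D.order hA hℓ))
          (Algebra.TensorProduct.map (.id R _) (D.counitHom hA hℓ) u) : T → Qbar) x =
          D.tensorEval hA hℓ u (x, 0) := by
        intro u
        induction u using TensorProduct.induction_on with
        | zero => simp
        | add a b ha hb => simp only [map_add, Subalgebra.coe_add, Pi.add_apply, ha, hb]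
        | tmul f g =>
          rw [Algebra.TensorProduct.map_tmul, AlgHom.id_apply, Algebra.TensorProduct.rid_tmul,
            tensorEval_tmul, ← algebraMap_counitHom, Algebra.smul_def, mul_comm]
          rfl
      rw [AlgHom.comp_apply, h1, tensorEval_comulHom, add_zero]
      exact (congr_arg (fun f : D.order hA hℓ => (f : T → Qbar) x)
        (((Algebra.TensorProduct.rid R R (D.order hA hℓ)).apply_symm_apply h))).symm)

/-- The Hopf algebra structure on the order. -/
abbrev hopfOrder (hT : IsContinuousAction T) : HopfAlgebra R (D.order hA hℓ) :=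
  letI := D.bialgebraOrder hA hℓ hT
  HopfAlgebra.ofAlgHom (D.antipodeHom hA hℓ)
    (AlgHom.ext fun h => Subtype.ext (funext fun x => by
      have h1 : ∀ u, ((Algebra.TensorProduct.lift (D.antipodeHom hA hℓ) (.id R _)
          (fun _ _ => Commute.all _ _) u : D.order hA hℓ) : T → Qbar) x =
          D.tensorEval hA hℓ u (-x, x) := by
        intro u
        induction u using TensorProduct.induction_on with
        | zero => simp
        | add a b ha hb => simp only [map_add, Subalgebra.coe_add, Pi.add_apply, ha, hb]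
        | tmul f g => simp
      refine (h1 _).trans ?_
      refine (D.tensorEval_comulHom hA hℓ hT h (-x) x).trans ?_
      rw [neg_add_cancel, ← D.algebraMap_counitHom hA hℓ h]
      rfl))
    (AlgHom.ext fun h => Subtype.ext (funext fun x => by
      have h1 : ∀ u, ((Algebra.TensorProduct.lift (.id R _) (D.antipodeHom hA hℓ)
          (fun _ _ => Commute.all _ _) u : D.order hA hℓ) : T → Qbar) x =
          D.tensorEval hA hℓ u (x, -x) := by
        intro u
        induction u using TensorProduct.induction_on with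
        | zero => simp
        | add a b ha hb => simp only [map_add, Subalgebra.coe_add, Pi.add_apply, ha, hb]
        | tmul f g => simp
      refine (h1 _).trans ?_
      refine (D.tensorEval_comulHom hA hℓ hT h x (-x)).trans ?_
      rw [add_neg_cancel, ← D.algebraMap_counitHom hA hℓ h]
      rfl))

/-- Evaluation at a point of `T`. -/
def evalHom (x : T) : D.order hA hℓ →ₐ[R] Qbar :=
  (Pi.evalAlgHom R (fun _ : T => Qbar) x).comp (D.order hA hℓ).val

omit [Finite T] in
@[simp] theorem evalHom_apply (x : T) (h : D.order hA hℓ) :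
    D.evalHom hA hℓ x h = (h : T → Qbar) x := rfl

theorem evalHom_injective (hT : IsContinuousAction T) : Function.Injective (D.evalHom hA hℓ) := by
  classical
  intro x y hxy
  by_contra hne
  have h : ∀ f ∈ (⊤ : Submodule Qbar (T → Qbar)), f x = f y := by
    rw [← D.span_field_top hA hℓ hT]
    intro f hf
    induction hf using Submodule.span_induction with
    | mem f hf =>
      obtain ⟨g, rfl⟩ := hf
      exact DFunLike.congr_fun hxy (D.gensEl hA hℓ hT g)
    | zero => rfl
    | add u v _ _ hu hv => simp [hu, hv]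
    | smul c u _ hu => simp [hu]
  have := h (Pi.single x 1) Submodule.mem_top
  simp [Pi.single_eq_of_ne (Ne.symm hne)] at this

/-- Every `Qbar`-point of the order is the evaluation at a point. -/
theorem evalHom_surjective (hT : IsContinuousAction T) : Function.Surjective (D.evalHom hA hℓ) := by
  classical
  have := Fintype.ofFinite T
  intro φ
  let bK : Module.Basis (D.gens hA hℓ hT) Qbar (T → Qbar) :=
    .mk (D.gens_indep hA hℓ hT) (D.span_field_top hA hℓ hT).ge
  let L : (T → Qbar) →ₗ[Qbar] Qbar := bK.constr Qbar fun g => φ (D.gensEl hA hℓ hT g)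
  have hL : ∀ h : D.order hA hℓ, L h = φ h := by
    intro h
    obtain ⟨r, hr⟩ := Submodule.mem_span_range_iff_exists_fun R |>.mp
      (D.span_gensEl hA hℓ hT (Submodule.mem_top (x := h)))
    have h1 : (h : T → Qbar) = ∑ g, algebraMap R Qbar (r g) • bK g := by
      rw [← hr]
      simp only [AddSubmonoidClass.coe_finsetSum, SetLike.val_smul, gensEl, bK,
          Module.Basis.mk_apply]
      refine Finset.sum_congr rfl fun g _ => funext fun x => ?_
      simp only [Pi.smul_apply, Algebra.smul_def]
      rfl
    rw [h1, map_sum, ← hr, map_sum]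
    refine Finset.sum_congr rfl fun g _ => ?_
    rw [map_smul, map_smul, Module.Basis.constr_basis, smul_eq_mul, Algebra.smul_def]
  have hmul : ∀ u v, L (u * v) = L u * L v := by
    have : (LinearMap.mul Qbar (T → Qbar)).compr₂ L = (LinearMap.mul Qbar Qbar).compl₁₂ L L := by
      refine bK.ext fun g => bK.ext fun g' => ?_
      have hg : ∀ i, bK i = ((D.gensEl hA hℓ hT i : D.order hA hℓ) : T → Qbar) := fun i => by
        simp [bK, Module.Basis.mk_apply]; rfl
      simp only [LinearMap.compr₂_apply, LinearMap.compl₁₂_apply, LinearMap.mul_apply', hg, hL]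
      rw [← map_mul φ, ← hL]
      rfl
    exact fun u v => LinearMap.congr_fun (LinearMap.congr_fun this u) v
  have hone : L 1 = 1 := (hL 1).trans (map_one φ)
  obtain ⟨x, hx⟩ : ∃ x, L (Pi.single x 1) ≠ 0 := by
    by_contra hcon
    push Not at hcon
    apply one_ne_zero (α := Qbar)
    rw [← hone, show (1 : T → Qbar) = ∑ x, Pi.single x 1 from
      (Finset.univ_sum_single (1 : T → Qbar)).symm, map_sum]
    exact Finset.sum_eq_zero fun x _ => hcon x
  refine ⟨x, AlgHom.ext fun h => ?_⟩
  rw [evalHom_apply, ← hL]
  refine mul_right_cancel₀ hx ?_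
  rw [← hmul, ← smul_eq_mul, ← map_smul]
  congr 1
  funext y
  rcases eq_or_ne y x with rfl | hy
  · simp
  · simp [Pi.single_eq_of_ne hy]

omit [Finite T] in
theorem lift_evalHom (x y : T) :
    Algebra.TensorProduct.lift (D.evalHom hA hℓ x) (D.evalHom hA hℓ y)
        (fun _ _ => Commute.all _ _) =
      (Pi.evalAlgHom R (fun _ : T × T => Qbar) (x, y)).comp (D.tensorEval hA hℓ) :=
  Algebra.TensorProduct.ext' fun f g => by simp

/-- The Hopf order criterion: order data on `T` give a finite flat cocommutative Hopf algebra over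
`ℤ_(ℓ)` whose `Qbar`-points are `T`, compatibly with Galois. -/
theorem exists_finiteFlat_model (D : OrderData A T) (hA : A.LiesOverPrime ℓ) (hℓ : ℓ.Prime)
    (hT : IsContinuousAction T) :
    ∃ (H : Type) (_ : CommRing H) (_ : HopfAlgebra R H),
      Module.Finite R H ∧ Module.Flat R H ∧ Coalgebra.IsCocomm R H ∧
      ∃ e : WithConv (H →ₐ[R] AlgebraicClosure ℚ) ≃ T,
        (∀ f g, e (f * g) = e f + e g) ∧
        ∀ (σ : AlgebraicClosure ℚ ≃ₐ[ℚ] AlgebraicClosure ℚ)
          (f g : WithConv (H →ₐ[R] AlgebraicClosure ℚ)),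
          (∀ h : H, g h = σ (f h)) → e g = σ • e f := by
  let := D.hopfOrder hA hℓ hT
  have := Module.Free.of_basis (D.basis hA hℓ hT)
  have := Module.Finite.of_basis (D.basis hA hℓ hT)
  have hco : Coalgebra.IsCocomm R (D.order hA hℓ) := by
    refine ⟨LinearMap.ext fun h => D.tensorEval_injective hA hℓ hT (funext fun p => ?_)⟩
    obtain ⟨x, y⟩ := p
    have h1 : ∀ u : D.order hA hℓ ⊗[R] D.order hA hℓ,
        D.tensorEval hA hℓ (TensorProduct.comm R _ _ u) (x, y) = D.tensorEval hA hℓ u (y, x) := by
      intro u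
      induction u using TensorProduct.induction_on with
      | zero => simp
      | add a b ha hb => simp only [map_add, Pi.add_apply, ha, hb]
      | tmul f g => simp [mul_comm]
    refine (h1 _).trans ?_
    exact (D.tensorEval_comulHom hA hℓ hT h y x).trans
      ((congr_arg _ (add_comm y x)).trans (D.tensorEval_comulHom hA hℓ hT h x y).symm)
  let e' : WithConv (D.order hA hℓ →ₐ[R] Qbar) ≃ T :=
    (WithConv.equiv _).trans (Equiv.ofBijective _
      ⟨D.evalHom_injective hA hℓ hT, D.evalHom_surjective hA hℓ hT⟩).symm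
  have he : ∀ (f : WithConv (D.order hA hℓ →ₐ[R] Qbar)), D.evalHom hA hℓ (e' f) = f.ofConv :=
    fun f => Equiv.ofBijective_apply_symm_apply (D.evalHom hA hℓ)
      ⟨D.evalHom_injective hA hℓ hT, D.evalHom_surjective hA hℓ hT⟩ f.ofConv
  refine ⟨D.order hA hℓ, inferInstance, D.hopfOrder hA hℓ hT, inferInstance, inferInstance, hco,
    e', fun f g => ?_, fun σ f g hfg => ?_⟩
  · refine D.evalHom_injective hA hℓ hT ((he _).trans (AlgHom.ext fun h => ?_))
    refine (AlgHom.convMul_apply f g h).trans ?_
    simp only [← he, D.lift_evalHom hA hℓ]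
    exact D.tensorEval_comulHom hA hℓ hT h _ _
  · refine D.evalHom_injective hA hℓ hT ((he _).trans (AlgHom.ext fun h => ?_))
    refine (hfg h).trans ?_
    rw [evalHom_apply, D.order_apply hA hℓ h.2, ← he]
    rfl

end OrderData

end Fermat.Agent.GoodModel
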