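import Fermat.Agent.GoodModel.GaloisData
import Fermat.Agent.GoodModel.HopfOrder

/-!
# The order of coordinate functions of translated effective divisors

For a finite Galois module `T` inside the divisor classes of degree zero of a good model over a
place of `AlgebraicClosure ℚ` above `ℓ`, the coordinates of the spaces `L(mH - eff B t)` along an
inertia-fixed complement generate a Hopf order, whence a finite flat model over `ℤ_(ℓ)`.

The basis and complement are packaged as `Coordinates`; `Coordinates.orderData` is the resulting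
data for the Hopf order criterion.
-/

set_option autoImplicit false

noncomputable section

open AlgebraicCurve Filter

namespace Fermat.Agent.GoodModel

open Fermat.Agent.GoodReduction Fermat.Agent.GaloisBasics

section MaxAlg

variable {K k F κ : Type*} [Field K] [Field k] [Field F] [Field κ] [Algebra K F] [Algebra k κ]
variable {A : ValuationSubring K} {π : A →+* k} (red : Reduction F κ A π) (P : Type*)

variable (A) in
/-- All integral functions. -/
def maxAlg : Subalgebra A (P → K) where
  carrier := {f | ∀ p, f p ∈ A}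
  mul_mem' hf hg p := A.mul_mem _ _ (hf p) (hg p)
  add_mem' hf hg p := A.add_mem _ _ (hf p) (hg p)
  algebraMap_mem' a _ := a.2

theorem apply_mem_of_mem_maxAlg : ∀ f ∈ maxAlg A P, ∀ p, f p ∈ A := fun _ hf => hf

theorem indicator_mem_maxAlg [DecidableEq P] (q : P) : (Pi.single q (1 : K)) ∈ maxAlg A P :=
  fun p => by
    rcases eq_or_ne p q with rfl | h
    · simp [A.one_mem]
    · simp [Pi.single_eq_of_ne h, A.zero_mem]

/-- Every family is regular for the algebra of all integral functions. -/
theorem reg_maxAlg {P : Type} [Finite P] (W : P → Submodule K F)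
    [∀ p, FiniteDimensional K (W p)] : Reg red (maxAlg A P) W := by
  classical
  have := Fintype.ofFinite P
  choose b hbV hbW hbli hbspan using fun p => exists_resBasis red (W p) rfl
  let v : (Σ p : P, Fin (Module.finrank K (W p))) → P → F := fun i =>
    (⟨_, indicator_mem_maxAlg (A := A) P i.1⟩ : maxAlg A P) • fun _ : P => b i.1 i.2
  refine Reg.of_fintype red _ v
    (fun i => Submodule.smul_mem _ _ (const_mem_fam red _ (hbV i.1 i.2))) (fun i p => ?_)
    fun p => ?_
  · simp only [v, smul_apply_fam, evK_apply]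
    rcases eq_or_ne p i.1 with rfl | h
    · exact (W _).smul_mem _ (hbW i.1 i.2)
    · rw [Pi.single_eq_of_ne h, zero_smul]; exact zero_mem _
  · rw [← hbspan p, resSpace_span_eq red (hbV p) (hbli p)]
    refine Submodule.span_mono ?_
    rintro _ ⟨j, rfl⟩
    refine ⟨⟨p, j⟩, ?_⟩
    simp [v, smul_apply_fam, Pi.single_eq_same]

end MaxAlg

variable {ℓ : ℕ} {A : ValuationSubring Qbar} {k F κ : Type*} [Field k] [Field F] [Field κ]
  [Algebra Qbar F] [Algebra k κ] {π : A →+* k} {red : Reduction F κ A π}
variable {g : ℕ} {c : ℤ} {H : Divisor Qbar F} {Hb : Divisor k κ}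
variable {G : GoodReduction.GoodModel red g c H Hb}

theorem resSpace_LSpace_eq (G : GoodReduction.GoodModel red g c H Hb) {D : Divisor Qbar F}
    (hD : c ≤ Divisor.degree D) : red.resSpace (LSpace D) = LSpace (G.divMap D) := by
  have := G.riemann'.finite (G.divMap D)
  refine Submodule.eq_of_le_of_finrank_eq (fun y hy => ?_) ?_
  · obtain ⟨x, hx, rfl⟩ := red.exists_of_mem_resSpace hy
    exact G.res_mem_LSpace hx
  · have h1 := G.riemann.exact' D hD
    have h2 := G.riemann'.exact' (G.divMap D) (by rwa [G.degree_divMap])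
    rw [G.degree_divMap] at h2
    rw [G.finrank_resSpace_LSpace]
    omega

/-- A regular family of divisors gives regular spaces in every large degree. -/
theorem RegDiv.reg_at {P : Type*} [Finite P] [Infinite k] {S : Subalgebra A (P → Qbar)}
    (hS : ∀ f ∈ S, ∀ p, f p ∈ A) {D : P → Divisor Qbar F} {δ : ℤ} (hD : ∀ p, 0 ≤ D p)
    (hδ : ∀ p, Divisor.degree (D p) = δ) (h : RegDiv S red H D) {m : ℕ}
    (hm : c + δ ≤ m * Divisor.degree H) (G : GoodReduction.GoodModel red g c H Hb) (hH : 0 ≤ H) :
    Reg red S fun p => LSpace (m • H - D p) := by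
  refine h.reg_of_resSpace_eq S G hS hD hδ
    (e := ((m : ℤ) * Divisor.degree H - δ + 1 - g).toNat) (fun p => ?_) fun p => ?_
  · have := G.riemann.exact' (m • H - D p) (by rw [G.degree_smul_sub, hδ]; linarith)
    rw [G.degree_smul_sub, hδ] at this
    omega
  · rw [resSpace_LSpace_eq G (by rw [G.degree_smul_sub, hδ]; linarith), map_sub, map_nsmul,
      divMap_H G hH]

variable {act : GalQ →* SemilinearAut Qbar F}

theorem map_eq_of_val_lt (red : Reduction F κ A π) {a b : A}
    (h : A.valuation ((a : Qbar) - b) < 1) : π a = π b := by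
  rw [← sub_eq_zero, ← map_sub, red.map_eq_zero_iff, ← mem_nonunits_iff,
    ← IsLocalRing.mem_maximalIdeal, ← ValuationSubring.coe_mem_nonunits_iff, A.mem_nonunits_iff]
  exact h

/-- Residues lift to inertia-invariant scalars. -/
theorem exists_inert_lift (red : Reduction F κ A π) (hA : A.LiesOverPrime ℓ) (hℓ : ℓ.Prime)
    (y : k) : ∃ a : A, π a = y ∧ ∀ σ, Inert A σ → σ (a : Qbar) = a := by
  obtain ⟨x, rfl⟩ := red.surjective y
  rcases lt_or_eq_of_le ((A.valuation_le_one_iff _).mpr x.2) with h | h
  · refine ⟨0, map_eq_of_val_lt red ?_, fun σ _ => map_zero σ⟩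
    simpa [Valuation.map_neg] using h
  · obtain ⟨z, m, hm, hz, hlt⟩ := exists_root_lift hA hℓ h
    have hm0 : m ≠ 0 := fun h0 => hm (h0 ▸ dvd_zero ℓ)
    have hzA : z ∈ A := (A.valuation_le_one_iff _).mp ((pow_left_inj₀ zero_le zero_le hm0).mp
      (by rw [← map_pow, hz, map_one, one_pow] : A.valuation z ^ m = 1 ^ m)).le
    refine ⟨⟨z, hzA⟩, (map_eq_of_val_lt red hlt).symm, fun σ hσ => ?_⟩
    exact root_eq_of_val_sub_lt hA hℓ hm hz (by rw [← map_pow, hz, map_one]) (hσ.2 z hzA)

/-- If `b` spans the residues of `M` and `c` gives the components of the `b i` along a residual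
complement `u` of `W`, the differences `b i - ∑ c i l • u l` span the residues of `W`. -/
theorem resSpace_le_span_sub {M W : Submodule Qbar F} (hWM : W ≤ M) {n : ℕ} {b : Fin n → F}
    (hbV : ∀ i, b i ∈ red.V)
    (hbres : red.resSpace M ≤ Submodule.span k (Set.range (resF red ∘ b)))
    {r : ℕ} {u : Fin r → F} (huV : ∀ l, u l ∈ red.V)
    (hdisj : Disjoint (red.resSpace W) (Submodule.span k (Set.range (resF red ∘ u))))
    (c : Fin n → Fin r → A) (hc : ∀ i, b i - ∑ l, (c i l : Qbar) • u l ∈ W) :
    red.resSpace W ≤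
      Submodule.span k (Set.range fun i => resF red (b i - ∑ l, (c i l : Qbar) • u l)) := by
  intro x hx
  obtain ⟨d, hd⟩ := (Submodule.mem_span_range_iff_exists_fun k).mp
    (hbres (red.resSpace_mono hWM hx))
  have hsumV : ∀ i, ∑ l, (c i l : Qbar) • u l ∈ red.V := fun i =>
    sum_mem fun l _ => smul_mem_V red (c i l).2 (huV l)
  set v : Fin n → F := fun i => b i - ∑ l, (c i l : Qbar) • u l with hv
  have hres : ∀ i, resF red (b i) = resF red (v i) + resF red (∑ l, (c i l : Qbar) • u l) := by
    intro i
    rw [← resF_add red (sub_mem (hbV i) (hsumV i)) (hsumV i)]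
    exact congrArg (resF red) (sub_add_cancel _ _).symm
  have hv' : ∑ i, d i • resF red (v i) ∈ red.resSpace W :=
    Submodule.sum_mem _ fun i _ => Submodule.smul_mem _ _
      (resF_mem red (sub_mem (hbV i) (hsumV i)) (hc i))
  have h2 : x - ∑ i, d i • resF red (v i) ∈ Submodule.span k (Set.range (resF red ∘ u)) := by
    rw [← hd, ← Finset.sum_sub_distrib]
    refine Submodule.sum_mem _ fun i _ => ?_
    rw [Function.comp_apply, ← smul_sub, hres i, add_sub_cancel_left]
    refine Submodule.smul_mem _ _ ?_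
    rw [resF_sum red _ fun l _ => smul_mem_V red (c i l).2 (huV l)]
    exact Submodule.sum_mem _ fun l _ => by
      rw [resF_smul red (c i l).2 (huV l)]
      exact Submodule.smul_mem _ _ (Submodule.subset_span ⟨l, rfl⟩)
  have h0 := Submodule.disjoint_def.mp hdisj _ (sub_mem hx hv') h2
  rw [sub_eq_zero.mp h0, Submodule.mem_span_range_iff_exists_fun]
  exact ⟨d, rfl⟩

/-- Integral elements of a space whose residues span its residue space span that space. -/
theorem span_eq_of_resSpace_le {W : Submodule Qbar F} [FiniteDimensional Qbar W] {n : ℕ}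
    {v : Fin n → F} (hvV : ∀ i, v i ∈ red.V) (hvW : ∀ i, v i ∈ W)
    (hres : red.resSpace W ≤ Submodule.span k (Set.range fun i => resF red (v i))) :
    Submodule.span Qbar (Set.range v) = W := by
  have hle : Submodule.span Qbar (Set.range v) ≤ W :=
    Submodule.span_le.mpr (by rintro _ ⟨i, rfl⟩; exact hvW i)
  have : FiniteDimensional Qbar (Submodule.span Qbar (Set.range v)) :=
    Submodule.finiteDimensional_of_le hle
  have := red.finite_resSpace (Submodule.span Qbar (Set.range v))
  refine Submodule.eq_of_le_of_finrank_le hle ?_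
  rw [← red.finrank_resSpace, ← red.finrank_resSpace (Submodule.span Qbar _)]
  refine Submodule.finrank_mono (hres.trans (Submodule.span_le.mpr ?_))
  rintro _ ⟨i, rfl⟩
  exact resF_mem red (hvV i) (Submodule.subset_span ⟨i, rfl⟩)

/-- An element of the decomposition group carries residual complements to residual complements. -/
theorem resSpace_le_sup_smul (M : GaloisData G act) {σ : GalQ} (hσ : Decomp A σ)
    {m : ℕ} {W W' : Submodule Qbar F} (hW : ∀ f ∈ W, act σ • f ∈ W') {r : ℕ} {u : Fin r → F}
    (huV : ∀ l, u l ∈ red.V)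
    (hsup : red.resSpace (LSpace (m • H)) ≤
      red.resSpace W ⊔ Submodule.span k (Set.range (resF red ∘ u))) :
    red.resSpace (LSpace (m • H)) ≤
      red.resSpace W' ⊔ Submodule.span k (Set.range (resF red ∘ fun l => act σ • u l)) := by
  intro x hx
  obtain ⟨f, hfV, hfM, rfl⟩ := exists_resF_eq red hx
  have hf'V := M.smul_mem_V hσ.inv hfV
  obtain ⟨p, hp, q, hq, hpq⟩ := Submodule.mem_sup.mp
    (hsup (resF_mem red hf'V (M.smul_mem_LSpace_H σ⁻¹ hfM)))
  obtain ⟨p', hp'V, hp'W, rfl⟩ := exists_resF_eq red hp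
  obtain ⟨d, rfl⟩ := (Submodule.mem_span_range_iff_exists_fun k).mp hq
  choose d' hd' using fun l => red.surjective (d l)
  have hqV : ∀ l, ((d' l : A) : Qbar) • u l ∈ red.V := fun l => smul_mem_V red (d' l).2 (huV l)
  have h0 : resF red (act σ⁻¹ • f - p' - ∑ l, ((d' l : A) : Qbar) • u l) = 0 := by
    have e : act σ⁻¹ • f = (act σ⁻¹ • f - p' - ∑ l, ((d' l : A) : Qbar) • u l) +
        (p' + ∑ l, ((d' l : A) : Qbar) • u l) := by abel
    have h1 := congrArg (resF red) e
    rw [resF_add red (sub_mem (sub_mem hf'V hp'V) (sum_mem fun l _ => hqV l))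
      (add_mem hp'V (sum_mem fun l _ => hqV l)),
      resF_add red hp'V (sum_mem fun l _ => hqV l), resF_sum red _ fun l _ => hqV l] at h1
    simp only [resF_smul red (d' _).2 (huV _), Subtype.coe_eta, hd'] at h1
    rw [← hpq] at h1
    simpa using h1
  have h2 := M.resF_smul_eq_zero hσ
    (sub_mem (sub_mem hf'V hp'V) (sum_mem fun l _ => hqV l)) h0
  rw [smul_sub (act σ), smul_sub (act σ), map_inv, smul_inv_smul, Finset.smul_sum] at h2
  simp only [M.smul_smul_eq] at h2
  have hσd : ∀ l, σ ((d' l : A) : Qbar) ∈ A := fun l => (hσ _).mpr (d' l).2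
  have hσp := M.smul_mem_V hσ hp'V
  have hσq : ∀ l, σ ((d' l : A) : Qbar) • (act σ • u l) ∈ red.V := fun l =>
    smul_mem_V red (hσd l) (M.smul_mem_V hσ (huV l))
  have e : f = (f - act σ • p' - ∑ l, σ ((d' l : A) : Qbar) • (act σ • u l)) +
      (act σ • p' + ∑ l, σ ((d' l : A) : Qbar) • (act σ • u l)) := by abel
  rw [e, resF_add red (sub_mem (sub_mem hfV hσp) (sum_mem fun l _ => hσq l))
    (add_mem hσp (sum_mem fun l _ => hσq l)), resF_add red hσp (sum_mem fun l _ => hσq l),
    resF_sum red _ fun l _ => hσq l, h2, zero_add]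
  refine Submodule.add_mem_sup (resF_mem red hσp (hW _ hp'W)) (Submodule.sum_mem _ fun l _ => ?_)
  rw [resF_smul red (hσd l) (M.smul_mem_V hσ (huV l))]
  exact Submodule.smul_mem _ _ (Submodule.subset_span ⟨l, rfl⟩)

variable {T : Type} [AddCommGroup T] [Finite T] [DistribMulAction GalQ T]
  (φ : T →+ Pic0 Qbar F)

omit [DistribMulAction GalQ T] in
/-- A good divisor fixed by inertia. -/
theorem exists_good_fixed (M : GaloisData G act) :
    ∃ B : Divisor Qbar F, Good φ G B ∧ ∀ σ, Inert A σ → act σ • B = B := by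
  classical
  obtain ⟨Bm, hBs, hBc, hB⟩ := exists_good_divisor G.riemann'
    (fun t => G.divMap (rep φ t : Divisor Qbar F))
    (fun t => by rw [G.degree_divMap, degree_rep]) M.infinite_fixed
  let L : Place k κ → Divisor Qbar F := fun q =>
    if h : q ∈ G.placeMap '' {v | ∀ σ, Inert A σ → act σ • v = v} then Finsupp.single h.choose 1
    else 0
  have hL : ∀ q ∈ Bm, G.divMap (L q) = Finsupp.single q 1 ∧ 0 ≤ L q ∧
      Divisor.degree (L q) = 1 ∧ ∀ σ, Inert A σ → act σ • L q = L q := by
    intro q hq
    simp only [L, dif_pos (hBs q hq)]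
    obtain ⟨hfix, hq'⟩ := (hBs q hq).choose_spec
    exact ⟨by rw [G.divMap_single, hq'], by simp, G.riemann.degree_single _ _,
      fun σ hσ => by rw [SemilinearAut.smul_single, hfix σ hσ]⟩
  have key : ∀ B' : Multiset (Place k κ), (∀ q ∈ B', q ∈ Bm) →
      G.divMap (B'.map L).sum = (B'.map fun q => Finsupp.single q (1 : ℤ)).sum ∧
      0 ≤ (B'.map L).sum ∧ Divisor.degree (B'.map L).sum = B'.card ∧
      ∀ σ, Inert A σ → act σ • (B'.map L).sum = (B'.map L).sum := by
    intro B' hB'
    induction B' using Multiset.induction with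
    | empty => simp
    | cons q B' ih =>
      obtain ⟨h1, h2, h3, h4⟩ := hL q (hB' q (Multiset.mem_cons_self q B'))
      obtain ⟨i1, i2, i3, i4⟩ := ih fun x hx => hB' x (Multiset.mem_cons_of_mem hx)
      refine ⟨by simp [h1, i1], by simpa using add_nonneg h2 i2, by simp [h3, i3]; ring,
        fun σ hσ => by simp only [Multiset.map_cons, Multiset.sum_cons, smul_add, h4 σ hσ, i4 σ hσ]⟩
  obtain ⟨k1, k2, k3, k4⟩ := key Bm fun q hq => hq
  exact ⟨(Bm.map L).sum, ⟨k2, by rw [k3, hBc], fun t => by rw [map_add, k1]; exact hB t⟩, k4⟩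

/-! ### Coordinates of the translates of a good divisor -/

variable {φ} {B : Divisor Qbar F}

/-- An integral Galois-fixed family `b` in some large `L(mH)` spanning its residues, and an
inertia-fixed family `u` which is a residual complement of every `L(mH - eff B t)`. -/
structure Coordinates (act : GalQ →* SemilinearAut Qbar F) (hB : Good φ G B) where
  m : ℕ
  n : ℕ
  le_degree : max (c + 1 + g + g) (3 * g) ≤ m * Divisor.degree H
  b : Fin n → F
  b_mem_V : ∀ i, b i ∈ red.V
  b_mem_LSpace : ∀ i, b i ∈ LSpace (m • H)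
  resSpace_le_span_b :
    red.resSpace (LSpace (m • H)) ≤ Submodule.span k (Set.range (resF red ∘ b))
  smul_b : ∀ σ i, act σ • b i = b i
  u : Fin g → F
  u_mem_V : ∀ l, u l ∈ red.V
  u_mem_LSpace : ∀ l, u l ∈ LSpace (m • H)
  inert_smul_u : ∀ σ, Inert A σ → ∀ l, act σ • u l = u l
  resSpace_le_sup : ∀ t, red.resSpace (LSpace (m • H)) ≤
    red.resSpace (LSpace (m • H - eff hB t)) ⊔ Submodule.span k (Set.range (resF red ∘ u))
  disjoint : ∀ t, Disjoint (red.resSpace (LSpace (m • H - eff hB t)))
    (Submodule.span k (Set.range (resF red ∘ u)))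

omit [DistribMulAction GalQ T] in
/-- A good divisor has coordinates. -/
theorem exists_coordinates [Infinite k] (M : GaloisData G act) (hA : A.LiesOverPrime ℓ)
    (hℓ : ℓ.Prime) (hB : Good φ G B) : Nonempty (Coordinates act hB) := by
  classical
  have := fun D => G.riemann.finite D
  obtain ⟨m, hm⟩ := (eventually_le_mul G.deg_pos (max (c + 1 + g + g) (3 * g))).exists
  obtain ⟨n, b, hbV, hbli, hbspan, hbfix⟩ := M.fixedBasis m
  set Mm := LSpace (m • H) with hMm
  have hbM : ∀ i, b i ∈ Mm := fun i => hbspan ▸ Submodule.subset_span ⟨i, rfl⟩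
  have := red.finite_resSpace Mm
  set r : ℕ := ((m : ℤ) * Divisor.degree H - g + 1 - g).toNat
  set U : T → Submodule k (red.resSpace Mm) := fun t =>
    (red.resSpace (LSpace (m • H - eff hB t))).comap (red.resSpace Mm).subtype
  have hU : ∀ t, Module.finrank k (U t) = r := fun t => by
    rw [(Submodule.comapSubtypeEquivOfLe
      (red.resSpace_mono (LSpace_mono (sub_le_self _ (eff_nonneg hB t))))).finrank_eq,
      red.finrank_resSpace]
    have hd : Divisor.degree (m • H - eff hB t) = m * Divisor.degree H - g := by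
      rw [G.degree_smul_sub, degree_eff]
    have := G.riemann.exact' _ (by rw [hd]; omega)
    rw [hd] at this
    omega
  have hrg : g + r = Module.finrank k (red.resSpace Mm) := by
    have := G.riemann.exact' (m • H) (by rw [map_nsmul, nsmul_eq_mul]; omega)
    rw [map_nsmul, nsmul_eq_mul] at this
    rw [red.finrank_resSpace, hMm]
    omega
  obtain ⟨w, hw⟩ := exists_common_compl (k := k) g U r hU hrg
  have hbres : red.resSpace Mm = Submodule.span k (Set.range (resF red ∘ b)) :=
    (congrArg red.resSpace hbspan.symm).trans (resSpace_span_eq red hbV hbli)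
  choose y hy using fun l => (Submodule.mem_span_range_iff_exists_fun k).mp
    (hbres ▸ (w l).2 : ((w l : red.resSpace Mm) : κ) ∈ Submodule.span k (Set.range (resF red ∘ b)))
  choose a ha hafix using fun l i => exists_inert_lift red hA hℓ (y l i)
  set u : Fin g → F := fun l => ∑ i, ((a l i : A) : Qbar) • b i with hu
  have huw : resF red ∘ u = (red.resSpace Mm).subtype ∘ w := funext fun l => by
    show resF red (u l) = (w l : κ)
    rw [hu, resF_sum red _ fun i _ => smul_mem_V red (a l i).2 (hbV i), ← hy l]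
    exact Finset.sum_congr rfl fun i _ => by rw [resF_smul red (a l i).2 (hbV i), ha]; rfl
  refine ⟨⟨m, n, hm, b, hbV, hbM, hbres.le, hbfix, u,
    fun l => sum_mem fun i _ => smul_mem_V red (a l i).2 (hbV i),
    fun l => Submodule.sum_mem _ fun i _ => Mm.smul_mem _ (hbM i),
    fun σ hσ l => ?_, fun t x hx => ?_, fun t => ?_⟩⟩
  · rw [hu, Finset.smul_sum]
    exact Finset.sum_congr rfl fun i _ => by rw [M.smul_smul_eq, hbfix, hafix l i σ hσ]
  · have hmem : (⟨x, hx⟩ : red.resSpace Mm) ∈ U t ⊔ Submodule.span k (Set.range w) := by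
      rw [hw t]; trivial
    obtain ⟨p, hp, q, hq, hpq⟩ := Submodule.mem_sup.mp hmem
    refine Submodule.mem_sup.mpr ⟨p, hp, q, ?_, congrArg Subtype.val hpq⟩
    have : (red.resSpace Mm).subtype q ∈
        (Submodule.span k (Set.range w)).map (red.resSpace Mm).subtype := ⟨q, hq, rfl⟩
    rw [Submodule.map_span, ← Set.range_comp, ← huw] at this
    exact this
  · have h := (compl_props (hU t) hrg (hw t)).2
    rw [Submodule.disjoint_def]
    intro x hx1 hx2
    rw [huw, Set.range_comp, ← Submodule.map_span] at hx2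
    obtain ⟨q, hq, rfl⟩ := hx2
    rw [Submodule.disjoint_def.mp h q hx1 hq, map_zero]

namespace Coordinates

variable {hB : Good φ G B} (C : Coordinates act hB)

/-- The dimension of each `L(mH - eff B t)`. -/
def rank : ℕ := ((C.m : ℤ) * Divisor.degree H - g + 1 - g).toNat

omit [Finite T] [DistribMulAction GalQ T] in
theorem degree_sub_eff {B' : Divisor Qbar F} (hB' : Good φ G B') (t : T) :
    Divisor.degree (C.m • H - eff hB' t) = C.m * Divisor.degree H - g := by
  rw [G.degree_smul_sub, degree_eff]

omit [Finite T] [DistribMulAction GalQ T] in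
theorem finrank_sub_eff {B' : Divisor Qbar F} (hB' : Good φ G B') (t : T) :
    Module.finrank Qbar (LSpace (C.m • H - eff hB' t)) = C.rank := by
  have h := C.le_degree
  have := G.riemann.exact' _ (by rw [C.degree_sub_eff hB' t]; omega)
  rw [C.degree_sub_eff hB' t] at this
  rw [rank]
  omega

omit [Finite T] [DistribMulAction GalQ T] in
theorem rank_add : C.rank + g = Module.finrank Qbar (LSpace (C.m • H)) := by
  have h := C.le_degree
  have := G.riemann.exact' (C.m • H) (by rw [map_nsmul, nsmul_eq_mul]; omega)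
  rw [map_nsmul, nsmul_eq_mul] at this
  rw [rank]
  omega

omit [Finite T] [DistribMulAction GalQ T] in
theorem LSpace_sub_eff_le {B' : Divisor Qbar F} (hB' : Good φ G B') (t : T) :
    LSpace (C.m • H - eff hB' t) ≤ LSpace (C.m • H) :=
  LSpace_mono (sub_le_self _ (eff_nonneg hB' t))

variable [Infinite k]

omit [DistribMulAction GalQ T] in
theorem exists_coord_functions (i : Fin C.n) : ∃ γ : Fin g → maxAlg A T, ∀ t,
    C.b i - ∑ l, (γ l : T → Qbar) t • C.u l ∈ LSpace (C.m • H - eff hB t) := by
  have := fun D => G.riemann.finite D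
  have : ∀ t, FiniteDimensional Qbar ((fun t => LSpace (C.m • H - eff hB t)) t) := fun t =>
    G.riemann.finite _
  exact exists_coeff red (maxAlg A T) (apply_mem_of_mem_maxAlg T) (C.LSpace_sub_eff_le hB)
    (reg_maxAlg red fun t => LSpace (C.m • H - eff hB t)) (C.finrank_sub_eff hB) C.rank_add
    C.u_mem_V C.u_mem_LSpace C.resSpace_le_sup (const_mem_fam red (maxAlg A T) (C.b_mem_V i))
    fun _ => C.b_mem_LSpace i

/-- The coordinates of the `b i` along `u` modulo `L(mH - eff B t)`, as functions of `t`. -/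
def coord (il : Fin C.n × Fin g) : T → Qbar :=
  ((C.exists_coord_functions il.1).choose il.2 : T → Qbar)

/-- The algebra generated by the coordinates. -/
abbrev alg : Subalgebra A (T → Qbar) := Algebra.adjoin A (Set.range C.coord)

omit [DistribMulAction GalQ T] in
theorem coord_mem (il : Fin C.n × Fin g) (t : T) : C.coord il t ∈ A :=
  ((C.exists_coord_functions il.1).choose il.2).2 t

omit [DistribMulAction GalQ T] in
theorem alg_apply_mem : ∀ f ∈ C.alg, ∀ t, f t ∈ A := fun f hf =>
  (Algebra.adjoin_le (S := maxAlg A T) (by rintro _ ⟨il, rfl⟩; exact C.coord_mem il) hf :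
    f ∈ maxAlg A T)

omit [DistribMulAction GalQ T] in
theorem sub_coord_mem (i : Fin C.n) (t : T) :
    C.b i - ∑ l, C.coord (i, l) t • C.u l ∈ LSpace (C.m • H - eff hB t) :=
  (C.exists_coord_functions i).choose_spec t

omit [DistribMulAction GalQ T] in
theorem coord_unique {i : Fin C.n} {t : T} {d : Fin g → Qbar}
    (hd : C.b i - ∑ l, d l • C.u l ∈ LSpace (C.m • H - eff hB t)) (l : Fin g) :
    d l = C.coord (i, l) t := by
  have := G.riemann.finite (C.m • H)
  have h := sub_mem (C.sub_coord_mem i t) hd
  rw [sub_sub_sub_cancel_left, ← Finset.sum_sub_distrib] at h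
  simp only [← sub_smul] at h
  have := coeff_unique red (C.LSpace_sub_eff_le hB t) (C.finrank_sub_eff hB t) C.rank_add
    C.u_mem_V (C.resSpace_le_sup t) h
  exact sub_eq_zero.mp (congrFun this l)

omit [DistribMulAction GalQ T] in
theorem resSpace_le_span_sub_coord (t : T) : red.resSpace (LSpace (C.m • H - eff hB t)) ≤
    Submodule.span k (Set.range fun i => resF red (C.b i - ∑ l, C.coord (i, l) t • C.u l)) :=
  resSpace_le_span_sub (C.LSpace_sub_eff_le hB t) C.b_mem_V C.resSpace_le_span_b C.u_mem_V
    (C.disjoint t) (fun i l => ⟨C.coord (i, l) t, C.coord_mem _ t⟩) fun i => C.sub_coord_mem i t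

omit [DistribMulAction GalQ T] in
/-- The translates of `B` are regular over the algebra of their coordinates. -/
theorem regDiv (hH : 0 ≤ H) : RegDiv C.alg red H fun t => eff hB t := by
  have := fun D => G.riemann.finite D
  have := fun D => G.riemann'.finite D
  have hdeg := C.le_degree
  let gS : Fin C.n → Fin g → C.alg := fun i l =>
    ⟨C.coord (i, l), Algebra.subset_adjoin ⟨(i, l), rfl⟩⟩
  set v : Fin C.n → T → F := fun i =>
    (fun _ : T => C.b i) - ∑ l, gS i l • fun _ : T => C.u l with hv
  have hvapp : ∀ i t, v i t = C.b i - ∑ l, C.coord (i, l) t • C.u l := fun i t => by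
    simp only [v, Pi.sub_apply, Finset.sum_apply, smul_apply_fam]
    rfl
  refine RegDiv.of_one C.alg G C.alg_apply_mem (fun t => eff_nonneg hB t)
    (fun t => degree_eff hB t) ⟨C.n, v, fun i => sub_mem (const_mem_fam red _ (C.b_mem_V i))
      (sum_mem fun l _ => Submodule.smul_mem _ _ (const_mem_fam red _ (C.u_mem_V l))),
      fun i t => hvapp i t ▸ C.sub_coord_mem i t, fun t => ?_⟩ (fun t => ?_) (by omega)
  · simp only [hvapp]
    exact C.resSpace_le_span_sub_coord t
  · rw [resSpace_LSpace_eq G (by rw [C.degree_sub_eff hB t]; omega), map_sub, map_nsmul,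
      divMap_H G hH]

omit [DistribMulAction GalQ T] in
/-- The coordinates of a regular family of translates lie in the algebra of the family. -/
theorem coord_comp_mem (hH : 0 ≤ H) {P : Type} [Finite P] {S : Subalgebra A (P → Qbar)}
    (hS : ∀ f ∈ S, ∀ p, f p ∈ A) (x : P → T) (hx : RegDiv S red H fun p => eff hB (x p))
    (il : Fin C.n × Fin g) : (fun p => C.coord il (x p)) ∈ S := by
  have := fun D => G.riemann.finite D
  have hdeg := C.le_degree
  obtain ⟨d, hd⟩ := exists_coeff red S hS (fun p => C.LSpace_sub_eff_le hB (x p))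
    (hx.reg_at hS (fun p => eff_nonneg hB _) (fun p => degree_eff hB _) (by omega) G hH)
    (fun p => C.finrank_sub_eff hB (x p)) C.rank_add C.u_mem_V C.u_mem_LSpace
    (fun p => C.resSpace_le_sup (x p)) (const_mem_fam red S (C.b_mem_V il.1))
    (fun _ => C.b_mem_LSpace il.1)
  have : (fun p => C.coord il (x p)) = (d il.2 : P → Qbar) := funext fun p =>
    (C.coord_unique (d := fun l => evK S p (d l)) (hd p) il.2).symm
  rw [this]
  exact (d il.2).2

omit [DistribMulAction GalQ T] in
/-- The coordinates separate the points of `T`. -/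
theorem separates (hinj : Function.Injective φ) {x y : T}
    (hxy : ∀ il, C.coord il x = C.coord il y) : x = y := by
  have := fun D => G.riemann.finite D
  have hdeg := C.le_degree
  have hspan : ∀ t, Submodule.span Qbar
      (Set.range fun i => C.b i - ∑ l, C.coord (i, l) t • C.u l) =
        LSpace (C.m • H - eff hB t) := fun t =>
    span_eq_of_resSpace_le
      (fun i => sub_mem (C.b_mem_V i) (sum_mem fun l _ =>
        smul_mem_V red (C.coord_mem _ t) (C.u_mem_V l)))
      (fun i => C.sub_coord_mem i t) (C.resSpace_le_span_sub_coord t)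
  refine hinj (eq_of_eff_eq hB ?_)
  have heq : LSpace (C.m • H - eff hB x) = LSpace (C.m • H - eff hB y) := by
    rw [← hspan x, ← hspan y]
    simp only [hxy]
  exact sub_right_injective (G.riemann.eq_of_LSpace_eq (by rw [C.degree_sub_eff hB x]; omega)
    (by rw [C.degree_sub_eff hB y]; omega) heq)

variable (M : GaloisData G act) (hφ : ∀ (σ : GalQ) t, φ (σ • t) = act σ • φ t)

include M hφ

/-- Inertia fixes the coordinates if it fixes `B`. -/
theorem twist_coord_of_inert (hBfix : ∀ σ, Inert A σ → act σ • B = B) {σ : GalQ}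
    (hσ : Inert A σ) (il : Fin C.n × Fin g) : twist σ (C.coord il) = C.coord il := by
  obtain ⟨i, l⟩ := il
  refine funext fun t => C.coord_unique (d := fun l => twist σ (C.coord (i, l)) t) ?_ l
  have h := smul_mem_LSpace (act σ) (C.sub_coord_mem i (σ⁻¹ • t))
  rw [smul_sub (act σ), smul_sub (act σ), smul_comm, M.H_fixed, eff_smul M hφ hB hσ.1,
    C.smul_b, Finset.smul_sum] at h
  simp only [M.smul_smul_eq, C.inert_smul_u σ hσ, smul_inv_smul] at h
  simp only [twist_apply]
  convert h using 3
  congr 1
  exact hBfix σ hσ |>.symm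

/-- The decomposition group preserves the algebra of coordinates. -/
theorem twist_coord_mem {σ : GalQ} (hσ : Decomp A σ) (il : Fin C.n × Fin g) :
    twist σ (C.coord il) ∈ C.alg := by
  have := fun D => G.riemann.finite D
  have hdeg := C.le_degree
  obtain ⟨i, l⟩ := il
  have hσB := good_smul M hφ hB hσ
  set u' : Fin g → F := fun l => act σ • C.u l
  have hu'V : ∀ l, u' l ∈ red.V := fun l => M.smul_mem_V hσ (C.u_mem_V l)
  have hsup' : ∀ t, red.resSpace (LSpace (C.m • H)) ≤
      red.resSpace (LSpace (C.m • H - eff hσB t)) ⊔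
        Submodule.span k (Set.range (resF red ∘ u')) := fun t =>
    resSpace_le_sup_smul M hσ (fun p hp => by
      have := smul_mem_LSpace (act σ) hp
      rwa [smul_sub, smul_comm, M.H_fixed, eff_smul M hφ hB hσ, smul_inv_smul] at this)
      C.u_mem_V (C.resSpace_le_sup (σ⁻¹ • t))
  have hreg : RegDiv C.alg red H fun t => eff hσB t := by
    have h0 := regDiv_const C.alg G (eff hB (0 : T))
    have h1 := regDiv_eff_op C.alg_apply_mem M.H_nonneg hB hB hB id (fun _ => (0 : T))
      (C.regDiv M.H_nonneg) h0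
    have h2 := regDiv_eff_op C.alg_apply_mem M.H_nonneg hB hB hσB (fun t => -(id t + 0))
      (fun _ => (0 : T)) h1 h0
    simpa using h2
  obtain ⟨d, hd⟩ := exists_coeff red C.alg C.alg_apply_mem (C.LSpace_sub_eff_le hσB)
    (hreg.reg_at C.alg_apply_mem (fun p => eff_nonneg hσB _) (fun p => degree_eff hσB _)
      (by omega) G M.H_nonneg)
    (C.finrank_sub_eff hσB) C.rank_add hu'V (fun l => M.smul_mem_LSpace_H σ (C.u_mem_LSpace l))
    hsup' (const_mem_fam red _ (C.b_mem_V i)) (fun _ => C.b_mem_LSpace i)
  have heq : twist σ (C.coord (i, l)) = (d l : T → Qbar) := funext fun t => by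
    have h := smul_mem_LSpace (act σ) (C.sub_coord_mem i (σ⁻¹ • t))
    rw [smul_sub (act σ), smul_sub (act σ), smul_comm, M.H_fixed, eff_smul M hφ hB hσ,
      C.smul_b, Finset.smul_sum, smul_inv_smul] at h
    simp only [M.smul_smul_eq] at h
    have h' := sub_mem (hd t) h
    rw [sub_sub_sub_cancel_left, ← Finset.sum_sub_distrib] at h'
    simp only [u', ← sub_smul] at h'
    have h0 := congrFun (coeff_unique red (C.LSpace_sub_eff_le hσB t) (C.finrank_sub_eff hσB t)
      C.rank_add hu'V (hsup' t) h') l
    exact sub_eq_zero.mp h0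
  rw [heq]
  exact (d l).2

omit hφ in
omit [DistribMulAction GalQ T] in
/-- The coordinates of a sum lie in the algebra of coordinates of the two summands. -/
theorem coord_add_mem (il : Fin C.n × Fin g) :
    (fun p : T × T => C.coord il (p.1 + p.2)) ∈
      Algebra.adjoin A ((Set.range fun j => fun p : T × T => C.coord j p.1) ∪
        Set.range fun j => fun p : T × T => C.coord j p.2) := by
  set S₂ := Algebra.adjoin A ((Set.range fun j => fun p : T × T => C.coord j p.1) ∪
    Set.range fun j => fun p : T × T => C.coord j p.2)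
  have hS₂ : ∀ f ∈ S₂, ∀ p, f p ∈ A := fun f hf =>
    (Algebra.adjoin_le (S := maxAlg A (T × T)) (by
      rintro _ (⟨j, rfl⟩ | ⟨j, rfl⟩) p <;> exact C.coord_mem j _) hf : f ∈ maxAlg A (T × T))
  have hpull : ∀ u : T × T → T, (∀ j, (fun p => C.coord j (u p)) ∈ S₂) →
      RegDiv S₂ red H fun p => eff hB (u p) := fun u hu => by
    refine RegDiv.comp C.alg (C.regDiv M.H_nonneg) u fun s hs => ?_
    induction hs using Algebra.adjoin_induction with
    | mem s hs => obtain ⟨j, rfl⟩ := hs; exact hu j
    | algebraMap a => exact S₂.algebraMap_mem a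
    | add x y _ _ hx hy => exact S₂.add_mem hx hy
    | mul x y _ _ hx hy => exact S₂.mul_mem hx hy
  have h1 := regDiv_eff_op hS₂ M.H_nonneg hB hB hB Prod.fst Prod.snd
    (hpull Prod.fst fun j => Algebra.subset_adjoin (Or.inl ⟨j, rfl⟩))
    (hpull Prod.snd fun j => Algebra.subset_adjoin (Or.inr ⟨j, rfl⟩))
  have h2 := regDiv_eff_op hS₂ M.H_nonneg hB hB hB (fun p : T × T => -(p.1 + p.2))
    (fun _ => (0 : T)) h1 (regDiv_const S₂ G (eff hB (0 : T)))
  refine C.coord_comp_mem M.H_nonneg hS₂ (fun p : T × T => p.1 + p.2) ?_ il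
  simpa [add_comm] using h2

omit hφ in
omit [DistribMulAction GalQ T] in
/-- The coordinates of the opposite point lie in the algebra of coordinates. -/
theorem coord_neg_mem (il : Fin C.n × Fin g) : (fun t => C.coord il (-t)) ∈ C.alg := by
  have h1 := regDiv_eff_op C.alg_apply_mem M.H_nonneg hB hB hB id (fun _ => (0 : T))
    (C.regDiv M.H_nonneg) (regDiv_const C.alg G (eff hB (0 : T)))
  refine C.coord_comp_mem M.H_nonneg C.alg_apply_mem (fun t : T => -t) ?_ il
  simpa using h1

/-- The coordinates of an inertia-fixed good divisor generate a Hopf order. -/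
def orderData (hinj : Function.Injective φ) (hBfix : ∀ σ, Inert A σ → act σ • B = B) :
    OrderData A T where
  ι := Fin C.n × Fin g
  finite_ι := inferInstance
  gen := C.coord
  integral := C.coord_mem
  separates _ _ h := C.separates hinj h
  inert _ hσ := C.twist_coord_of_inert M hφ hBfix hσ
  decomp _ hσ := C.twist_coord_mem M hφ hσ
  gen_add_mem := C.coord_add_mem M
  gen_neg_mem := C.coord_neg_mem M

end Coordinates

variable (φ)

/-- A finite Galois module inside the divisor classes of degree zero of a good model at `ℓ` is the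
group of points of a finite flat cocommutative Hopf algebra over `ℤ_(ℓ)`. -/
theorem exists_finiteFlat_model_of_galoisData [Infinite k] (M : GaloisData G act)
    (hφ : ∀ (σ : GalQ) t, φ (σ • t) = act σ • φ t) (hinj : Function.Injective φ)
    (hA : A.LiesOverPrime ℓ) (hℓ : ℓ.Prime) (hT : IsContinuousAction T) :
    ∃ (R : Type) (_ : CommRing R) (_ : HopfAlgebra (GaloisRep.ratLocalizedAt ℓ) R),
      Module.Finite (GaloisRep.ratLocalizedAt ℓ) R ∧ Module.Flat (GaloisRep.ratLocalizedAt ℓ) R ∧
      Coalgebra.IsCocomm (GaloisRep.ratLocalizedAt ℓ) R ∧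
      ∃ e : WithConv (R →ₐ[GaloisRep.ratLocalizedAt ℓ] AlgebraicClosure ℚ) ≃ T,
        (∀ f g, e (f * g) = e f + e g) ∧
        ∀ (σ : AlgebraicClosure ℚ ≃ₐ[ℚ] AlgebraicClosure ℚ)
          (f g : WithConv (R →ₐ[GaloisRep.ratLocalizedAt ℓ] AlgebraicClosure ℚ)),
          (∀ h : R, g h = σ (f h)) → e g = σ • e f := by
  obtain ⟨B, hB, hBfix⟩ := exists_good_fixed φ M
  obtain ⟨C⟩ := exists_coordinates M hA hℓ hB
  exact OrderData.exists_finiteFlat_model (C.orderData M hφ hinj hBfix) hA hℓ hT

end Fermat.Agent.GoodModel
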