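import Fermat.Agent.GoodModel.Residue
import Mathlib.RingTheory.Nakayama
import Mathlib.Topology.Algebra.OpenSubgroup
import Mathlib.LinearAlgebra.Dimension.StrongRankCondition
import Mathlib.LinearAlgebra.Dual.Lemmas

/-!
# Galois descent of an order of functions on a finite Galois set

An `A`-subalgebra `S` of `T → Qbar` which is generated by finitely many inertia-fixed `A`-valued
functions, separates points, and is stable under the decomposition group, is spanned over `A` by
its Galois-equivariant members.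

By Nakayama it suffices to do this modulo the maximal ideal (`mem_span_sup_of_inert`): roots of
unity of order prime to `ℓ` give a residual dual basis for the cosets meeting the decomposition
group, and an approximate indicator of those cosets turns the corresponding sums into traces
(`exists_fixedSet_congr`).
-/

set_option autoImplicit false

noncomputable section

open scoped Pointwise

namespace Fermat.Agent.GoodModel

open Fermat.Agent.GaloisBasics

section Twist

variable {T : Type*} [MulAction GalQ T]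

/-- The natural semilinear action on functions. -/
def twist (σ : GalQ) : (T → Qbar) →+* (T → Qbar) where
  toFun f x := σ (f (σ⁻¹ • x))
  map_one' := funext fun _ => map_one σ
  map_mul' _ _ := funext fun _ => map_mul σ _ _
  map_zero' := funext fun _ => map_zero σ
  map_add' _ _ := funext fun _ => map_add σ _ _

/-- Value of a twisted function. -/
@[simp] theorem twist_apply (σ : GalQ) (f : T → Qbar) (x : T) :
    twist σ f x = σ (f (σ⁻¹ • x)) := rfl

@[simp] theorem twist_one (f : T → Qbar) : twist (1 : GalQ) f = f :=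
  funext fun x => by simp

theorem twist_mul (σ τ : GalQ) (f : T → Qbar) : twist (σ * τ) f = twist σ (twist τ f) :=
  funext fun x => by simp [mul_smul]

/-- Twisting is semilinear. -/
theorem twist_smul (σ : GalQ) (c : Qbar) (f : T → Qbar) :
    twist σ (c • f) = σ c • twist σ f := funext fun x => by simp

/-- A function is fixed under twisting by `σ` iff it commutes with `σ`. -/
theorem twist_eq_self_iff (σ : GalQ) (f : T → Qbar) :
    twist σ f = f ↔ ∀ x, f (σ • x) = σ (f x) := by
  refine ⟨fun h x => ?_, fun h => funext fun x => ?_⟩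
  · have := congr_fun h (σ • x)
    rwa [twist_apply, inv_smul_smul, eq_comm] at this
  · rw [twist_apply, ← h, smul_inv_smul]

/-- Stabiliser of a function under `twist`. -/
def twistStab (f : T → Qbar) : Subgroup GalQ where
  carrier := {σ | twist σ f = f}
  one_mem' := twist_one f
  mul_mem' {σ τ} hσ hτ := by
    show twist (σ * τ) f = f
    rw [twist_mul, show twist τ f = f from hτ]
    exact hσ
  inv_mem' {σ} hσ := by
    show twist σ⁻¹ f = f
    conv_lhs => rw [← (show twist σ f = f from hσ)]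
    rw [← twist_mul, inv_mul_cancel, twist_one]

@[simp] theorem mem_twistStab {σ : GalQ} {f : T → Qbar} :
    σ ∈ twistStab f ↔ twist σ f = f := Iff.rfl

/-- Continuity of a Galois action on a finite set. -/
def IsContinuousAction (T : Type*) [MulAction GalQ T] : Prop :=
  ∀ x : T, IsOpen (MulAction.stabilizer GalQ x : Set GalQ)

theorem isLocallyConstant_smul (hT : IsContinuousAction T) (x : T) :
    IsLocallyConstant fun σ : GalQ => σ • x := by
  rw [IsLocallyConstant.iff_exists_open]
  intro σ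
  refine ⟨σ • (MulAction.stabilizer GalQ x : Set GalQ), (hT x).smul σ,
    ⟨1, one_mem _, by simp⟩, ?_⟩
  rintro _ ⟨u, hu, rfl⟩
  show (σ * u) • x = σ • x
  rw [mul_smul, show u • x = x from hu]

theorem isOpen_twistStab [Finite T] (hT : IsContinuousAction T) (f : T → Qbar) :
    IsOpen (twistStab f : Set GalQ) := by
  have : (twistStab f : Set GalQ) = ⋂ x : T, {σ | f (σ • x) = σ (f x)} := by
    ext σ; simp [twist_eq_self_iff]
  rw [this]
  refine isOpen_iInter_of_finite fun x => ?_
  exact ((isLocallyConstant_smul hT x).comp₂ (isLocallyConstant_apply (f x))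
    fun y z => f y = z) {p | p}

end Twist

/-- If the residual characters of finitely many automorphisms are distinct on `Z`, then some
`A`-combination of monomials in `Z` is `1` at a given one and `0` at the others, modulo the
maximal ideal. -/
theorem exists_residual_dual {A : ValuationSubring Qbar} {Q : Type*} [Fintype Q] [DecidableEq Q]
    (c : Q → GalQ) (hc : ∀ q, Decomp A (c q)) (Z : Set Qbar) (hZ : ∀ z ∈ Z, A.valuation z = 1)
    (hinj : ∀ q q', (∀ z ∈ Z, A.valuation (c q z - c q' z) < 1) → q = q') (q₀ : Q) :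
    ∃ (n : ℕ) (β α : Fin n → Qbar), (∀ j, β j ∈ A) ∧ (∀ j, α j ∈ Submonoid.closure Z) ∧
      ∀ q, A.valuation ((∑ j, β j * c q (α j)) - if q = q₀ then 1 else 0) < 1 := by
  classical
  let M : Submonoid Qbar := Submonoid.closure Z
  have hM : ∀ a ∈ M, A.valuation a = 1 := fun a ha => by
    induction ha using Submonoid.closure_induction with
    | mem z hz => exact hZ z hz
    | one => exact map_one _
    | mul x y _ _ hx hy => rw [map_mul, hx, hy, one_mul]
  have hmem : ∀ q, ∀ a ∈ M, c q a ∈ A := fun q a ha =>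
    (hc q a).mpr ((A.valuation_le_one_iff a).mp (hM a ha).le)
  let k := IsLocalRing.ResidueField A
  let χ : Q → (M →* k) := fun q =>
    { toFun := fun a => IsLocalRing.residue A ⟨c q a, hmem q a a.2⟩
      map_one' := by rw [← map_one (IsLocalRing.residue A)]; congr 1; exact Subtype.ext (by simp)
      map_mul' := fun a b => by rw [← map_mul]; congr 1; exact Subtype.ext (by simp) }
  have hχ : Function.Injective χ := fun q q' h => hinj q q' fun z hz =>
    residue_eq_iff.mp (DFunLike.congr_fun h ⟨z, Submonoid.subset_closure hz⟩)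
  have hli : LinearIndependent k fun q => (χ q : M → k) :=
    (linearIndependent_monoidHom M k).comp χ hχ
  have hspan : (Submodule.span k (Set.range fun (a : M) (q : Q) => χ q a)) = ⊤ := by
    rw [Submodule.eq_top_iff_forall_basis_mem (Pi.basisFun k Q)]
    intro q
    by_contra hq
    obtain ⟨φ, hφq, hφ⟩ := Submodule.exists_dual_map_eq_bot_of_notMem hq inferInstance
    have hzero : ∑ r, φ (Pi.single r 1) • (χ r : M → k) = 0 := by
      funext a
      have h1 : φ (fun r => χ r a) = 0 := by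
        have h2 := Submodule.mem_map_of_mem (f := φ) (Submodule.subset_span
          (R := k) (s := Set.range fun (a : M) (r : Q) => χ r a) ⟨a, rfl⟩)
        rwa [hφ, Submodule.mem_bot] at h2
      rw [show (fun r => χ r a) = ∑ r, χ r a • (Pi.single r 1 : Q → k) by
        funext s; simp [Finset.sum_apply, Pi.single_apply]] at h1
      rw [map_sum] at h1
      simp only [map_smul, smul_eq_mul] at h1
      simp only [Finset.sum_apply, Pi.smul_apply, smul_eq_mul, Pi.zero_apply]
      rw [← h1]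
      exact Finset.sum_congr rfl fun r _ => mul_comm _ _
    exact hφq (by
      simpa [Pi.basisFun_apply] using (Fintype.linearIndependent_iff.mp hli) _ hzero q)
  obtain ⟨n, b, g, hbg⟩ := Submodule.mem_span_set'.mp
    (hspan ▸ Submodule.mem_top (x := (Pi.single q₀ 1 : Q → k)))
  choose α hα using fun j => (g j).2
  choose β hβ using fun j => IsLocalRing.residue_surjective (b j)
  refine ⟨n, fun j => β j, fun j => α j, fun j => (β j).2, fun j => (α j).2, fun q => ?_⟩
  have hq := congr_fun hbg q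
  simp only [Finset.sum_apply, Pi.smul_apply, smul_eq_mul, ← hα, ← hβ] at hq
  let s : A := ∑ j, β j * ⟨c q (α j), hmem q (α j) (α j).2⟩
  have hs : IsLocalRing.residue A s = IsLocalRing.residue A (if q = q₀ then 1 else 0) := by
    simp only [s, map_sum, map_mul, apply_ite (IsLocalRing.residue A), map_one, map_zero]
    rw [show (∑ j, IsLocalRing.residue A (β j) *
        IsLocalRing.residue A ⟨c q (α j), hmem q (α j) (α j).2⟩)
      = (Pi.single q₀ 1 : Q → k) q from hq, Pi.single_apply]
  have h := residue_eq_iff.mp hs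
  simpa [s, apply_ite (fun z : A => (z : Qbar))] using h

section Separation

variable {ℓ : ℕ} {A : ValuationSubring Qbar}

theorem val_eq_one_of_pow_eq_one {z : Qbar} {m : ℕ} (hm : m ≠ 0) (hz : z ^ m = 1) :
    A.valuation z = 1 :=
  (pow_left_inj₀ zero_le zero_le hm).mp (by rw [← map_pow, hz, map_one, one_pow])

/-- An open subgroup containing the inertia group contains every element of the decomposition
group fixing some finite set of roots of unity of order prime to `ℓ`. -/
theorem exists_finset_roots_detecting (hA : A.LiesOverPrime ℓ) (hℓ : ℓ.Prime) {Γ : Subgroup GalQ}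
    (hΓo : IsOpen (Γ : Set GalQ)) (hI : ∀ σ, Inert A σ → σ ∈ Γ) :
    ∃ Z : Finset Qbar, (∀ x ∈ Z, ∃ m, ¬ℓ ∣ m ∧ x ^ m = 1) ∧
      ∀ σ, Decomp A σ → (∀ x ∈ Z, σ x = x) → σ ∈ Γ := by
  classical
  let Cf : Set GalQ := {σ | Decomp A σ} ∩ (Γ : Set GalQ)ᶜ
  have hCf : IsClosed Cf := isClosed_decomp.inter hΓo.isClosed_compl
  have hmove : ∀ σ ∈ Cf, ∃ z : Qbar, (∃ m, ¬ℓ ∣ m ∧ z ^ m = 1) ∧ σ z ≠ z := by
    rintro σ ⟨hσD, hσΓ⟩
    have hnI : ¬Inert A σ := fun h => hσΓ (hI σ h)
    obtain ⟨x, hxA, hx⟩ : ∃ x, x ∈ A ∧ 1 ≤ A.valuation (σ x - x) := by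
      by_contra hc
      push Not at hc
      exact hnI ⟨hσD, hc⟩
    have hx1 : A.valuation x = 1 := by
      refine le_antisymm ((A.valuation_le_one_iff x).mpr hxA) (not_lt.mp fun h => ?_)
      exact absurd (Valuation.map_sub_lt _ (hσD.val_lt_one h) h) (not_lt.mpr hx)
    obtain ⟨z, m, hm, hzm, hxz⟩ := exists_root_lift hA hℓ hx1
    refine ⟨z, ⟨m, hm, hzm⟩, fun hz => absurd ?_ (not_lt.mpr hx)⟩
    rw [show σ x - x = σ (x - z) - (x - z) by rw [map_sub, hz]; ring]
    exact Valuation.map_sub_lt _ (hσD.val_lt_one hxz) hxz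
  choose z hz hzne using hmove
  obtain ⟨t, ht⟩ := hCf.isCompact.elim_finite_subcover
    (fun s : Cf => {τ : GalQ | τ (z s s.2) ≠ z s s.2})
    (fun s => isLocallyConstant_apply (z s s.2) {y | y ≠ z s s.2})
    (fun σ hσ => Set.mem_iUnion.mpr ⟨⟨σ, hσ⟩, hzne σ hσ⟩)
  refine ⟨t.image fun s : Cf => z s s.2, fun x hx => ?_, fun σ hσD hfix => ?_⟩
  · obtain ⟨s, -, rfl⟩ := Finset.mem_image.mp hx
    exact hz s s.2
  · by_contra hne
    obtain ⟨s, hs, hτ⟩ := Set.mem_iUnion₂.mp (ht (show σ ∈ Cf from ⟨hσD, hne⟩))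
    exact hτ (hfix _ (Finset.mem_image_of_mem _ hs))

/-- Conjugates are roots of the minimal polynomial. -/
theorem mem_rootSet_minpoly_apply (σ : GalQ) (x : Qbar) :
    σ x ∈ (minpoly ℚ x).rootSet Qbar := by
  rw [Polynomial.mem_rootSet]
  refine ⟨minpoly.ne_zero (Algebra.IsAlgebraic.isAlgebraic x).isIntegral, ?_⟩
  rw [Polynomial.aeval_algHom_apply σ, minpoly.aeval, map_zero]

/-- For an open subgroup `Γ` some element fixed by `Γ` is `1` modulo the maximal ideal, and lies in
the maximal ideal after applying any automorphism outside `Decomp · Γ`. -/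
theorem exists_fixed_separating (hA : A.LiesOverPrime ℓ) (hℓ : ℓ.Prime) {Γ : Subgroup GalQ}
    (hΓo : IsOpen (Γ : Set GalQ)) :
    ∃ e₀ : Qbar, (∀ γ ∈ Γ, γ e₀ = e₀) ∧ A.valuation (e₀ - 1) < 1 ∧
      ∀ σ, (∀ d, Decomp A d → d⁻¹ * σ ∉ Γ) → A.valuation (σ e₀) < 1 := by
  classical
  let C : Set GalQ := {σ | ∀ d, Decomp A d → d⁻¹ * σ ∉ Γ}
  have hC : IsClosed C := by
    simp only [C, Set.ofPred_forall]
    exact isClosed_biInter fun d _ => hΓo.isClosed_compl.preimage (continuous_const_mul d⁻¹)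
  obtain ⟨b, hbi, hb1, hb0⟩ := exists_separating hA hℓ hC
    fun σ hσ hD => hσ σ hD (by rw [inv_mul_cancel]; exact one_mem _)
  have horb : {y : Qbar | ∃ γ ∈ Γ, y = γ b}.Finite :=
    ((minpoly ℚ b).rootSet_finite Qbar).subset fun _ ⟨γ, _, hy⟩ =>
      hy ▸ mem_rootSet_minpoly_apply γ b
  let P : Finset Qbar := horb.toFinset
  let e₀ : Qbar := 1 - ∏ y ∈ P, (1 - y)
  refine ⟨e₀, fun γ hγ => ?_, ?_, fun σ hσ => ?_⟩
  · simp only [e₀, map_sub, map_one, map_prod]
    congr 1
    refine Finset.prod_bij (fun y _ => γ y) (fun y hy => ?_) (fun _ _ _ _ h => γ.injective h)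
      (fun y hy => ?_) (fun y _ => rfl)
    · obtain ⟨δ, hδ, rfl⟩ := horb.mem_toFinset.mp hy
      exact horb.mem_toFinset.mpr ⟨γ * δ, mul_mem hγ hδ, rfl⟩
    · obtain ⟨δ, hδ, rfl⟩ := horb.mem_toFinset.mp hy
      exact ⟨(γ⁻¹ * δ) b, horb.mem_toFinset.mpr ⟨γ⁻¹ * δ, mul_mem (inv_mem hγ) hδ, rfl⟩,
        by rw [← AlgEquiv.mul_apply, mul_inv_cancel_left]⟩
  · simp only [e₀, sub_sub_cancel_left, Valuation.map_neg, map_prod]
    rw [← Finset.mul_prod_erase P _ (horb.mem_toFinset.mpr ⟨1, one_mem _, rfl⟩)]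
    refine lt_of_le_of_lt (mul_le_of_le_one_right' (Finset.prod_le_one' fun y hy => ?_)) ?_
    · rw [A.valuation_le_one_iff]
      obtain ⟨γ, -, rfl⟩ := horb.mem_toFinset.mp (Finset.mem_of_mem_erase hy)
      exact sub_mem (one_mem _) (mem_of_isIntegral A (map_isIntegral_int (γ : Qbar →+* Qbar) hbi))
    · simpa [Valuation.map_sub_swap] using hb1
  · have h1 : ∀ y ∈ P, A.valuation (σ y) < 1 := by
      intro y hy
      obtain ⟨γ, hγ, rfl⟩ := horb.mem_toFinset.mp hy
      refine hb0 (σ * γ) fun d hd h => hσ d hd ?_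
      simpa [mul_assoc] using mul_mem h (inv_mem hγ)
    simp only [e₀, map_sub, map_one, map_prod]
    rw [Valuation.map_sub_swap]
    refine Finset.prod_induction (fun y => 1 - σ y) (fun y => A.valuation (y - 1) < 1)
      (fun y w hy hw => ?_) (by simp) fun y hy => ?_
    case refine_2 => simpa using h1 y hy
    rw [show y * w - 1 = (y - 1) * (w - 1) + (y - 1) + (w - 1) by ring]
    refine Valuation.map_add_lt _ (Valuation.map_add_lt _ ?_ hy) hw
    rw [map_mul]
    exact lt_of_le_of_lt (mul_le_of_le_one_right' hw.le) hy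

/-- For `x` in `A` the element `1 - (1 - x ^ M) ^ M` is at most as large as `x ^ M`, and its
difference with `1` at most as large as `(1 - x) ^ M`. -/
theorem val_amplify_le {x : Qbar} (hx : A.valuation x ≤ 1) (M : ℕ) :
    A.valuation (1 - (1 - x ^ M) ^ M) ≤ A.valuation (x ^ M) ∧
      A.valuation ((1 - x ^ M) ^ M) ≤ A.valuation ((1 - x) ^ M) := by
  have hgeom : ∀ y : Qbar, A.valuation y ≤ 1 → ∀ m : ℕ,
      A.valuation (∑ i ∈ Finset.range m, y ^ i) ≤ 1 := fun y hy m =>
    Valuation.map_sum_le _ fun i _ => by rw [map_pow]; exact pow_le_one' hy i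
  have hy : A.valuation (1 - x ^ M) ≤ 1 :=
    Valuation.map_sub_le A.valuation (map_one A.valuation).le
      (by rw [map_pow]; exact pow_le_one' hx M)
  refine ⟨?_, ?_⟩
  · have hg := geom_sum_mul_neg (1 - x ^ M) M
    rw [sub_sub_cancel] at hg
    rw [← hg, map_mul]
    exact mul_le_of_le_one_left' (hgeom _ hy M)
  · rw [← geom_sum_mul_neg x M, mul_pow, map_mul, map_pow]
    exact mul_le_of_le_one_left' (pow_le_one' (hgeom _ hx M) M)

/-- High powers of finitely many elements of the maximal ideal carry finitely many elements below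
any nonzero bound. -/
theorem exists_pow_mul_val_lt (hA : A.LiesOverPrime ℓ) (hℓ : ℓ.Prime) (s W : Finset Qbar)
    {w : Qbar} (hw : w ≠ 0) :
    ∃ M : ℕ, ∀ a ∈ s, A.valuation a < 1 → ∀ u ∈ W, A.valuation (a ^ M * u) < A.valuation w := by
  classical
  have h : ∀ p : Qbar × Qbar, ∃ M₀ : ℕ, ∀ M, M₀ ≤ M → A.valuation p.1 < 1 →
      A.valuation (p.1 ^ M * p.2) < A.valuation w := by
    rintro ⟨a, u⟩
    by_cases ha : A.valuation a < 1
    swap
    · exact ⟨0, fun _ _ h => absurd h ha⟩
    rcases eq_or_ne u 0 with rfl | hu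
    · exact ⟨0, fun M _ _ => by simp [zero_lt_iff.mpr (A.valuation.ne_zero_iff.mpr hw)]⟩
    obtain ⟨M₀, hM⟩ := exists_pow_val_lt hA hℓ ha (div_ne_zero hw hu)
    refine ⟨M₀, fun M hM' _ => ?_⟩
    have h2 := hM M hM'
    rwa [map_div₀, lt_div_iff₀ (zero_lt_iff.mpr (A.valuation.ne_zero_iff.mpr hu)),
      ← map_mul] at h2
  choose M₀ hM₀ using h
  exact ⟨(s ×ˢ W).sup M₀, fun a ha hav u hu =>
    hM₀ (a, u) _ (Finset.le_sup (f := M₀) (b := (a, u)) (Finset.mk_mem_product ha hu)) hav⟩

/-- An approximate indicator of `Decomp · Γ`: an element fixed by `Γ` which, after multiplication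
by finitely many given elements, is within `w` of `1` on the decomposition group and of `0` outside
`Decomp · Γ`. -/
theorem exists_fixed_approx_indicator (hA : A.LiesOverPrime ℓ) (hℓ : ℓ.Prime) {Γ : Subgroup GalQ}
    (hΓo : IsOpen (Γ : Set GalQ)) (W : Finset Qbar) {w : Qbar} (hw : w ≠ 0) :
    ∃ e : Qbar, (∀ γ ∈ Γ, γ e = e) ∧ ∀ σ, ∀ u ∈ W,
      (Decomp A σ → A.valuation ((σ e - 1) * u) ≤ A.valuation w) ∧
      ((∀ d, Decomp A d → d⁻¹ * σ ∉ Γ) → A.valuation (σ e * u) ≤ A.valuation w) := by
  classical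
  obtain ⟨e₀, he₀Γ, he₀1, he₀0⟩ := exists_fixed_separating hA hℓ hΓo
  let R : Finset Qbar := ((minpoly ℚ e₀).rootSet_finite Qbar).toFinset
  have hR : ∀ σ : GalQ, σ e₀ ∈ R := fun σ =>
    (Set.Finite.mem_toFinset _).mpr (mem_rootSet_minpoly_apply σ e₀)
  obtain ⟨M, hM⟩ := exists_pow_mul_val_lt hA hℓ (R ∪ R.image fun a => 1 - a) W hw
  refine ⟨1 - (1 - e₀ ^ M) ^ M, fun γ hγ => by simp [he₀Γ γ hγ],
    fun σ u hu => ⟨fun hσ => ?_, fun hσ => ?_⟩⟩
  · have hy0 : A.valuation (1 - σ e₀) < 1 := by
      have := hσ.val_lt_one he₀1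
      rwa [map_sub, map_one, Valuation.map_sub_swap] at this
    have hy : A.valuation (σ e₀) ≤ 1 := by
      simpa using Valuation.map_sub_le A.valuation (map_one A.valuation).le hy0.le
    simp only [map_sub, map_one, map_pow, sub_sub_cancel_left, neg_mul, Valuation.map_neg]
    rw [map_mul]
    refine (mul_le_mul_left (val_amplify_le hy M).2 _).trans ?_
    rw [← map_mul]
    exact (hM _ (Finset.mem_union_right _ (Finset.mem_image_of_mem _ (hR σ))) hy0 u hu).le
  · have hy0 := he₀0 σ hσ
    simp only [map_sub, map_one, map_pow]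
    rw [map_mul]
    refine (mul_le_mul_left (val_amplify_le hy0.le M).1 _).trans ?_
    rw [← map_mul]
    exact (hM _ (Finset.mem_union_left _ (hR σ)) hy0 u hu).le

/-- Coset representatives chosen in the decomposition group whenever possible. -/
theorem exists_cosetRep_decomp (A : ValuationSubring Qbar) (Γ : Subgroup GalQ) :
    ∃ rep : GalQ ⧸ Γ → GalQ, (∀ q, (rep q : GalQ ⧸ Γ) = q) ∧
      ∀ d : GalQ, Decomp A d → Decomp A (rep d) := by
  classical
  refine ⟨fun q => if h : ∃ d, Decomp A d ∧ (d : GalQ ⧸ Γ) = q then h.choose else q.out,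
    fun q => ?_, fun d hd => ?_⟩
  · by_cases h : ∃ d, Decomp A d ∧ (d : GalQ ⧸ Γ) = q
    · simp only [dif_pos h]; exact h.choose_spec.2
    · simp only [dif_neg h]; exact q.out_eq
  · have h : ∃ d', Decomp A d' ∧ (d' : GalQ ⧸ Γ) = d := ⟨d, hd, rfl⟩
    simp only [dif_pos h]
    exact h.choose_spec.1

end Separation

/-- The trace of a function fixed by a subgroup of finite index is equivariant. -/
theorem twist_sum_cosetRep {T : Type*} [MulAction GalQ T] {Γ : Subgroup GalQ}
    [Fintype (GalQ ⧸ Γ)] {rep : GalQ ⧸ Γ → GalQ} (hrep : ∀ q, (rep q : GalQ ⧸ Γ) = q)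
    {g : T → Qbar} (hg : ∀ γ ∈ Γ, twist γ g = g) (σ : GalQ) :
    twist σ (∑ q, twist (rep q) g) = ∑ q, twist (rep q) g := by
  have hinv : ∀ q, twist σ (twist (rep q) g) = twist (rep (σ • q)) g := by
    intro q
    have h1 : ((σ * rep q : GalQ) : GalQ ⧸ Γ) = (rep (σ • q) : GalQ ⧸ Γ) := by
      rw [hrep (σ • q)]
      conv_rhs => rw [← hrep q]
      rfl
    have h3 := QuotientGroup.eq.mp h1.symm
    have h4 : σ * rep q = rep (σ • q) * ((rep (σ • q))⁻¹ * (σ * rep q)) := by
      rw [mul_inv_cancel_left]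
    rw [← twist_mul, h4, twist_mul, hg _ h3]
  simp only [map_sum, hinv]
  exact Fintype.sum_bijective _ (MulAction.bijective σ) _ _ fun q => rfl

/-- If `β` is dual to `x` modulo `I`, then `g q₀` is congruent to the corresponding combination of
the `∑ q, x j q • g q` modulo `I • N`. -/
theorem sub_sum_smul_mem_smul {R M Q J : Type*} [CommRing R] [AddCommGroup M] [Module R M]
    [Fintype Q] [DecidableEq Q] [Fintype J] {I : Ideal R} {N : Submodule R M} {g : Q → M}
    (hg : ∀ q, g q ∈ N) {β : J → R} {x : J → Q → R} {q₀ : Q}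
    (h : ∀ q, ∑ j, β j * x j q - (if q = q₀ then 1 else 0) ∈ I) :
    g q₀ - ∑ j, β j • ∑ q, x j q • g q ∈ I • N := by
  have := neg_mem (Submodule.sum_mem (I • N) (t := Finset.univ) fun q _ =>
    Submodule.smul_mem_smul (h q) (hg q))
  convert this using 1
  simp only [sub_smul, Finset.sum_smul, mul_smul, Finset.smul_sum, ite_smul, one_smul, zero_smul,
    Finset.sum_sub_distrib, Finset.sum_ite_eq', Finset.mem_univ, if_true, neg_sub]
  rw [Finset.sum_comm]

/-- Hypotheses on the generators of an integral algebra of functions. -/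
structure FunctionData (A : ValuationSubring Qbar) (T : Type*) [MulAction GalQ T] where
  ι : Type
  finite_ι : Finite ι
  gen : ι → T → Qbar
  integral : ∀ i x, gen i x ∈ A
  separates : ∀ x y, (∀ i, gen i x = gen i y) → x = y
  inert : ∀ σ, Inert A σ → ∀ i, twist σ (gen i) = gen i
  decomp : ∀ σ, Decomp A σ → ∀ i, twist σ (gen i) ∈ Algebra.adjoin A (Set.range gen)

namespace FunctionData

variable {A : ValuationSubring Qbar} {T : Type*} [MulAction GalQ T] (D : FunctionData A T)

/-- The algebra generated by the data. -/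
abbrev alg : Subalgebra A (T → Qbar) := Algebra.adjoin A (Set.range D.gen)

/-- The members of the algebra are `A`-valued. -/
theorem alg_apply_mem {f : T → Qbar} (hf : f ∈ D.alg) (x : T) : f x ∈ A := by
  induction hf using Algebra.adjoin_induction with
  | mem g hg => obtain ⟨i, rfl⟩ := hg; exact D.integral i x
  | algebraMap a => exact a.2
  | add g h _ _ hg hh => exact add_mem hg hh
  | mul g h _ _ hg hh => exact mul_mem hg hh

theorem twist_mem {σ : GalQ} (hσ : Decomp A σ) {f : T → Qbar} (hf : f ∈ D.alg) :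
    twist σ f ∈ D.alg := by
  induction hf using Algebra.adjoin_induction with
  | mem g hg => obtain ⟨i, rfl⟩ := hg; exact D.decomp σ hσ i
  | algebraMap a =>
    have : twist σ (algebraMap A (T → Qbar) a) =
        algebraMap A (T → Qbar) ⟨σ a, (hσ _).mpr a.2⟩ := rfl
    rw [this]
    exact Subalgebra.algebraMap_mem _ _
  | add g h _ _ hg hh => rw [map_add]; exact add_mem hg hh
  | mul g h _ _ hg hh => rw [map_mul]; exact mul_mem hg hh

variable [Finite T]

/-- The algebra is a finitely generated `A`-module. -/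
theorem fg_alg : D.alg.toSubmodule.FG := by
  classical
  have := D.finite_ι
  have := Fintype.ofFinite T
  refine fg_adjoin_of_finite (Set.finite_range _) ?_
  rintro _ ⟨i, rfl⟩
  refine ⟨∏ x : T, (Polynomial.X - Polynomial.C (⟨D.gen i x, D.integral i x⟩ : A)),
    Polynomial.monic_prod_of_monic _ _ fun x _ => Polynomial.monic_X_sub_C _, ?_⟩
  rw [Polynomial.eval₂_finsetProd]
  funext y
  rw [Finset.prod_apply]
  refine Finset.prod_eq_zero (Finset.mem_univ y) ?_
  simp

/-- Some nonzero multiple of every `A`-valued function belongs to the algebra. -/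
theorem exists_conductor : ∃ v : Qbar, v ≠ 0 ∧ A.valuation v ≤ 1 ∧
    ∀ f : T → Qbar, (∀ x, A.valuation (f x) ≤ A.valuation v) → f ∈ D.alg := by
  classical
  have := Fintype.ofFinite T
  choose i hi using fun p : {p : T × T // p.1 ≠ p.2} =>
    not_forall.mp (fun h => p.2 (D.separates p.1.1 p.1.2 h))
  let d : T → T → Qbar := fun x y =>
    if h : x ≠ y then D.gen (i ⟨(x, y), h⟩) x - D.gen (i ⟨(x, y), h⟩) y else 1
  let δ : T → T → T → Qbar := fun x y z =>
    if h : x ≠ y then D.gen (i ⟨(x, y), h⟩) z - D.gen (i ⟨(x, y), h⟩) y else 1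
  have hδ : ∀ x y, δ x y ∈ D.alg := by
    intro x y
    by_cases h : x ≠ y
    · have : δ x y = D.gen (i ⟨(x, y), h⟩) -
          algebraMap A (T → Qbar) ⟨D.gen (i ⟨(x, y), h⟩) y, D.integral _ _⟩ := by
        funext z; simp [δ, h]
      rw [this]
      exact sub_mem (Algebra.subset_adjoin ⟨_, rfl⟩) (Subalgebra.algebraMap_mem _ _)
    · rw [show δ x y = 1 by funext z; simp [δ, h]]
      exact one_mem _
  let w : T → Qbar := fun x => ∏ y, d x y
  have hd0 : ∀ x y, d x y ≠ 0 := by
    intro x y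
    by_cases h : x ≠ y
    · simp only [d, dif_pos h]
      exact sub_ne_zero.mpr (hi ⟨(x, y), h⟩)
    · simp only [d, dif_neg h]; exact one_ne_zero
  have hdA : ∀ x y, A.valuation (d x y) ≤ 1 := by
    intro x y
    rw [A.valuation_le_one_iff]
    by_cases h : x ≠ y
    · simp only [d, dif_pos h]; exact sub_mem (D.integral _ _) (D.integral _ _)
    · simp only [d, dif_neg h]; exact one_mem _
  have hsingle : ∀ x, (Pi.single x (w x) : T → Qbar) ∈ D.alg := by
    intro x
    have : (Pi.single x (w x) : T → Qbar) = ∏ y, δ x y := by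
      funext z
      rw [Finset.prod_apply]
      rcases eq_or_ne z x with rfl | hz
      · rw [Pi.single_eq_same]
      · rw [Pi.single_eq_of_ne hz, eq_comm]
        refine Finset.prod_eq_zero (Finset.mem_univ z) ?_
        simp [δ, hz.symm]
    rw [this]
    exact Subalgebra.prod_mem _ fun y _ => hδ x y
  have hw0 : ∀ x, w x ≠ 0 := fun x => Finset.prod_ne_zero_iff.mpr fun y _ => hd0 x y
  have hwA : ∀ x, A.valuation (w x) ≤ 1 := fun x => by
    rw [map_prod]; exact Finset.prod_le_one' fun y _ => hdA x y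
  refine ⟨∏ x, w x, Finset.prod_ne_zero_iff.mpr fun x _ => hw0 x,
    by rw [map_prod]; exact Finset.prod_le_one' fun x _ => hwA x, fun f hf => ?_⟩
  rw [← Finset.univ_sum_single f]
  refine Subalgebra.sum_mem _ fun x _ => ?_
  have hle : A.valuation (f x / w x) ≤ 1 := by
    rw [map_div₀, div_le_one₀ (zero_lt_iff.mpr (A.valuation.ne_zero_iff.mpr (hw0 x)))]
    refine (hf x).trans ?_
    rw [map_prod, ← Finset.mul_prod_erase _ _ (Finset.mem_univ x)]
    exact mul_le_of_le_one_right' (Finset.prod_le_one' fun y _ => hwA y)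
  have : (Pi.single x (f x) : T → Qbar) =
      (⟨f x / w x, (A.valuation_le_one_iff _).mp hle⟩ : A) • Pi.single x (w x) := by
    funext z
    rcases eq_or_ne z x with rfl | hz
    · simp only [Pi.smul_apply, Pi.single_eq_same]
      exact (div_mul_cancel₀ _ (hw0 z)).symm
    · simp [Pi.single_eq_of_ne hz]
  rw [this]
  exact Subalgebra.smul_mem _ (hsingle x) _

/-- The equivariant members of the algebra. -/
def fixedSet : Set (T → Qbar) := {f | f ∈ D.alg ∧ ∀ σ : GalQ, twist σ f = f}

variable {ℓ : ℕ}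

/-- The functions with small values lie in the maximal ideal times the algebra. -/
theorem exists_conductor_smul (hA : A.LiesOverPrime ℓ) (hℓ : ℓ.Prime) :
    ∃ w : Qbar, w ≠ 0 ∧ ∀ g : T → Qbar, (∀ x, A.valuation (g x) ≤ A.valuation w) →
      g ∈ IsLocalRing.maximalIdeal A • D.alg.toSubmodule := by
  obtain ⟨v, hv0, -, hv⟩ := D.exists_conductor
  have hℓ0 : (ℓ : Qbar) ≠ 0 := by exact_mod_cast hℓ.ne_zero
  refine ⟨(ℓ : Qbar) * v, mul_ne_zero hℓ0 hv0, fun g hg => ?_⟩
  have h2 : g = (⟨(ℓ : Qbar), natCast_mem A ℓ⟩ : A) • fun x => g x / (ℓ : Qbar) := by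
    funext x
    exact (mul_div_cancel₀ _ hℓ0).symm
  rw [h2]
  refine Submodule.smul_mem_smul (ValuationSubring.coe_mem_nonunits_iff.mp hA) (hv _ fun x => ?_)
  rw [map_div₀, div_le_iff₀ (zero_lt_iff.mpr (val_ell_ne_zero hℓ)), mul_comm, ← map_mul]
  exact hg x

/-- For `f` and `α` fixed by an open subgroup `Γ`, some equivariant member of the algebra is
congruent to the sum of the conjugates of `α • f` under the representatives of the cosets of `Γ`
lying in the decomposition group. -/
theorem exists_fixedSet_congr (hA : A.LiesOverPrime ℓ) (hℓ : ℓ.Prime) {Γ : Subgroup GalQ}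
    (hΓo : IsOpen (Γ : Set GalQ)) [Fintype (GalQ ⧸ Γ)] {rep : GalQ ⧸ Γ → GalQ}
    [DecidablePred fun q => Decomp A (rep q)] (hrep : ∀ q, (rep q : GalQ ⧸ Γ) = q)
    (hgood : ∀ d : GalQ, Decomp A d → Decomp A (rep d)) {f : T → Qbar} (hf : f ∈ D.alg)
    (hfΓ : ∀ γ ∈ Γ, twist γ f = f) {α : Qbar} (hαA : α ∈ A) (hαΓ : ∀ γ ∈ Γ, γ α = α) :
    ∃ Ψ ∈ D.fixedSet, Ψ - ∑ q : {q // Decomp A (rep q)}, rep q.1 α • twist (rep q.1) f ∈
      IsLocalRing.maximalIdeal A • D.alg.toSubmodule := by
  classical
  have := Fintype.ofFinite T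
  set mS := IsLocalRing.maximalIdeal A • D.alg.toSubmodule with hmS
  obtain ⟨w, hw0, hw⟩ := D.exists_conductor_smul hA hℓ
  -- the values occurring in the trace
  let u : GalQ ⧸ Γ → T → Qbar := fun q x => rep q α * twist (rep q) f x
  obtain ⟨e, heΓ, he⟩ := exists_fixed_approx_indicator hA hℓ hΓo
    (Finset.univ.image fun p : (GalQ ⧸ Γ) × T => u p.1 p.2) hw0
  have hu : ∀ q x, u q x ∈ Finset.univ.image fun p : (GalQ ⧸ Γ) × T => u p.1 p.2 := fun q x =>
    Finset.mem_image.mpr ⟨(q, x), Finset.mem_univ _, rfl⟩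
  have hterm : ∀ q x, twist (rep q) ((e * α) • f) x = rep q e * u q x := fun q x => by
    simp only [twist_smul, Pi.smul_apply, smul_eq_mul, map_mul, u, mul_assoc]
  set Ψ := ∑ q, twist (rep q) ((e * α) • f) with hΨdef
  have hΨ : Ψ - ∑ q : {q // Decomp A (rep q)}, rep q.1 α • twist (rep q.1) f ∈ mS := by
    rw [hΨdef, ← Fintype.sum_subtype_add_sum_subtype (fun q => Decomp A (rep q)),
      add_sub_right_comm, ← Finset.sum_sub_distrib]
    refine add_mem (Submodule.sum_mem _ fun q _ => hw _ fun x => ?_)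
      (Submodule.sum_mem _ fun q _ => hw _ fun x => ?_)
    · rw [Pi.sub_apply, hterm, Pi.smul_apply, smul_eq_mul, ← sub_one_mul]
      exact (he _ _ (hu q.1 x)).1 q.2
    · rw [hterm]
      refine (he _ _ (hu q.1 x)).2 fun d hd hmem => q.2 ?_
      rw [← hrep q.1, ← QuotientGroup.eq.mpr hmem]
      exact hgood d hd
  refine ⟨Ψ, ⟨?_, twist_sum_cosetRep hrep fun γ hγ => ?_⟩, hΨ⟩
  · have hlead : ∀ q : {q // Decomp A (rep q)}, rep q.1 α • twist (rep q.1) f ∈ D.alg := fun q =>
      Subalgebra.smul_mem _ (D.twist_mem q.2 hf) (⟨_, (q.2 _).mpr hαA⟩ : A)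
    have h := add_mem ((Submodule.smul_le_right : mS ≤ D.alg.toSubmodule) hΨ)
      (Submodule.sum_mem D.alg.toSubmodule (t := Finset.univ) fun q _ => hlead q)
    rwa [sub_add_cancel] at h
  · rw [twist_smul, map_mul, heΓ γ hγ, hαΓ γ hγ, hfΓ γ hγ]

/-- One descent step. -/
theorem mem_span_sup_of_inert (hA : A.LiesOverPrime ℓ) (hℓ : ℓ.Prime) (hT : IsContinuousAction T)
    {f : T → Qbar} (hf : f ∈ D.alg) (hfI : ∀ σ, Inert A σ → twist σ f = f) :
    f ∈ Submodule.span A D.fixedSet ⊔ IsLocalRing.maximalIdeal A • D.alg.toSubmodule := by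
  classical
  -- roots of unity `Z` detecting the stabiliser of `f` inside the decomposition group
  obtain ⟨Z, hZ, hdetect⟩ := exists_finset_roots_detecting hA hℓ (isOpen_twistStab hT f) hfI
  have hZ1 : ∀ x ∈ (Z : Set Qbar), A.valuation x = 1 := fun x hx => by
    obtain ⟨m, hm, hxm⟩ := hZ x hx
    exact val_eq_one_of_pow_eq_one (m := m) (fun h => hm (h ▸ dvd_zero ℓ)) hxm
  let Γ : Subgroup GalQ := twistStab f ⊓ ⨅ x ∈ Z, MulAction.stabilizer GalQ x
  have hΓmem : ∀ {σ : GalQ}, σ ∈ Γ ↔ twist σ f = f ∧ ∀ x ∈ Z, σ x = x := by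
    intro σ; simp [Γ, Subgroup.mem_iInf]
  have hΓo : IsOpen (Γ : Set GalQ) := by
    have h2 : (Γ : Set GalQ) = (twistStab f : Set GalQ) ∩ ⋂ x ∈ Z, {σ : GalQ | σ x = x} := by
      ext σ; simp [hΓmem]
    rw [h2]
    exact (isOpen_twistStab hT f).inter
      (isOpen_biInter_finset fun x _ => isLocallyConstant_apply x {x})
  have : Finite (GalQ ⧸ Γ) := Γ.quotient_finite_of_isOpen hΓo
  have := Fintype.ofFinite (GalQ ⧸ Γ)
  -- the cosets meeting the decomposition group have distinct residual characters on `Z`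
  obtain ⟨rep, hrep, hgood⟩ := exists_cosetRep_decomp A Γ
  let q₁ : {q // Decomp A (rep q)} := ⟨(1 : GalQ), hgood 1 Decomp.one⟩
  obtain ⟨n, β, α, hβ, hα, hβα⟩ := exists_residual_dual (A := A)
    (fun q : {q // Decomp A (rep q)} => rep q) (fun q => q.2) (Z : Set Qbar) hZ1
    (fun q q' h => by
      have hZfix : ∀ x ∈ Z, ((rep q)⁻¹ * rep q') x = x := fun x hx => by
        obtain ⟨m, hm, hxm⟩ := hZ x hx
        have : rep q x = rep q' x := root_eq_of_val_sub_lt hA hℓ hm
          (by rw [← map_pow, hxm, map_one]) (by rw [← map_pow, hxm, map_one]) (h x hx)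
        rw [AlgEquiv.mul_apply, ← this, AlgEquiv.aut_inv, AlgEquiv.symm_apply_apply]
      apply Subtype.ext
      rw [← hrep q, ← hrep q', QuotientGroup.eq, hΓmem]
      exact ⟨hdetect _ (q.2.inv.mul q'.2) hZfix, hZfix⟩)
    q₁
  have hαA : ∀ j, α j ∈ A := fun j =>
    Submonoid.closure_le (S := A.toSubring.toSubmonoid).mpr
      (fun x hx => (A.valuation_le_one_iff x).mp (hZ1 x hx).le) (hα j)
  have hαfix : ∀ j, ∀ γ ∈ Γ, γ (α j) = α j := fun j γ hγ =>
    Submonoid.closure_induction (motive := fun a _ => γ a = a)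
      (fun x hx => (hΓmem.mp hγ).2 x hx) (map_one γ)
      (fun x y _ _ hx hy => by rw [map_mul, hx, hy]) (hα j)
  choose Ψ hΨS hΨ using fun j => D.exists_fixedSet_congr hA hℓ hΓo hrep hgood hf
    (fun γ hγ => (hΓmem.mp hγ).1) (hαA j) (hαfix j)
  let β' : Fin n → A := fun j => ⟨β j, hβ j⟩
  have hq₁ : twist (rep q₁.1) f = f := by
    have h := hrep q₁.1
    rw [QuotientGroup.eq, mul_one] at h
    exact (hΓmem.mp (inv_inv (rep q₁.1) ▸ inv_mem h)).1
  have hcomb := sub_sum_smul_mem_smul (I := IsLocalRing.maximalIdeal A) (N := D.alg.toSubmodule)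
    (g := fun q : {q // Decomp A (rep q)} => twist (rep q.1) f) (β := β')
    (x := fun j q => (⟨_, (q.2 _).mpr (hαA j)⟩ : A)) (q₀ := q₁) (fun q => D.twist_mem q.2 hf)
    fun q => ValuationSubring.coe_mem_nonunits_iff.mp (A.mem_nonunits_iff.mpr
      (by simpa [β', apply_ite (fun z : A => (z : Qbar))] using hβα q))
  rw [hq₁] at hcomb
  have hdiff : f - ∑ j, β' j • Ψ j ∈ IsLocalRing.maximalIdeal A • D.alg.toSubmodule := by
    have h := sub_mem hcomb
      (Submodule.sum_mem _ (t := Finset.univ) fun j _ => Submodule.smul_mem _ (β' j) (hΨ j))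
    simp only [smul_sub, Finset.sum_sub_distrib] at h
    convert h using 1
    exact (sub_sub_sub_cancel_right _ _ _).symm
  rw [show f = (∑ j, β' j • Ψ j) + (f - ∑ j, β' j • Ψ j) by rw [add_sub_cancel]]
  exact Submodule.add_mem_sup
    (Submodule.sum_mem _ fun j _ => Submodule.smul_mem _ _ (Submodule.subset_span (hΨS j))) hdiff

/-- The algebra is spanned by its equivariant members. -/
theorem span_fixedSet (hA : A.LiesOverPrime ℓ) (hℓ : ℓ.Prime) (hT : IsContinuousAction T) :
    Submodule.span A D.fixedSet = D.alg.toSubmodule := by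
  refine le_antisymm (Submodule.span_le.mpr fun f hf => hf.1) ?_
  refine Submodule.le_of_le_smul_of_le_jacobson_bot D.fg_alg
    (I := IsLocalRing.maximalIdeal A) (IsLocalRing.maximalIdeal_le_jacobson ⊥) ?_
  rw [show D.alg.toSubmodule =
      Submodule.span A (Submonoid.closure (Set.range D.gen) : Set (T → Qbar))
    from Algebra.adjoin_eq_span A _]
  rw [Submodule.span_le]
  intro f hf
  have hfS : f ∈ D.alg := by
    rw [← Subalgebra.mem_toSubmodule, Algebra.adjoin_eq_span]; exact Submodule.subset_span hf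
  have hinert : ∀ σ, Inert A σ → twist σ f = f := by
    intro σ hσ
    refine Submonoid.closure_induction (motive := fun g _ => twist σ g = g) ?_ (map_one _)
      (fun g h _ _ hg hh => by rw [map_mul, hg, hh]) hf
    rintro _ ⟨i, rfl⟩
    exact D.inert σ hσ i
  have h := D.mem_span_sup_of_inert hA hℓ hT hfS hinert
  rwa [Algebra.adjoin_eq_span] at h

end FunctionData

end Fermat.Agent.GoodModel
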