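import Fermat.Agent.GoodModel.RegularDivisor
import Fermat.Prelude.Def_AlgebraicCurve_BaseChangeGalois

/-!
# Divisor classes, semilinear transport and generic effective divisors

Lemmas on linear equivalence, on the effect of semilinear automorphisms on Riemann-Roch spaces, and
the greedy choice of an effective divisor of degree `g` non-special for finitely many classes.
-/

set_option autoImplicit false

noncomputable section

open AlgebraicCurve Filter

namespace Fermat.Agent.GoodModel

open Fermat.Agent.GoodReduction

section Semilinear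

variable {K F : Type*} [Field K] [Field F] [Algebra K F]

open SemilinearAut

/-- A semilinear automorphism maps `L(D)` into `L(s • D)`. -/
theorem smul_mem_LSpace (s : SemilinearAut K F) {D : Divisor K F} {f : F} (hf : f ∈ LSpace D) :
    s • f ∈ LSpace (s • D) := by
  rcases eq_or_ne f 0 with rfl | h0
  · rw [smul_zero]; exact zero_mem _
  rw [mem_LSpace h0] at hf
  rw [mem_LSpace ((smul_ne_zero_iff_ne s).mpr h0)]
  intro v
  have e := ord_smul s (s⁻¹ • v) f
  rw [smul_inv_smul] at e
  rw [divisor_smul_apply, e]
  exact hf _

/-- A semilinear automorphism twists scalars by its base automorphism. -/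
theorem smul_smul_field (s : SemilinearAut K F) (a : K) (f : F) :
    s • (a • f) = baseAut s a • (s • f) := by
  rw [Algebra.smul_def, smul_mul', SemilinearAut.smul_algebraMap, Algebra.smul_def]

/-- Semilinear automorphisms preserve `l(D) = 1`. -/
theorem finrank_LSpace_smul_of_one (s : SemilinearAut K F) {D : Divisor K F}
    (h : Module.finrank K (LSpace D) = 1) : Module.finrank K (LSpace (s • D)) = 1 := by
  obtain ⟨⟨f, hf⟩, hf0, hspan⟩ := finrank_eq_one_iff'.mp h
  have hf0' : f ≠ 0 := fun h0 => hf0 (Subtype.ext h0)
  rw [finrank_eq_one_iff']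
  refine ⟨⟨s • f, smul_mem_LSpace s hf⟩, fun h0 => hf0' ?_, fun w => ?_⟩
  · exact (smul_eq_zero_iff_eq s).mp (congrArg Subtype.val h0)
  · have hw := smul_mem_LSpace s⁻¹ w.2
    rw [inv_smul_smul] at hw
    obtain ⟨a, ha⟩ := hspan ⟨_, hw⟩
    refine ⟨baseAut s a, Subtype.ext ?_⟩
    have ha' : a • f = s⁻¹ • (w : F) := congrArg Subtype.val ha
    show baseAut s a • (s • f) = (w : F)
    rw [← smul_smul_field, ha', smul_inv_smul]

end Semilinear

section Classes

variable {K F : Type*} [Field K] [Field F] [Algebra K F] {g : ℕ} {c : ℤ}

/-- `l(D)` depends only on the linear equivalence class of `D`. -/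
theorem finrank_add_principal (R : RiemannData K F g c) {X D : Divisor K F}
    (hX : X ∈ Divisor.principal (K := K) (F := F)) :
    Module.finrank K (LSpace (D + X)) = Module.finrank K (LSpace D) := by
  obtain ⟨f, hf, hXf⟩ := hX
  rw [R.div_eq hXf, show D + R.div f = D - R.div f⁻¹ by rw [R.div_inv, sub_neg_eq_add],
    R.finrank_sub_div (inv_ne_zero hf)]

/-- Divisors with the same class differ by a principal divisor. -/
theorem sub_mem_principal_of_mk_eq {D D' : Divisor.degZero (K := K) (F := F)}
    (h : Pic0.mk D = Pic0.mk D') :
    (D' : Divisor K F) - (D : Divisor K F) ∈ Divisor.principal (K := K) (F := F) := by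
  have h' := QuotientAddGroup.eq.mp h
  rw [AddSubgroup.mem_addSubgroupOf] at h'
  simpa [neg_add_eq_sub] using h'

/-- A principal divisor is the divisor of a nonzero function. -/
theorem exists_div_eq (R : RiemannData K F g c) {X : Divisor K F}
    (hX : X ∈ Divisor.principal (K := K) (F := F)) : ∃ f : F, f ≠ 0 ∧ R.div f = X := by
  obtain ⟨f, hf, hXf⟩ := hX
  exact ⟨f, hf, (R.div_eq hXf).symm⟩

/-- The divisor of a nonzero function is principal. -/
theorem div_mem_principal (R : RiemannData K F g c) {f : F} (hf : f ≠ 0) :
    R.div f ∈ Divisor.principal (K := K) (F := F) :=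
  ⟨f, hf, fun v => R.div_apply f v⟩

theorem finrank_le_one_of_degree_zero (R : RiemannData K F g c) {D : Divisor K F}
    (hD : Divisor.degree D = 0) : Module.finrank K (LSpace D) ≤ 1 := by
  rcases eq_or_ne (LSpace D) ⊥ with h | h
  · rw [h, finrank_bot]; exact zero_le
  obtain ⟨f, hf, hf0⟩ := Submodule.exists_mem_ne_zero_of_ne_bot h
  have hle : 0 ≤ D + R.div f := fun v => by
    simpa [R.div_apply] using (mem_LSpace hf0).mp hf v
  have hz := R.eq_of_le_of_degree_eq hle (by rw [map_add, R.degree_div, hD]; simp)
  rw [show D = 0 - R.div f by rw [hz, add_sub_cancel_right], R.finrank_sub_div hf0, R.one]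

theorem finrank_add_single_le (R : RiemannData K F g c) (E : Divisor K F) (v : Place K F) :
    Module.finrank K (LSpace (E + Finsupp.single v 1)) ≤ Module.finrank K (LSpace E) + 1 := by
  classical
  have := R.infinitePlaces
  obtain ⟨w, hw⟩ := exists_ne v
  set n : ℕ := (c + 1 - Divisor.degree (E + Finsupp.single v 1)).toNat
  set D := E + Finsupp.single v 1 + Finsupp.single w (n : ℤ) with hD
  have hDdeg : c + 1 ≤ Divisor.degree D := by
    rw [hD, map_add, R.degree_single]
    omega
  have hle : (E + Finsupp.single v 1) ⊓ (D - Finsupp.single v 1) ≤ E := by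
    intro u
    rcases eq_or_ne v u with rfl | hvu
    · simp [hD, Finsupp.inf_apply, Finsupp.single_eq_of_ne hw.symm]
    · simp [Finsupp.inf_apply, Finsupp.single_eq_of_ne hvu.symm]
  have := R.finite (E + Finsupp.single v 1)
  have := R.finite (D - Finsupp.single v 1)
  have := R.finite D
  have := R.finite E
  have h1 := Submodule.finrank_sup_add_finrank_inf_eq (LSpace (E + Finsupp.single v 1))
    (LSpace (D - Finsupp.single v 1))
  rw [← LSpace_inf] at h1
  have h2 := Submodule.finrank_mono (LSpace_mono hle)
  have h3 : Module.finrank K ↥(LSpace (E + Finsupp.single v 1) ⊔ LSpace (D - Finsupp.single v 1))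
      ≤ Module.finrank K (LSpace D) :=
    Submodule.finrank_mono (sup_le
      (LSpace_mono (le_add_of_nonneg_right (by simp)))
      (LSpace_mono (sub_le_self _ (by simp))))
  have h4 := R.finrank_sub_single hDdeg v
  omega

/-- Places enlarging a special space are finite in number. -/
theorem finite_enlarging (R : RiemannData K F g c) {E : Divisor K F}
    (hE : Divisor.degree E + 1 - g < (Module.finrank K (LSpace E) : ℤ)) :
    {v : Place K F | Module.finrank K (LSpace E) <
      Module.finrank K (LSpace (E + Finsupp.single v 1))}.Finite := by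
  classical
  by_contra hinf
  set bad := {v : Place K F | Module.finrank K (LSpace E) <
      Module.finrank K (LSpace (E + Finsupp.single v 1))}
  have step : ∀ j : ℕ, ∃ T : Finset (Place K F), T.card = j ∧ ↑T ⊆ bad ∧
      Module.finrank K (LSpace E) + j
        ≤ Module.finrank K (LSpace (E + ∑ v ∈ T, Finsupp.single v 1)) := by
    intro j
    induction j with
    | zero =>
      refine ⟨∅, rfl, by simp, ?_⟩
      rw [Nat.add_zero]
      exact R.finrank_mono (fun v => by simp)
    | succ j ih =>
      obtain ⟨T, hTc, hTb, hT⟩ := ih
      obtain ⟨v, hvb, hvT⟩ := Set.Infinite.exists_notMem_finset hinf T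
      refine ⟨insert v T, by simp [hvT, hTc], by simp [Set.insert_subset_iff, hvb, hTb], ?_⟩
      rw [Finset.sum_insert hvT]
      set TT : Divisor K F := ∑ w ∈ T, Finsupp.single w 1 with hTT
      have hTTv : TT v = 0 := by
        rw [hTT, Finsupp.finsetSum_apply]
        refine Finset.sum_eq_zero fun w hw => Finsupp.single_eq_of_ne ?_
        rintro rfl
        exact hvT hw
      have hTT0 : 0 ≤ TT := Finset.sum_nonneg fun w _ => by simp
      have := R.finite (E + Finsupp.single v 1)
      have := R.finite (E + (Finsupp.single v 1 + TT))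
      have hne : ¬ LSpace (E + Finsupp.single v 1) ≤ LSpace E := fun hle => by
        have := R.finite E
        exact absurd (Submodule.finrank_mono hle) (not_le.mpr hvb)
      obtain ⟨f, hf, hf'⟩ := SetLike.not_le_iff_exists.mp hne
      have hf0 : f ≠ 0 := fun h0 => hf' (h0 ▸ zero_mem _)
      have hfv : E v + v.ord f < 0 := by
        by_contra hlt
        refine hf' ((mem_LSpace hf0).mpr fun w => ?_)
        rcases eq_or_ne v w with rfl | hvw
        · omega
        · simpa [Finsupp.single_eq_of_ne hvw.symm] using (mem_LSpace hf0).mp hf w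
      have hlt : LSpace (E + TT) < LSpace (E + (Finsupp.single v 1 + TT)) := by
        refine lt_of_le_not_ge (LSpace_mono ?_) (fun hge => ?_)
        · rw [add_comm (Finsupp.single v 1), ← add_assoc]
          exact le_add_of_nonneg_right (by simp)
        · have hfin : f ∈ LSpace (E + (Finsupp.single v 1 + TT)) :=
            LSpace_mono (add_le_add le_rfl (le_add_of_nonneg_right hTT0)) hf
          have := (mem_LSpace hf0).mp (hge hfin) v
          simp [hTTv] at this
          omega
      have := Submodule.finrank_lt_finrank_of_lt hlt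
      omega
  obtain ⟨T, hTc, -, hT⟩ := step ((c - Divisor.degree E).toNat)
  have hdeg : Divisor.degree (E + ∑ v ∈ T, Finsupp.single v 1) = Divisor.degree E + T.card := by
    simp [map_sum, R.deg_one]
  have := R.exact' (E + ∑ v ∈ T, Finsupp.single v 1) (by omega)
  omega

/-- A sum of places has degree its number of terms. -/
theorem degree_sum_single (R : RiemannData K F g c) (B : Multiset (Place K F)) :
    Divisor.degree (B.map fun v => Finsupp.single v (1 : ℤ)).sum = B.card := by
  induction B using Multiset.induction with
  | empty => simp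
  | cons a B ih => simp [R.deg_one, ih]; ring

/-- Greedy choice of a divisor of degree `g` supported on a given infinite set, non-special for
finitely many classes of degree zero. -/
theorem exists_good_divisor (R : RiemannData K F g c) {ι : Type*} [Finite ι]
    (D : ι → Divisor K F) (hD : ∀ i, Divisor.degree (D i) = 0) {s : Set (Place K F)}
    (hs : s.Infinite) :
    ∃ B : Multiset (Place K F), (∀ v ∈ B, v ∈ s) ∧ B.card = g ∧
      ∀ i, Module.finrank K (LSpace (D i + (B.map fun v => Finsupp.single v (1 : ℤ)).sum)) = 1 := by
  classical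
  suffices h : ∀ j ≤ g, ∃ B : Multiset (Place K F), (∀ v ∈ B, v ∈ s) ∧ B.card = j ∧
      ∀ i, Module.finrank K (LSpace (D i + (B.map fun v => Finsupp.single v (1 : ℤ)).sum)) ≤ 1 by
    obtain ⟨B, hBs, hBc, hB⟩ := h g le_rfl
    refine ⟨B, hBs, hBc, fun i => le_antisymm (hB i) ?_⟩
    have hdeg := degree_sum_single R B
    have := R.riemann (D i + (B.map fun v => Finsupp.single v (1 : ℤ)).sum)
    rw [map_add, hD, hdeg, hBc] at this
    omega
  intro j
  induction j with
  | zero => exact fun _ => ⟨0, by simp, rfl, fun i =>
      finrank_le_one_of_degree_zero R (by simp [hD i])⟩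
  | succ j ih =>
    intro hj
    obtain ⟨B, hBs, hBc, hB⟩ := ih (by omega)
    set X : ι → Divisor K F := fun i => D i + (B.map fun v => Finsupp.single v (1 : ℤ)).sum
    have hXdeg : ∀ i, Divisor.degree (X i) = j := by
      intro i
      rw [map_add, hD, zero_add, degree_sum_single R, hBc]
    have hfin : (⋃ i, {v : Place K F | 1 ≤ Module.finrank K (LSpace (X i)) ∧
        Module.finrank K (LSpace (X i)) <
          Module.finrank K (LSpace (X i + Finsupp.single v 1))}).Finite := by
      refine Set.finite_iUnion fun i => ?_
      by_cases h : 1 ≤ Module.finrank K (LSpace (X i))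
      · refine (finite_enlarging R (E := X i) ?_).subset fun v hv => hv.2
        rw [hXdeg]; omega
      · exact Set.Finite.subset Set.finite_empty fun v hv => absurd hv.1 h
    obtain ⟨v, hvs, hv⟩ := (hs.sdiff hfin).nonempty
    refine ⟨v ::ₘ B, by simpa [hvs] using hBs, by simp [hBc], fun i => ?_⟩
    rw [Multiset.map_cons, Multiset.sum_cons, add_left_comm, add_comm]
    show Module.finrank K (LSpace (X i + Finsupp.single v 1)) ≤ 1
    rcases Nat.lt_or_ge (Module.finrank K (LSpace (X i))) 1 with h | h
    · exact (finrank_add_single_le R (X i) v).trans (by omega)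
    · have : ¬ Module.finrank K (LSpace (X i)) <
          Module.finrank K (LSpace (X i + Finsupp.single v 1)) := fun hlt =>
        hv (Set.mem_iUnion.mpr ⟨i, h, hlt⟩)
      exact (not_lt.mp this).trans (hB i)

end Classes

end Fermat.Agent.GoodModel
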