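import Fermat.Agent.GoodModel.Residues
import Mathlib.Algebra.Polynomial.AlgebraMap
import Mathlib.LinearAlgebra.Matrix.Rank

/-!
# Linear algebra over rings of integral functions on a finite set

`S` is an algebra of `A`-valued functions on a finite set `P`. A function in `S` whose residue
vanishes nowhere is a unit of `S`, and a matrix over `S` whose rank is the same at every point,
generically and residually, has a kernel spanned by vectors over `S`.
-/

set_option autoImplicit false

noncomputable section

open Polynomial Matrix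

namespace Fermat.Agent.GoodModel

open Fermat.Agent.GoodReduction

variable {K k F κ : Type*} [Field K] [Field k] [Field F] [Field κ] [Algebra K F] [Algebra k κ]
variable {A : ValuationSubring K} {π : A →+* k} (red : Reduction F κ A π)
variable {P : Type*} (S : Subalgebra A (P → K)) (hS : ∀ f ∈ S, ∀ p, f p ∈ A)

/-- Evaluation at a point. -/
def evK (p : P) : S →+* K := (Pi.evalRingHom (fun _ => K) p).comp S.val.toRingHom

/-- `evK` is evaluation at the point. -/
@[simp] theorem evK_apply (p : P) (s : S) : evK S p s = (s : P → K) p := rfl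

/-- Integral evaluation at a point. -/
def evA (p : P) : S →+* A where
  toFun s := ⟨(s : P → K) p, hS s s.2 p⟩
  map_one' := rfl
  map_mul' _ _ := rfl
  map_zero' := rfl
  map_add' _ _ := rfl

/-- Residual evaluation at a point. -/
def evk (π : A →+* k) (p : P) : S →+* k := π.comp (evA S hS p)

theorem evk_algebraMap (p : P) (a : A) : evk S hS π p (algebraMap A S a) = π a :=
  congrArg π (Subtype.ext rfl)

/-- Constants evaluate to themselves. -/
theorem evK_algebraMap (p : P) (a : A) : evK S p (algebraMap A S a) = (a : K) := rfl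

include red in
theorem isUnit_of_evk_ne_zero [Finite P] (s : S) (h : ∀ p, evk S hS π p s ≠ 0) : IsUnit s := by
  classical
  have := Fintype.ofFinite P
  set c : P → A := fun p => evA S hS p s with hc
  set q : A[X] := ∏ p, (X - C (c p)) with hq
  have hq0 : aeval s q = 0 := by
    refine Subtype.ext (funext fun p => ?_)
    show evK S p (aeval s q) = evK S p 0
    rw [map_zero, hq, map_prod, map_prod]
    refine Finset.prod_eq_zero (Finset.mem_univ p) ?_
    rw [map_sub, aeval_X, aeval_C, map_sub, evK_algebraMap]
    exact sub_self _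
  have hu : IsUnit (q.coeff 0) := by
    rw [coeff_zero_eq_eval_zero, hq, eval_prod, IsUnit.prod_iff]
    intro p _
    rw [eval_sub, eval_X, eval_C, zero_sub, IsUnit.neg_iff]
    exact isUnit_of_map_ne_zero (h p) red
  have key : s * aeval s q.divX = - algebraMap A S (q.coeff 0) := by
    rw [eq_neg_iff_add_eq_zero]
    conv_rhs => rw [← hq0, ← X_mul_divX_add q]
    rw [map_add, map_mul, aeval_X, aeval_C]
  exact isUnit_of_mul_isUnit_left (y := aeval s q.divX)
    (by rw [key]; exact (hu.map (algebraMap A S)).neg)

theorem map_map_algebraMap {I J : Type*} (M : Matrix I J A) (p : P) :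
    (M.map (algebraMap A S)).map (evk S hS π p) = M.map π := by
  ext i j
  exact evk_algebraMap S hS p _

include red in
/-- A matrix over `S`, residually invertible at every point, is invertible over `S`. -/
theorem isUnit_det [Finite P] {r : Type*} [Fintype r] [DecidableEq r] (D : Matrix r r S)
    (h : ∀ p, Function.Injective (D.map (evk S hS π p)).mulVec) : IsUnit D.det := by
  refine isUnit_of_evk_ne_zero red S hS _ fun p => ?_
  rw [RingHom.map_det, RingHom.mapMatrix_apply]
  have := (Matrix.isUnit_iff_isUnit_det _).mp (Matrix.mulVec_injective_iff_isUnit.mp (h p))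
  exact isUnit_iff_ne_zero.mp this

include red in
/-- The kernel of a matrix of constant rank is spanned by vectors over `S`. -/
theorem exists_kernel_matrix [Finite P] [Infinite k] {I J : Type*} [Fintype I] [Fintype J]
    [DecidableEq J] (Q : Matrix I J S) (e : ℕ)
    (hk : ∀ p, Module.finrank k (LinearMap.ker (Q.map (evk S hS π p)).mulVecLin) = e)
    (hK : ∀ p, e ≤ Module.finrank K (LinearMap.ker (Q.map (evK S p)).mulVecLin)) :
    ∃ Z : Matrix J J S, (∀ p, Q.map (evK S p) * Z.map (evK S p) = 0) ∧
      ∀ p, ∀ y, (Q.map (evk S hS π p)) *ᵥ y = 0 → (Z.map (evk S hS π p)) *ᵥ y = y := by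
  classical
  rcases isEmpty_or_nonempty P with hP | ⟨⟨p₀⟩⟩
  · exact ⟨0, fun p => isEmptyElim p, fun p => isEmptyElim p⟩
  set n := Fintype.card J with hn
  have hen : e ≤ n := by
    rw [← hk p₀]
    exact (Submodule.finrank_le _).trans_eq (Module.finrank_fintype_fun_eq_card k)
  set r := n - e with hr
  obtain ⟨C, hC⟩ := exists_common_compl (k := k) (P := P) r _ e hk
    (by rw [Module.finrank_fintype_fun_eq_card, ← hn]; omega)
  have hCp := fun p => compl_props (hk p) (by rw [Module.finrank_fintype_fun_eq_card]; omega) (hC p)
  -- the images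
  have him : ∀ p, Module.finrank k (LinearMap.range (Q.map (evk S hS π p)).mulVecLin) = r := by
    intro p
    have := LinearMap.finrank_range_add_finrank_ker (Q.map (evk S hS π p)).mulVecLin
    rw [hk, Module.finrank_fintype_fun_eq_card] at this
    omega
  set m := Fintype.card I with hm
  have hrm : r ≤ m := by
    rw [← him p₀]
    exact (Submodule.finrank_le _).trans_eq (Module.finrank_fintype_fun_eq_card k)
  obtain ⟨w, hw⟩ := exists_common_compl (k := k) (P := P) (m - r) _ r him
    (by rw [Module.finrank_fintype_fun_eq_card]; omega)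
  have hwp := fun p =>
      compl_props (him p) (by rw [Module.finrank_fintype_fun_eq_card]; omega) (hw p)
  set U := Submodule.span k (Set.range w) with hU
  have hquot : Module.finrank k ((I → k) ⧸ U) = Module.finrank k (Fin r → k) := by
    have h1 := Submodule.finrank_quotient_add_finrank U
    have h2 : Module.finrank k U = m - r := by
      rw [hU, finrank_span_eq_card (hwp p₀).1, Fintype.card_fin]
    rw [Module.finrank_fintype_fun_eq_card] at h1
    rw [Module.finrank_fintype_fun_eq_card, Fintype.card_fin]
    omega
  let f : (I → k) →ₗ[k] (Fin r → k) :=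
    (LinearEquiv.ofFinrankEq _ _ hquot).toLinearMap.comp U.mkQ
  -- lifts
  choose R hR using fun i j => red.surjective (LinearMap.toMatrix' f i j)
  choose C' hC' using fun (j : J) (l : Fin r) => red.surjective (C l j)
  set RS : Matrix (Fin r) I S := (Matrix.of R).map (algebraMap A S)
  set CS : Matrix J (Fin r) S := (Matrix.of C').map (algebraMap A S)
  have hCS : ∀ p, CS.map (evk S hS π p) = Matrix.of fun j l => C l j := fun p => by
    rw [map_map_algebraMap]
    ext j l
    exact hC' j l
  have hRS : ∀ p, RS.map (evk S hS π p) = LinearMap.toMatrix' f := fun p => by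
    rw [map_map_algebraMap]
    ext i j
    exact hR i j
  set D := RS * Q * CS with hD
  have hinj : ∀ p, Function.Injective (D.map (evk S hS π p)).mulVec := by
    intro p
    rw [← Matrix.coe_mulVecLin, ← LinearMap.ker_eq_bot, LinearMap.ker_eq_bot']
    intro y hy
    rw [Matrix.mulVecLin_apply, hD, Matrix.map_mul, Matrix.map_mul, hRS, hCS, ← mulVec_mulVec,
      ← mulVec_mulVec, LinearMap.toMatrix'_mulVec] at hy
    set z := (Matrix.of fun j l => C l j) *ᵥ y with hz
    have hzC : z ∈ Submodule.span k (Set.range C) := by
      have : z = ∑ l, y l • C l := by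
        funext j
        simp [hz, Matrix.mulVec, dotProduct, mul_comm]
      rw [this]
      exact Submodule.sum_mem _ fun l _ => Submodule.smul_mem _ _ (Submodule.subset_span ⟨l, rfl⟩)
    have hU' : (Q.map (evk S hS π p)) *ᵥ z ∈ U := by
      have := hy
      simp only [f, LinearMap.comp_apply, LinearEquiv.coe_coe, EmbeddingLike.map_eq_zero_iff,
        Submodule.mkQ_apply, Submodule.Quotient.mk_eq_zero] at this
      exact this
    have h0 : (Q.map (evk S hS π p)) *ᵥ z = 0 :=
      Submodule.disjoint_def.mp (hwp p).2 _ ⟨z, rfl⟩ hU'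
    have hz0 : z = 0 := Submodule.disjoint_def.mp (hCp p).2 z h0 hzC
    have := Fintype.linearIndependent_iff.mp (hCp p).1 y (by
      funext j
      have := congrFun hz0 j
      simpa [hz, Matrix.mulVec, dotProduct, mul_comm] using this)
    exact funext this
  have hdet := isUnit_det red S hS D hinj
  set Z : Matrix J J S := 1 - CS * (D⁻¹ * (RS * Q)) with hZ
  have hRQZ : RS * Q * Z = 0 := by
    rw [hZ, Matrix.mul_sub, Matrix.mul_one, ← Matrix.mul_assoc (RS * Q), ← hD,
      ← Matrix.mul_assoc D, Matrix.mul_nonsing_inv _ hdet, Matrix.one_mul, sub_self]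
  refine ⟨Z, fun p => ?_, fun p y hy => ?_⟩
  · set q := (Q.map (evK S p)).mulVecLin with hq
    set rq := ((RS * Q).map (evK S p)).mulVecLin with hrq
    have hle : LinearMap.ker q ≤ LinearMap.ker rq := fun y hy => by
      rw [LinearMap.mem_ker, hrq, Matrix.mulVecLin_apply, Matrix.map_mul, ← mulVec_mulVec]
      rw [LinearMap.mem_ker, hq, Matrix.mulVecLin_apply] at hy
      rw [hy, mulVec_zero]
    have hsurj : LinearMap.range rq = ⊤ := by
      refine LinearMap.range_eq_top.mpr fun y => ?_
      refine ⟨(CS * D⁻¹).map (evK S p) *ᵥ y, ?_⟩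
      rw [hrq, Matrix.mulVecLin_apply, mulVec_mulVec, ← Matrix.map_mul, ← Matrix.mul_assoc, ← hD,
        Matrix.mul_nonsing_inv _ hdet, Matrix.map_one _ (map_zero _) (map_one _), one_mulVec]
    have heq : LinearMap.ker q = LinearMap.ker rq := by
      refine Submodule.eq_of_le_of_finrank_le hle ?_
      have h1 := LinearMap.finrank_range_add_finrank_ker rq
      rw [hsurj, finrank_top, Module.finrank_fintype_fun_eq_card,
        Module.finrank_fintype_fun_eq_card, Fintype.card_fin] at h1
      have h2 : e ≤ Module.finrank K (LinearMap.ker q) := hK p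
      omega
    refine Matrix.ext_of_mulVec_single fun j => ?_
    rw [← mulVec_mulVec, Matrix.zero_mulVec]
    have : (Z.map (evK S p)) *ᵥ Pi.single j 1 ∈ LinearMap.ker rq := by
      rw [LinearMap.mem_ker, hrq, Matrix.mulVecLin_apply, mulVec_mulVec, ← Matrix.map_mul, hRQZ,
        Matrix.map_zero _ (map_zero _), Matrix.zero_mulVec]
    rw [← heq] at this
    exact this
  · rw [hZ, Matrix.map_sub _ (map_sub _), Matrix.map_one _ (map_zero _) (map_one _),
      sub_mulVec, one_mulVec, Matrix.map_mul, Matrix.map_mul, Matrix.map_mul, ← mulVec_mulVec,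
      ← mulVec_mulVec, ← mulVec_mulVec, hy, mulVec_zero, mulVec_zero, mulVec_zero, sub_zero]

end Fermat.Agent.GoodModel
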