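import Fermat.Agent.GoodReduction.Criterion
import Fermat.Agent.GoodModel.CoordinateOrder

/-!
# Places fixed by inertia on a good model polarised by the poles of an invariant function

Over a residue value outside finitely many, the fibre of the function reduces bijectively, so its
places over an inertia-invariant lift are fixed by inertia.
-/

set_option autoImplicit false

noncomputable section

open AlgebraicCurve IntermediateField

namespace Fermat.Agent.GoodModel

open Fermat.Agent.GoodReduction Fermat.Agent.GaloisBasics Fermat.Agent.FunctionField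

section Poles

variable {K F : Type*} [Field K] [Field F] [Algebra K F] [IsFunctionField K F]

/-- A semilinear automorphism fixing `x` fixes its pole divisor. -/
theorem smul_poleDiv_eq (s : SemilinearAut K F) {x : F} (hx : s • x = x) :
    s • poleDiv K x = poleDiv K x := by
  refine Finsupp.ext fun v => ?_
  have e := SemilinearAut.ord_smul s (s⁻¹ • v) x
  rw [smul_inv_smul, hx] at e
  simp only [SemilinearAut.divisor_smul_apply, poleDiv, Finsupp.sup_apply, Finsupp.neg_apply,
    divFun_apply, e, Finsupp.coe_zero, Pi.zero_apply]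

theorem smul_mem_fibre {x : F} {a : K} {s : SemilinearAut K F} (hx : s • x = x)
    (ha : SemilinearAut.baseAut s a = a) {P : Place K F}
    (hP : P ∈ fibre x a) : s • P ∈ fibre x a := by
  rw [fibre, mem_zeros] at hP ⊢
  rwa [← SemilinearAut.ord_smul s P (x - algebraMap K F a), smul_sub, hx,
    SemilinearAut.smul_algebraMap, ha] at hP

/-- Outside finitely many values the fibres are reduced. -/
theorem finite_branch [IsAlgClosed K] {x : F} (hx : Transcendental K x)
    [Algebra.IsSeparable K⟮x⟯ F] :
    {s : K | (fibre x s).card < degFun K x}.Finite := by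
  classical
  by_contra hinf
  obtain ⟨S, hS, hcard⟩ := Set.Infinite.exists_subset_card_eq hinf
    (2 * (genusFF K F + degFun K x) + 1)
  have h := hurwitz_le hx S
  have h2 : (S.card : ℤ) ≤ ∑ s ∈ S, ((degFun K x : ℤ) - (fibre x s).card) := by
    rw [Finset.cast_card]
    refine Finset.sum_le_sum fun s hs => ?_
    have : (fibre x s).card < degFun K x := hS hs
    omega
  have h3 := card_poles_le (K := K) hx
  omega

end Poles

variable {ℓ : ℕ} {A : ValuationSubring Qbar} {k F κ : Type*} [Field k] [Field F] [Field κ]
  [Algebra Qbar F] [Algebra k κ] {π : A →+* k} {red : Reduction F κ A π}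
variable {g : ℕ} {c : ℤ} {H : Divisor Qbar F} {Hb : Divisor k κ}

/-- Infinitely many reduced places lift to inertia-fixed places. -/
theorem infinite_fixed_of_fibres [IsFunctionField Qbar F] [IsFunctionField k κ] [IsAlgClosed k]
    (G : GoodReduction.GoodModel red g c H Hb) (act : GalQ →* SemilinearAut Qbar F)
    (hbase : ∀ (σ : GalQ) (a : Qbar), SemilinearAut.baseAut (act σ) a = σ a)
    (hA : A.LiesOverPrime ℓ) (hℓ : ℓ.Prime) (hH : ∀ σ, act σ • H = H)
    (hinert : ∀ σ, Inert A σ → ∀ f ∈ red.V,
      act σ • f ∈ red.V ∧ resF red (act σ • f) = resF red f)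
    {x : red.V} (hxfix : ∀ σ, act σ • (x : F) = x) (hx : Transcendental Qbar (x : F))
    (ht : Transcendental k (red.res x))
    [Algebra.IsSeparable k⟮red.res x⟯ κ]
    (hdeg : degFun k (red.res x) = degFun Qbar (x : F)) :
    (G.placeMap '' {v | ∀ σ, Inert A σ → act σ • v = v}).Infinite := by
  classical
  have : Infinite k := IsAlgClosed.instInfinite
  set n := degFun k (red.res x) with hn
  have hgood : {s : k | (fibre (red.res x) s).card = n}.Infinite := by
    refine ((finite_branch ht).infinite_compl).mono fun s hs => ?_
    have h1 := card_fibre_le ht s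
    simp only [Set.mem_compl_iff, Set.mem_ofPred_eq, not_lt] at hs ⊢
    omega
  have hplace : ∀ s, (fibre (red.res x) s).card = n →
      ∀ Q ∈ fibre (red.res x) s, Q ∈ G.placeMap '' {v | ∀ σ, Inert A σ → act σ • v = v} := by
    intro s hs Q hQ
    obtain ⟨a, rfl, hafix⟩ := exists_inert_lift red hA hℓ s
    set x' : red.V := x - ⟨_, red.algebraMap_mem a⟩ with hx'
    have hres : red.res x' = red.res x - algebraMap k κ (π a) := by
      rw [hx', map_sub, red.res_algebraMap]
    have hxne : red.res x' ≠ 0 := by
      rw [hres]
      exact FunctionField.transcendental_ne_zero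
        (transcendental_sub_algebraMap ht (π a))
    have hlift : ∀ Q' ∈ fibre (red.res x) (π a),
        ∃ P ∈ fibre (x : F) (a : Qbar), G.placeMap P = Q' := by
      intro Q' hQ'
      rw [fibre, mem_zeros, ← hres, ← G.riemann'.div_apply, ← G.divMap_div hxne,
        G.divMap_apply_eq_sum] at hQ'
      obtain ⟨P, -, hP⟩ := Finset.exists_lt_of_sum_lt
        (f := fun _ : Place Qbar F => (0 : ℤ)) (by simpa using hQ')
      split at hP
      · rename_i hPQ
        rw [G.riemann.div_apply] at hP
        exact ⟨P, mem_zeros.mpr hP, hPQ⟩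
      · exact absurd hP (lt_irrefl _)
    have hsub : fibre (red.res x) (π a) ⊆ (fibre (x : F) (a : Qbar)).image G.placeMap :=
      fun Q' hQ' => Finset.mem_image.mpr (hlift Q' hQ')
    have hcard : (fibre (x : F) (a : Qbar)).card ≤
        ((fibre (x : F) (a : Qbar)).image G.placeMap).card :=
      (card_fibre_le hx (a : Qbar)).trans
        (le_of_eq (hdeg.symm.trans hs.symm) |>.trans (Finset.card_le_card hsub))
    have hinj : Set.InjOn G.placeMap (fibre (x : F) (a : Qbar)) :=
      Finset.card_image_iff.mp (le_antisymm Finset.card_image_le hcard)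
    obtain ⟨P, hP, rfl⟩ := hlift Q hQ
    refine ⟨P, fun σ hσ => hinj ?_ hP ?_, rfl⟩
    · exact smul_mem_fibre (hxfix σ) ((hbase σ _).trans (hafix σ hσ)) hP
    · rw [G.placeMap_smul (act σ) 1 (hH σ) (one_smul _ _) (fun f => ?_), one_smul]
      obtain ⟨h1, h2⟩ := hinert σ hσ f f.2
      exact ⟨h1, by rw [one_smul, ← resF_of_mem red h1, h2, resF_of_mem red f.2]⟩
  intro hfin
  apply hgood
  refine Set.Finite.subset ((hfin.biUnion fun Q _ =>
    (Set.Subsingleton.finite (s := {s : k | Q ∈ fibre (red.res x) s}) fun s hs s' hs' => by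
      by_contra hne
      exact Finset.disjoint_left.mp (disjoint_fibre (red.res x) hne) hs hs'))) fun s hs => ?_
  have hpos : 0 < (fibre (red.res x) s).card := by
    rw [show (fibre (red.res x) s).card = n from hs]
    exact FunctionField.degFun_pos ht
  obtain ⟨Q, hQ⟩ := Finset.card_pos.mp hpos
  exact Set.mem_biUnion (hplace s hs Q hQ) hQ

end Fermat.Agent.GoodModel
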