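import Fermat.Agent.GaloisBasics.Place
import Mathlib.FieldTheory.Galois.Profinite
import Mathlib.FieldTheory.Finite.Basic
import Mathlib.FieldTheory.Minpoly.Field
import Mathlib.Algebra.Algebra.ZMod
import Mathlib.RingTheory.RootsOfUnity.AlgebraicallyClosed

/-!
# Valuation subrings of `AlgebraicClosure ℚ` over a prime

Elementary facts about a valuation subring of `AlgebraicClosure ℚ` lying over a prime `ℓ`:
the value group is of rank one, residues lift to roots of unity of order prime to `ℓ`, and a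
compact set of automorphisms moving the place is separated from the identity by one element.
-/

set_option autoImplicit false

noncomputable section

open scoped Pointwise
open Polynomial

namespace Fermat.Agent.GoodModel

open Fermat.Agent.GaloisBasics

variable {ℓ : ℕ} {A : ValuationSubring Qbar}

theorem val_ell_lt_one (hA : A.LiesOverPrime ℓ) : A.valuation (ℓ : Qbar) < 1 :=
  A.mem_nonunits_iff.mp hA

/-- The prime `ℓ` has nonzero value. -/
theorem val_ell_ne_zero (hℓ : ℓ.Prime) : A.valuation (ℓ : Qbar) ≠ 0 := by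
  rw [Valuation.ne_zero_iff]
  exact_mod_cast hℓ.ne_zero

theorem val_intCast_eq_one (hA : A.LiesOverPrime ℓ) (hℓ : ℓ.Prime) {n : ℤ} (hn : ¬(ℓ : ℤ) ∣ n) :
    A.valuation (n : Qbar) = 1 := by
  refine le_antisymm ?_ (not_lt.mp ?_)
  · exact (A.valuation_le_one_iff _).mpr (intCast_mem A n)
  · rw [← A.mem_nonunits_iff, intCast_mem_nonunits_iff hA hℓ]
    exact hn

theorem val_intCast_eq_pow (hA : A.LiesOverPrime ℓ) (hℓ : ℓ.Prime) {n : ℤ} (hn : n ≠ 0) :
    ∃ e : ℕ, A.valuation (n : Qbar) = A.valuation (ℓ : Qbar) ^ e := by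
  obtain ⟨e, m, hm, rfl⟩ :=
    WfDvdMonoid.max_power_factor hn (Nat.prime_iff_prime_int.mp hℓ).irreducible
  refine ⟨e, ?_⟩
  push_cast
  rw [map_mul, map_pow, val_intCast_eq_one hA hℓ hm, mul_one]

theorem val_ratCast_eq_zpow (hA : A.LiesOverPrime ℓ) (hℓ : ℓ.Prime) {q : ℚ} (hq : q ≠ 0) :
    ∃ e : ℤ, A.valuation (algebraMap ℚ Qbar q) = A.valuation (ℓ : Qbar) ^ e := by
  obtain ⟨a, ha⟩ := val_intCast_eq_pow hA hℓ (Rat.num_ne_zero.mpr hq)
  obtain ⟨b, hb⟩ := val_intCast_eq_pow hA hℓ (n := (q.den : ℤ)) (by exact_mod_cast q.den_ne_zero)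
  refine ⟨a - b, ?_⟩
  rw [eq_ratCast, Rat.cast_def, map_div₀, ha, ← Int.cast_natCast (R := Qbar) q.den, hb,
    zpow_sub₀ (val_ell_ne_zero hℓ), zpow_natCast, zpow_natCast, div_eq_mul_inv]

/-- A rational number lies in `A` iff its denominator is prime to `ℓ`. -/
theorem algebraMap_rat_mem_iff (hA : A.LiesOverPrime ℓ) (hℓ : ℓ.Prime) (q : ℚ) :
    algebraMap ℚ Qbar q ∈ A ↔ q.den.Coprime ℓ := by
  rw [Nat.coprime_comm, hℓ.coprime_iff_not_dvd, ← A.valuation_le_one_iff]
  have hden : (q.den : Qbar) ≠ 0 := by exact_mod_cast q.den_ne_zero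
  constructor
  · intro h hdvd
    have hnum : ¬(ℓ : ℤ) ∣ q.num := by
      intro hn
      have := Int.natAbs_dvd_natAbs.mpr hn
      rw [Int.natAbs_natCast] at this
      exact hℓ.one_lt.ne' (Nat.eq_one_of_dvd_coprimes q.reduced this hdvd)
    have hd : A.valuation ((q.den : ℤ) : Qbar) < 1 := by
      rw [← A.mem_nonunits_iff, intCast_mem_nonunits_iff hA hℓ]
      exact_mod_cast hdvd
    have h1 : algebraMap ℚ Qbar q * ((q.den : ℤ) : Qbar) = (q.num : Qbar) := by
      rw [eq_ratCast, Rat.cast_def, Int.cast_natCast, div_mul_cancel₀ _ hden]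
    have h2 := congr_arg A.valuation h1
    rw [map_mul, val_intCast_eq_one hA hℓ hnum] at h2
    exact absurd h2 (ne_of_lt (lt_of_le_of_lt (mul_le_of_le_one_left' h) hd))
  · intro h
    have hd : A.valuation ((q.den : ℤ) : Qbar) = 1 :=
      val_intCast_eq_one hA hℓ (by exact_mod_cast h)
    rw [eq_ratCast, Rat.cast_def, map_div₀, ← Int.cast_natCast (R := Qbar) q.den, hd, div_one]
    exact (A.valuation_le_one_iff _).mpr (intCast_mem A _)

/-- Every nonzero algebraic number has a power whose value is an integral power of that of `ℓ`. -/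
theorem exists_pow_val_eq_zpow (hA : A.LiesOverPrime ℓ) (hℓ : ℓ.Prime) {x : Qbar} (hx : x ≠ 0) :
    ∃ (k : ℕ) (e : ℤ), 0 < k ∧ A.valuation x ^ k = A.valuation (ℓ : Qbar) ^ e := by
  classical
  have hint : IsIntegral ℚ x := (Algebra.IsAlgebraic.isAlgebraic x).isIntegral
  set p := minpoly ℚ x with hp
  set t : ℕ → Qbar := fun i => algebraMap ℚ Qbar (p.coeff i) * x ^ i with ht
  have h0 : ∑ i ∈ p.support, t i = 0 := by
    have h := minpoly.aeval ℚ x
    rw [aeval_def, eval₂_eq_sum, Polynomial.sum_def] at h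
    exact h
  have hne : p.support.Nonempty := support_nonempty.mpr (minpoly.ne_zero hint)
  obtain ⟨j, hj, hmax⟩ := Finset.exists_max_image p.support (fun i => A.valuation (t i)) hne
  have hnz : ∀ i ∈ p.support, A.valuation (algebraMap ℚ Qbar (p.coeff i)) ≠ 0 := by
    intro i hi
    rw [Valuation.ne_zero_iff, _root_.map_ne_zero]
    exact mem_support_iff.mp hi
  obtain ⟨i, hi, hij, heq⟩ : ∃ i ∈ p.support, i ≠ j ∧ A.valuation (t i) = A.valuation (t j) := by
    by_contra hcon
    have h1 := Valuation.map_sum_eq_of_lt A.valuation hj (f := t) (fun i hi => ?_)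
    · rw [h0, map_zero] at h1
      rw [ht, map_mul, map_pow] at h1
      exact mul_ne_zero (hnz j hj) (pow_ne_zero _ (A.valuation.ne_zero_iff.mpr hx)) h1.symm
    · simp only [Finset.mem_sdiff, Finset.mem_singleton] at hi
      exact lt_of_le_of_ne (hmax i hi.1) fun h => hcon ⟨i, hi.1, hi.2, h⟩
  obtain ⟨a, b, ha, hb, hab, heq⟩ : ∃ a b, a ∈ p.support ∧ b ∈ p.support ∧ a < b ∧
      A.valuation (t a) = A.valuation (t b) := by
    rcases hij.lt_or_gt with h | h
    exacts [⟨i, j, hi, hj, h, heq⟩, ⟨j, i, hj, hi, h, heq.symm⟩]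
  obtain ⟨ea, hea⟩ := val_ratCast_eq_zpow hA hℓ (mem_support_iff.mp ha)
  obtain ⟨eb, heb⟩ := val_ratCast_eq_zpow hA hℓ (mem_support_iff.mp hb)
  refine ⟨b - a, ea - eb, by omega, ?_⟩
  have hxv : A.valuation x ≠ 0 := A.valuation.ne_zero_iff.mpr hx
  simp only [ht, map_mul, map_pow, hea, heb] at heq
  have hz :
      A.valuation (ℓ : Qbar) ^ ea = A.valuation (ℓ : Qbar) ^ eb * A.valuation x ^ (b - a) := by
    apply mul_right_cancel₀ (pow_ne_zero a hxv)
    rw [mul_assoc, ← pow_add, Nat.sub_add_cancel hab.le]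
    exact heq
  rw [zpow_sub₀ (val_ell_ne_zero hℓ), hz,
      mul_div_cancel_left₀ _ (zpow_ne_zero _ (val_ell_ne_zero hℓ))]

/-- Powers of an element of the maximal ideal become smaller than any nonzero element. -/
theorem exists_pow_val_lt (hA : A.LiesOverPrime ℓ) (hℓ : ℓ.Prime) {a w : Qbar}
    (ha : A.valuation a < 1) (hw : w ≠ 0) :
    ∃ M₀ : ℕ, ∀ M, M₀ ≤ M → A.valuation (a ^ M) < A.valuation w := by
  have hw' : 0 < A.valuation w := zero_lt_iff.mpr (A.valuation.ne_zero_iff.mpr hw)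
  rcases eq_or_ne a 0 with rfl | ha0
  · exact ⟨1, fun M hM => by rw [zero_pow (by omega), map_zero]; exact hw'⟩
  obtain ⟨k, e, hk, he⟩ := exists_pow_val_eq_zpow hA hℓ ha0
  obtain ⟨k', e', hk', he'⟩ := exists_pow_val_eq_zpow hA hℓ hw
  have hl0 : 0 < A.valuation (ℓ : Qbar) := zero_lt_iff.mpr (val_ell_ne_zero hℓ)
  have hl1 := val_ell_lt_one hA
  have hepos : 0 < e := by
    by_contra hcon
    have h1 : (1 : A.ValueGroup) ≤ A.valuation (ℓ : Qbar) ^ e :=
      one_le_zpow_of_nonpos₀ hl0 hl1.le (not_lt.mp hcon)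
    rw [← he] at h1
    exact absurd (pow_lt_one₀ zero_le ha hk.ne') (not_lt.mpr h1)
  refine ⟨k * (e'.toNat + 1), fun M hM => ?_⟩
  refine lt_of_le_of_lt (b := A.valuation (a ^ (k * (e'.toNat + 1)))) ?_ ?_
  · rw [map_pow, map_pow]
    exact pow_le_pow_right_of_le_one' ha.le hM
  · by_contra hcon
    have h1 := pow_le_pow_left₀ zero_le (not_lt.mp hcon) k'
    rw [he', map_pow, pow_mul, he, ← zpow_natCast, ← zpow_natCast, ← zpow_mul, ← zpow_mul,
      (zpow_right_strictAnti₀ hl0 hl1).le_iff_ge] at h1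
    have h2 : (1 : ℤ) ≤ k' := by exact_mod_cast hk'
    push_cast at h1
    have h3 : (e'.toNat : ℤ) + 1 ≤ ((e'.toNat : ℤ) + 1) * k' :=
      le_mul_of_one_le_right (by positivity) h2
    have h4 : ((e'.toNat : ℤ) + 1) * k' ≤ e * (((e'.toNat : ℤ) + 1) * k') :=
      le_mul_of_one_le_left (by positivity) hepos
    have h5 := Int.self_le_toNat e'
    omega

/-- Roots of unity of order prime to `ℓ` are determined by their residues. -/
theorem root_eq_of_val_sub_lt (hA : A.LiesOverPrime ℓ) (hℓ : ℓ.Prime) {m : ℕ} (hm : ¬ℓ ∣ m)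
    {z z' : Qbar} (hz : z ^ m = 1) (hz' : z' ^ m = 1) (h : A.valuation (z' - z) < 1) : z' = z := by
  have hm0 : m ≠ 0 := fun h0 => hm (h0 ▸ dvd_zero ℓ)
  have hz0 : z ≠ 0 := fun h0 => by simp [h0, zero_pow hm0] at hz
  have hzv : A.valuation z = 1 := by
    have h1 := congr_arg A.valuation hz
    rw [map_pow, map_one] at h1
    exact (pow_left_inj₀ zero_le zero_le hm0).mp (h1.trans (one_pow m).symm)
  set η := z' / z with hη
  have hη1 : η ^ m = 1 := by rw [hη, div_pow, hz, hz', div_one]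
  have hd : A.valuation (η - 1) < 1 := by
    rw [hη, div_sub_one hz0, map_div₀, hzv, div_one]
    exact h
  by_contra hne
  have hne1 : η - 1 ≠ 0 := by
    rw [sub_ne_zero, hη]
    exact fun h1 => hne ((div_eq_one_iff_eq hz0).mp h1)
  have hsum : ∑ i ∈ Finset.range m, η ^ i = 0 := by
    have h1 := geom_sum_mul η m
    rw [hη1, sub_self] at h1
    exact (mul_eq_zero.mp h1).resolve_right hne1
  have hη_mem : A.valuation η ≤ 1 := ((pow_left_inj₀ zero_le zero_le hm0).mp
    (by rw [← map_pow, hη1, map_one, one_pow] : A.valuation η ^ m = 1 ^ m)).le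
  have hlt : A.valuation (∑ i ∈ Finset.range m, (η ^ i - 1)) < 1 :=
    Valuation.map_sum_lt _ one_ne_zero fun i _ => by
      rw [← mul_geom_sum, map_mul]
      refine lt_of_le_of_lt (mul_le_of_le_one_right' ?_) hd
      exact Valuation.map_sum_le _ fun j _ => by rw [map_pow]; exact pow_le_one' hη_mem _
  rw [Finset.sum_sub_distrib, hsum, Finset.sum_const, Finset.card_range, nsmul_eq_mul, mul_one,
    zero_sub, Valuation.map_neg, ← Int.cast_natCast,
    val_intCast_eq_one hA hℓ (by exact_mod_cast hm)] at hlt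
  exact lt_irrefl _ hlt

/-- Residue map of `A` as a function. -/
theorem residue_eq_iff {x y : A} :
    IsLocalRing.residue A x = IsLocalRing.residue A y ↔ A.valuation ((x : Qbar) - y) < 1 := by
  rw [← sub_eq_zero, ← map_sub, IsLocalRing.residue_eq_zero_iff,
    ← ValuationSubring.coe_mem_nonunits_iff, A.mem_nonunits_iff]
  rfl

/-- Residues lift to roots of unity of order prime to `ℓ`. -/
theorem exists_root_lift (hA : A.LiesOverPrime ℓ) (hℓ : ℓ.Prime) {x : Qbar}
    (hx : A.valuation x = 1) :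
    ∃ (z : Qbar) (m : ℕ), ¬ℓ ∣ m ∧ z ^ m = 1 ∧ A.valuation (x - z) < 1 := by
  classical
  have := Fact.mk hℓ
  let k := IsLocalRing.ResidueField A
  have : CharP k ℓ := residueField_charP hA hℓ
  let : Algebra (ZMod ℓ) k := ZMod.algebra k ℓ
  have hxA : x ∈ A := (A.valuation_le_one_iff x).mp hx.le
  set r : k := IsLocalRing.residue A ⟨x, hxA⟩ with hr
  have hr0 : r ≠ 0 := by
    rw [hr, ← map_zero (IsLocalRing.residue A), Ne, residue_eq_iff, ZeroMemClass.coe_zero, sub_zero]
    exact hx.not_lt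
  obtain ⟨b, hb⟩ := zbarResidue_surjective hA hℓ r
  have hint : IsIntegral (ZMod ℓ) r := by
    rw [← hb]
    have h : IsIntegral ℤ (zbarResidue A b) :=
      map_isIntegral_int _ (NumberField.RingOfIntegers.isIntegral b)
    obtain ⟨P, hP, hP0⟩ := h
    refine ⟨P.map (Int.castRingHom (ZMod ℓ)), hP.map _, ?_⟩
    rw [eval₂_map]
    rw [RingHom.ext_int ((algebraMap (ZMod ℓ) k).comp (Int.castRingHom (ZMod ℓ))) (algebraMap ℤ k)]
    exact hP0
  let E := IntermediateField.adjoin (ZMod ℓ) {r}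
  have : FiniteDimensional (ZMod ℓ) E := IntermediateField.adjoin.finiteDimensional hint
  have : Finite E := Module.finite_of_finite (ZMod ℓ)
  let := Fintype.ofFinite E
  set m := Fintype.card E - 1 with hm
  have hE : 1 < Fintype.card E := Fintype.one_lt_card
  have hcard : ℓ ∣ Fintype.card E := by
    obtain ⟨n, -, hn⟩ := FiniteField.card E ℓ
    exact hn ▸ dvd_pow_self _ n.ne_zero
  have hmℓ : ¬ℓ ∣ m := fun hd => hℓ.one_lt.ne' (Nat.dvd_one.mp (by
    have h1 := Nat.dvd_sub hcard hd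
    rwa [hm, Nat.sub_sub_self hE.le] at h1))
  have hrm : r ^ m = 1 := by
    have h1 := FiniteField.pow_card_sub_one_eq_one
      (⟨r, IntermediateField.mem_adjoin_simple_self _ r⟩ : E)
      (fun h => hr0 (congr_arg Subtype.val h))
    exact congr_arg Subtype.val h1
  have hm0 : 0 < m := by omega
  obtain ⟨ζ, hζ⟩ : ∃ ζ : Qbar, IsPrimitiveRoot ζ m := by
    have : NeZero (m : Qbar) := ⟨by exact_mod_cast hm0.ne'⟩
    exact HasEnoughRootsOfUnity.exists_primitiveRoot Qbar m
  have hζA : ζ ∈ A := mem_of_isIntegral A (hζ.isIntegral hm0)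
  have hres : IsPrimitiveRoot (IsLocalRing.residue A ⟨ζ, hζA⟩) m := by
    refine ⟨?_, fun l hl => ?_⟩
    · rw [← map_pow, ← map_one (IsLocalRing.residue A)]
      exact congr_arg _ (Subtype.ext (by simpa using hζ.pow_eq_one))
    · rw [← map_pow, ← map_one (IsLocalRing.residue A), residue_eq_iff] at hl
      refine hζ.dvd_of_pow_eq_one l ?_
      exact root_eq_of_val_sub_lt hA hℓ hmℓ (one_pow m)
        (by rw [← pow_mul, mul_comm, pow_mul, hζ.pow_eq_one, one_pow]) (by simpa using hl)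
  have : NeZero m := ⟨hm0.ne'⟩
  obtain ⟨i, -, hi⟩ := hres.eq_pow_of_pow_eq_one hrm
  refine ⟨ζ ^ i, m, hmℓ, by rw [← pow_mul, mul_comm, pow_mul, hζ.pow_eq_one, one_pow], ?_⟩
  rw [hr, ← map_pow, residue_eq_iff] at hi
  rw [Valuation.map_sub_swap]
  simpa using hi

/-! ### Automorphisms and valuations -/

/-- The decomposition group, as a predicate. -/
def Decomp (A : ValuationSubring Qbar) (σ : GalQ) : Prop := ∀ x : Qbar, σ x ∈ A ↔ x ∈ A

/-- The inertia group, as a predicate. -/
def Inert (A : ValuationSubring Qbar) (σ : GalQ) : Prop :=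
  Decomp A σ ∧ ∀ x ∈ A, A.valuation (σ x - x) < 1

/-- The identity lies in the decomposition group. -/
theorem Decomp.one : Decomp A 1 := fun _ => Iff.rfl

/-- The decomposition group is closed under products. -/
theorem Decomp.mul {σ τ : GalQ} (hσ : Decomp A σ) (hτ : Decomp A τ) : Decomp A (σ * τ) :=
  fun x => (hσ (τ x)).trans (hτ x)

/-- The decomposition group is closed under inverses. -/
theorem Decomp.inv {σ : GalQ} (hσ : Decomp A σ) : Decomp A σ⁻¹ := fun x => by
  rw [← hσ (σ⁻¹ x)]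
  simp [AlgEquiv.aut_inv]

/-- The decomposition group preserves the maximal ideal. -/
theorem Decomp.val_lt_one {σ : GalQ} (hσ : Decomp A σ) {x : Qbar} (hx : A.valuation x < 1) :
    A.valuation (σ x) < 1 := by
  rw [← A.mem_nonunits_iff, ValuationSubring.mem_nonunits_iff_or] at hx ⊢
  rwa [map_eq_zero, ← map_inv₀, hσ]

/-- The value of an automorphism at a point is locally constant. -/
theorem isLocallyConstant_apply (x : Qbar) : IsLocallyConstant fun σ : GalQ => σ x := by
  let L := IntermediateField.adjoin ℚ {x}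
  have : FiniteDimensional ℚ L :=
    IntermediateField.adjoin.finiteDimensional (Algebra.IsAlgebraic.isAlgebraic x).isIntegral
  rw [IsLocallyConstant.iff_exists_open]
  intro σ
  refine ⟨σ • (L.fixingSubgroup : Set GalQ), (L.fixingSubgroup_isOpen).smul σ,
    ⟨1, one_mem _, by simp⟩, ?_⟩
  rintro _ ⟨u, hu, rfl⟩
  show σ (u x) = σ x
  rw [show u x = x from hu ⟨x, IntermediateField.mem_adjoin_simple_self ℚ x⟩]

/-- The decomposition group is closed. -/
theorem isClosed_decomp : IsClosed {σ : GalQ | Decomp A σ} := by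
  simp only [Decomp, Set.ofPred_forall]
  exact isClosed_iInter fun x => ⟨isLocallyConstant_apply x {y | ¬(y ∈ A ↔ x ∈ A)}⟩

/-- A closed set of automorphisms none of which fixes `A` is separated from the identity by one
element. -/
theorem exists_separating (hA : A.LiesOverPrime ℓ) (hℓ : ℓ.Prime) {C : Set GalQ} (hC : IsClosed C)
    (hCD : ∀ σ ∈ C, ¬Decomp A σ) :
    ∃ b : Qbar, IsIntegral ℤ b ∧ A.valuation (b - 1) < 1 ∧
      ∀ σ ∈ C, A.valuation (σ b) < 1 := by
  classical
  have key : ∀ σ ∈ C, ∃ a : Qbar, IsIntegral ℤ a ∧ A.valuation (a - 1) < 1 ∧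
      A.valuation (σ a) < 1 := by
    intro σ hσ
    let B := A.comap (σ : Qbar →+* Qbar)
    have hB : B.LiesOverPrime ℓ := by
      show (ℓ : Qbar) ∈ B.nonunits
      rw [ValuationSubring.mem_nonunits_iff_or]
      refine (ValuationSubring.mem_nonunits_iff_or A).mp hA |>.imp id fun h h' => h ?_
      have h2 : (σ : Qbar →+* Qbar) (ℓ : Qbar)⁻¹ ∈ A := h'
      simpa using h2
    have hne : A ≠ B := fun h => hCD σ hσ fun x => by
      conv_rhs => rw [h]
      rfl
    have hne' : zbarIdeal A ≠ zbarIdeal B := fun h => hne (eq_of_zbarIdeal_eq hA hℓ h)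
    have hmA := zbarIdeal_isMaximal hA hℓ
    have hmB := zbarIdeal_isMaximal hB hℓ
    have htop : zbarIdeal B ⊔ zbarIdeal A = ⊤ :=
      Ideal.IsMaximal.coprime_of_ne hmB hmA hne'.symm
    obtain ⟨a, ha, c, hc, hac⟩ := Submodule.mem_sup.mp (htop ▸ Submodule.mem_top (x := (1 : Zbar)))
    refine ⟨a, isIntegral_coe a, ?_, ?_⟩
    · rw [← A.mem_nonunits_iff]
      have : (a : Qbar) - 1 = ((-c : Zbar) : Qbar) := by
        have h := congr_arg (fun z : Zbar => (z : Qbar)) hac
        simp at h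
        rw [← h]; simp
      rw [this, ← mem_zbarIdeal]
      exact neg_mem hc
    · rw [mem_zbarIdeal, ValuationSubring.mem_nonunits_iff_or] at ha
      rw [← A.mem_nonunits_iff, ValuationSubring.mem_nonunits_iff_or, map_eq_zero]
      refine ha.imp id fun h h' => h ?_
      show σ (a : Qbar)⁻¹ ∈ A
      rwa [map_inv₀]
  choose a hai ha1 ha0 using key
  let U : C → Set GalQ := fun σ => {τ | τ (a σ σ.2) = (σ : GalQ) (a σ σ.2)}
  obtain ⟨t, ht⟩ := hC.isCompact.elim_finite_subcover U
    (fun σ => isLocallyConstant_apply (a σ σ.2) {_})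
    (fun σ hσ => Set.mem_iUnion.mpr ⟨⟨σ, hσ⟩, rfl⟩)
  refine ⟨∏ s ∈ t, a s s.2, IsIntegral.prod _ fun s _ => hai s s.2, ?_, fun σ hσ => ?_⟩
  · refine Finset.prod_induction _ (fun y => A.valuation (y - 1) < 1) (fun y z hy hz => ?_)
      (by simp) fun s _ => ha1 s s.2
    have hy1 : A.valuation y ≤ 1 := by
      have : A.valuation ((y - 1) + 1) ≤ max (A.valuation (y - 1)) (A.valuation 1) :=
        Valuation.map_add _ _ _
      simpa [hy.le] using this
    rw [show y * z - 1 = y * (z - 1) + (y - 1) by ring]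
    refine Valuation.map_add_lt _ ?_ hy
    rw [map_mul]
    exact lt_of_le_of_lt (mul_le_of_le_one_left' hy1) hz
  · obtain ⟨s, hs, hσs⟩ := Set.mem_iUnion₂.mp (ht hσ)
    rw [map_prod, map_prod, ← Finset.mul_prod_erase t _ hs]
    refine lt_of_le_of_lt (mul_le_of_le_one_right' ?_)
        (by rw [show σ (a s s.2) = _ from hσs]; exact ha0 s s.2)
    exact Finset.prod_le_one' fun r _ =>
      (A.valuation_le_one_iff _).mpr
          (mem_of_isIntegral A (map_isIntegral_int (σ : Qbar →+* Qbar) (hai r r.2)))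

end Fermat.Agent.GoodModel
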