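import Fermat.Agent.GoodModel.Effective
import Fermat.Agent.GoodModel.Residue

/-!
# Galois action on a good model over a place of `AlgebraicClosure ℚ`, and translated divisors

For a finite group `T` mapped into the divisor classes of degree zero and an effective divisor
`B` of degree `g` non-special for the reduced classes, the effective divisor `eff B t` in the class
of `t + B` is unique, depends equivariantly on `(B, t)` and its formation is compatible with
regularity.
-/

set_option autoImplicit false

noncomputable section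

open AlgebraicCurve Filter

namespace Fermat.Agent.GoodModel

open Fermat.Agent.GoodReduction Fermat.Agent.GaloisBasics

variable {A : ValuationSubring Qbar} {k F κ : Type*} [Field k] [Field F] [Field κ]
  [Algebra Qbar F] [Algebra k κ] {π : A →+* k} {red : Reduction F κ A π}
variable {g : ℕ} {c : ℤ} {H : Divisor Qbar F} {Hb : Divisor k κ}

/-- A Galois action on a good model, with rational bases and enough inertia-fixed places. -/
structure GaloisData (G : GoodReduction.GoodModel red g c H Hb)
    (act : GalQ →* SemilinearAut Qbar F) :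
    Prop where
  baseAut_eq : ∀ (σ : GalQ) (a : Qbar), SemilinearAut.baseAut (act σ) a = σ a
  H_nonneg : 0 ≤ H
  H_fixed : ∀ σ : GalQ, act σ • H = H
  compat : ∀ σ : GalQ, Decomp A σ → ∃ s' : SemilinearAut k κ, s' • Hb = Hb ∧
    ∀ f : red.V, ∃ h : act σ • (f : F) ∈ red.V, red.res ⟨act σ • (f : F), h⟩ = s' • red.res f
  inert : ∀ σ : GalQ, Inert A σ → ∀ f ∈ red.V, resF red (act σ • f) = resF red f
  fixedBasis : ∀ m : ℕ, ∃ (n : ℕ) (b : Fin n → F), (∀ i, b i ∈ red.V) ∧
    LinearIndependent k (resF red ∘ b) ∧ Submodule.span Qbar (Set.range b) = LSpace (m • H) ∧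
    ∀ σ i, act σ • b i = b i
  infinite_fixed : (G.placeMap '' {v | ∀ σ, Inert A σ → act σ • v = v}).Infinite

namespace GaloisData

variable {G : GoodReduction.GoodModel red g c H Hb} {act : GalQ →* SemilinearAut Qbar F}
  (M : GaloisData G act)

include M

/-- The decomposition group preserves the valuation ring of the reduction. -/
theorem smul_mem_V {σ : GalQ} (hσ : Decomp A σ) {f : F} (hf : f ∈ red.V) : act σ • f ∈ red.V := by
  obtain ⟨s', -, h⟩ := M.compat σ hσ
  exact (h ⟨f, hf⟩).1

/-- The decomposition group preserves functions with zero residue. -/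
theorem resF_smul_eq_zero {σ : GalQ} (hσ : Decomp A σ) {f : F} (hf : f ∈ red.V)
    (h0 : resF red f = 0) : resF red (act σ • f) = 0 := by
  obtain ⟨s', -, h⟩ := M.compat σ hσ
  obtain ⟨h1, h2⟩ := h ⟨f, hf⟩
  rw [resF_of_mem red hf] at h0
  rw [resF_of_mem red h1, h2, h0, smul_zero]

/-- The Galois action on functions is semilinear. -/
theorem smul_smul_eq (σ : GalQ) (a : Qbar) (f : F) : act σ • (a • f) = σ a • (act σ • f) := by
  rw [smul_smul_field, M.baseAut_eq]

/-- The Galois action preserves `L(mH)`. -/
theorem smul_mem_LSpace_H (σ : GalQ) {m : ℕ} {f : F} (hf : f ∈ LSpace (m • H)) :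
    act σ • f ∈ LSpace (m • H) := by
  have := smul_mem_LSpace (act σ) hf
  rwa [smul_comm, M.H_fixed] at this

theorem exists_divMap_smul {σ : GalQ} (hσ : Decomp A σ) :
    ∃ s' : SemilinearAut k κ, ∀ D : Divisor Qbar F, G.divMap (act σ • D) = s' • G.divMap D := by
  obtain ⟨s', hHb, hV⟩ := M.compat σ hσ
  refine ⟨s', fun D => ?_⟩
  induction D using Finsupp.induction with
  | zero => simp
  | single_add v n D _ _ ih =>
    rw [smul_add, map_add, map_add, smul_add, ih, SemilinearAut.smul_single, G.divMap_single,
      G.divMap_single, SemilinearAut.smul_single,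
      G.placeMap_smul (act σ) s' (M.H_fixed σ) hHb hV]

end GaloisData

/-! ### Translated effective divisors -/

variable {T : Type} [AddCommGroup T] (φ : T →+ Pic0 Qbar F)

/-- A representative of the class of `t`. -/
def rep (t : T) : Divisor.degZero (K := Qbar) (F := F) := (Pic0.mk_surjective (φ t)).choose

theorem mk_rep (t : T) : Pic0.mk (rep φ t) = φ t := (Pic0.mk_surjective (φ t)).choose_spec

/-- Representatives have degree zero. -/
theorem degree_rep (t : T) : Divisor.degree (rep φ t : Divisor Qbar F) = 0 :=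
  Divisor.mem_degZero.mp (rep φ t).2

variable (G : GoodReduction.GoodModel red g c H Hb)

/-- An effective divisor of degree `g`, non-special for all reduced classes of `T`. -/
structure Good (B : Divisor Qbar F) : Prop where
  nonneg : 0 ≤ B
  degree : Divisor.degree B = g
  one : ∀ t, Module.finrank k (LSpace (G.divMap ((rep φ t : Divisor Qbar F) + B))) = 1

/-- `E` is an effective divisor in the class of `t + B`. -/
def IsEff (B : Divisor Qbar F) (t : T) (E : Divisor Qbar F) : Prop :=
  0 ≤ E ∧ E - ((rep φ t : Divisor Qbar F) + B) ∈ Divisor.principal (K := Qbar) (F := F)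

variable {φ G}

/-- An effective divisor in the class of `t + B` has degree `g`. -/
theorem IsEff.degree {B : Divisor Qbar F} (hB : Good φ G B) {t : T} {E : Divisor Qbar F}
    (hE : IsEff φ B t E) : Divisor.degree E = g := by
  have h := Divisor.mem_degZero.mp
    (show E - ((rep φ t : Divisor Qbar F) + B) ∈ Divisor.degZero (K := Qbar) (F := F) from by
      obtain ⟨f, hf, hd⟩ := hE.2
      rw [Divisor.mem_degZero, G.riemann.div_eq hd, G.riemann.degree_div])
  rw [map_sub, map_add, degree_rep, hB.degree] at h
  omega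

theorem IsEff.finrank_divMap {B : Divisor Qbar F} (hB : Good φ G B) {t : T} {E : Divisor Qbar F}
    (hE : IsEff φ B t E) : Module.finrank k (LSpace (G.divMap E)) = 1 := by
  have h := G.divMap_mem_principal hE.2
  rw [map_sub] at h
  rw [← add_sub_cancel (G.divMap ((rep φ t : Divisor Qbar F) + B)) (G.divMap E),
    finrank_add_principal G.riemann' h, hB.one]

theorem IsEff.unique {B : Divisor Qbar F} (hB : Good φ G B) {t : T} {E E' : Divisor Qbar F}
    (hE : IsEff φ B t E) (hE' : IsEff φ B t E') : E' = E := by
  have h : E' - E ∈ Divisor.principal (K := Qbar) (F := F) := by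
    have := sub_mem hE'.2 hE.2
    rwa [sub_sub_sub_cancel_right] at this
  obtain ⟨f, hf, hd⟩ := exists_div_eq G.riemann h
  have hfE : f ∈ LSpace E := (mem_LSpace hf).mpr fun v => by
    have h1 := Finsupp.ext_iff.mp hd v
    have h2 := hE'.1 v
    simp only [G.riemann.div_apply, Finsupp.sub_apply] at h1
    simp only [Finsupp.coe_zero, Pi.zero_apply] at h2
    omega
  have hone : Module.finrank Qbar (LSpace E) = 1 := by
    refine le_antisymm ((finrank_le_divMap G E).trans_eq (hE.finrank_divMap hB)) ?_
    rw [Nat.one_le_iff_ne_zero]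
    intro h0
    have := G.riemann.finite E
    rw [Submodule.finrank_eq_zero] at h0
    exact hf ((Submodule.mem_bot Qbar).mp (h0 ▸ hfE : f ∈ (⊥ : Submodule Qbar F)))
  obtain ⟨a, rfl⟩ := RiemannData.eq_const_of_finrank hE.1 hone hfE
  rw [← sub_eq_zero, ← hd]
  exact Finsupp.ext fun v => by simp [G.riemann.div_apply, ord_algebraMap_eq_zero]

theorem exists_isEff {B : Divisor Qbar F} (hB : Good φ G B) (t : T) : ∃ E, IsEff φ B t E := by
  obtain ⟨f, hf, hpos⟩ := G.riemann.exists_effective (degree_rep φ t) hB.degree
  exact ⟨_, hpos, by rw [add_sub_cancel_left]; exact div_mem_principal G.riemann hf⟩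

/-- The effective divisor in the class of `t + B`. -/
def eff {B : Divisor Qbar F} (hB : Good φ G B) (t : T) : Divisor Qbar F :=
  (exists_isEff hB t).choose

theorem isEff_eff {B : Divisor Qbar F} (hB : Good φ G B) (t : T) : IsEff φ B t (eff hB t) :=
  (exists_isEff hB t).choose_spec

/-- `eff B t` is effective. -/
theorem eff_nonneg {B : Divisor Qbar F} (hB : Good φ G B) (t : T) : 0 ≤ eff hB t :=
  (isEff_eff hB t).1

/-- `eff B t` has degree `g`. -/
theorem degree_eff {B : Divisor Qbar F} (hB : Good φ G B) (t : T) :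
    Divisor.degree (eff hB t) = g :=
  (isEff_eff hB t).degree hB

theorem eff_eq {B : Divisor Qbar F} (hB : Good φ G B) {t : T} {E : Divisor Qbar F}
    (hE : IsEff φ B t E) : E = eff hB t :=
  (isEff_eff hB t).unique hB hE

/-- The translated effective divisor determines the class. -/
theorem eq_of_eff_eq {B : Divisor Qbar F} (hB : Good φ G B) {x y : T}
    (h : eff hB x = eff hB y) : φ x = φ y := by
  have h1 := sub_mem (isEff_eff hB y).2 (isEff_eff hB x).2
  rw [h, sub_sub_sub_cancel_left, add_sub_add_right_eq_sub] at h1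
  rw [← mk_rep φ x, ← mk_rep φ y]
  refine QuotientAddGroup.eq.mpr ?_
  rw [AddSubgroup.mem_addSubgroupOf]
  have := neg_mem h1
  simpa [neg_add_eq_sub] using this

section Galois

variable [DistribMulAction GalQ T] {act : GalQ →* SemilinearAut Qbar F}
  (M : GaloisData G act) (hφ : ∀ (σ : GalQ) t, φ (σ • t) = act σ • φ t)
include M hφ

omit [Field k] [Field κ] [Algebra k κ] M in
theorem smul_rep_sub_mem (σ : GalQ) (t : T) :
    act σ • (rep φ t : Divisor Qbar F) - (rep φ (σ • t) : Divisor Qbar F)
      ∈ Divisor.principal (K := Qbar) (F := F) := by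
  have h := sub_mem_principal_of_mk_eq
    (show Pic0.mk (rep φ (σ • t)) = Pic0.mk (SemilinearAut.degZeroSMulHom (act σ) (rep φ t)) by
      rw [mk_rep, hφ, ← SemilinearAut.pic0_smul_mk, mk_rep])
  simpa using h

/-- The decomposition group preserves goodness of a divisor. -/
theorem good_smul {B : Divisor Qbar F} (hB : Good φ G B) {σ : GalQ} (hσ : Decomp A σ) :
    Good φ G (act σ • B) where
  nonneg v := by
    rw [SemilinearAut.divisor_smul_apply]
    exact hB.nonneg _
  degree := by rw [SemilinearAut.degree_smul, hB.degree]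
  one t := by
    obtain ⟨s', hs'⟩ := M.exists_divMap_smul hσ
    have h := G.divMap_mem_principal (smul_rep_sub_mem hφ σ (σ⁻¹ • t))
    rw [smul_inv_smul, map_sub] at h
    have h1 := finrank_LSpace_smul_of_one s' (hB.one (σ⁻¹ • t))
    rw [← hs', smul_add, map_add] at h1
    rw [map_add, ← finrank_add_principal G.riemann' h, add_assoc,
      add_left_comm (G.divMap (rep φ t : Divisor Qbar F)), add_sub_cancel, add_comm]
    exact h1

/-- The translated effective divisor is equivariant. -/
theorem eff_smul {B : Divisor Qbar F} (hB : Good φ G B) {σ : GalQ} (hσ : Decomp A σ) (t : T) :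
    act σ • eff hB t = eff (good_smul M hφ hB hσ) (σ • t) := by
  refine eff_eq _ ⟨fun v => ?_, ?_⟩
  · rw [SemilinearAut.divisor_smul_apply]
    exact eff_nonneg hB t _
  · have h1 := SemilinearAut.smul_mem_principal (act σ) (isEff_eff hB t).2
    have h2 := add_mem h1 (smul_rep_sub_mem hφ σ t)
    rw [smul_sub, smul_add] at h2
    convert h2 using 1
    abel

end Galois

/-! ### The group law -/

variable {P : Type*} [Finite P] [Infinite k] {S : Subalgebra A (P → Qbar)}
  (hS : ∀ f ∈ S, ∀ p, f p ∈ A)

include hS in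
/-- Regularity of `eff B₃ (-(a + b))` from that of `eff B₁ a` and `eff B₂ b`. -/
theorem regDiv_eff_op (hH : 0 ≤ H) {B₁ B₂ B₃ : Divisor Qbar F} (h₁ : Good φ G B₁)
    (h₂ : Good φ G B₂) (h₃ : Good φ G B₃) (a b : P → T)
    (ha : RegDiv S red H fun p => eff h₁ (a p)) (hb : RegDiv S red H fun p => eff h₂ (b p)) :
    RegDiv S red H fun p => eff h₃ (-(a p + b p)) := by
  obtain ⟨n, hn⟩ := (eventually_le_mul G.deg_pos (4 * (g : ℤ))).exists
  set D₀ := n • H - B₁ - B₂ - B₃ with hD₀
  have hdeg₀ : Divisor.degree D₀ = n * Divisor.degree H - 3 * g := by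
    rw [hD₀, map_sub, map_sub, map_sub, map_nsmul, nsmul_eq_mul, h₁.degree, h₂.degree, h₃.degree]
    ring
  obtain ⟨f, hf, hf0⟩ : ∃ f ∈ LSpace D₀, f ≠ 0 := by
    have := G.riemann.finite D₀
    refine Submodule.exists_mem_ne_zero_of_ne_bot fun h => ?_
    have := G.riemann.riemann D₀
    rw [h, finrank_bot] at this
    omega
  set Fd := D₀ + G.riemann.div f with hFd
  have hFd0 : 0 ≤ Fd := fun v => by
    simpa [hFd, G.riemann.div_apply] using (mem_LSpace hf0).mp hf v
  set N : P → Divisor Qbar F := fun p => eff h₁ (a p) + eff h₂ (b p) + Fd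
  have hN12 : ∀ p, 0 ≤ eff h₁ (a p) + eff h₂ (b p) := fun p =>
    add_nonneg (eff_nonneg _ _) (eff_nonneg _ _)
  have hN : RegDiv S red H N :=
    RegDiv.add S G hS hN12 (fun _ => hFd0) (δ := 2 * g) (fun p => by
      rw [map_add, degree_eff, degree_eff]; ring) (fun _ => rfl)
      (RegDiv.add S G hS (fun p => eff_nonneg _ _) (fun p => eff_nonneg _ _)
        (fun p => degree_eff _ _) (fun p => degree_eff _ _) ha hb)
      (regDiv_const S G Fd)
  have hprin : ∀ p, eff h₃ (-(a p + b p)) + N p - n • H ∈
      Divisor.principal (K := Qbar) (F := F) := by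
    intro p
    set z := -(a p + b p)
    have hrep : (rep φ z : Divisor Qbar F) + rep φ (a p) + rep φ (b p) ∈
        Divisor.principal (K := Qbar) (F := F) := by
      have h0 := sub_mem_principal_of_mk_eq
        (show Pic0.mk 0 = Pic0.mk (rep φ z + rep φ (a p) + rep φ (b p)) by
          rw [Pic0.mk_add, Pic0.mk_add, mk_rep, mk_rep, mk_rep, Pic0.mk_zero, ← map_add,
            ← map_add, add_assoc, neg_add_cancel, map_zero])
      rwa [ZeroMemClass.coe_zero, sub_zero, AddSubgroup.coe_add, AddSubgroup.coe_add] at h0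
    have := add_mem (add_mem (add_mem (add_mem (isEff_eff h₃ z).2 (isEff_eff h₁ (a p)).2)
      (isEff_eff h₂ (b p)).2) hrep) (div_mem_principal G.riemann hf0)
    convert this using 1
    simp only [N, hFd, hD₀]
    abel
  refine RegDiv.residual S G hS hH (b := n) (N := N)
    (fun p => add_nonneg (hN12 p) hFd0) (fun p => eff_nonneg _ _)
    (dN := 2 * g + Divisor.degree Fd) (fun p => by
      simp only [N, map_add, degree_eff]; ring) (fun p => degree_eff _ _)
    (fun p => exists_div_eq G.riemann (hprin p)) (fun p => ?_) hN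
  have h := neg_mem (G.divMap_mem_principal (hprin p))
  rw [map_sub, map_add, map_nsmul, divMap_H G hH] at h
  rw [show n • Hb - G.divMap (N p) = G.divMap (eff h₃ (-(a p + b p))) +
      -(G.divMap (eff h₃ (-(a p + b p))) + G.divMap (N p) - n • Hb) by abel,
    finrank_add_principal G.riemann' h, (isEff_eff h₃ _).finrank_divMap h₃]

end Fermat.Agent.GoodModel
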