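import Fermat.Agent.GoodModel.Residues
import Fermat.Agent.GoodModel.Residue
import Fermat.Agent.GoodReductionModular.Gauss
import Fermat.Prelude.Def_ModularCurve_ArithmeticGalois
import Fermat.Prelude.Def_ModularCurve_X0ModL

/-!
# The Galois action on a Gauss reduction

An element of the decomposition group acts coefficientwise on the Gauss valuation ring and induces
the coefficientwise action of its residual automorphism on the reduced field.
-/

set_option autoImplicit false

noncomputable section

open AlgebraicCurve ModularCurve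

namespace Fermat.Agent.GoodModel

open Fermat.Agent.GoodReduction Fermat.Agent.GoodReductionModular Fermat.Agent.GaloisBasics

variable {A : ValuationSubring Qbar} {k : Type*} [Field k] {π : A →+* k}

theorem pi_eq_zero_iff (hπ : Function.Surjective π) (a : A) : π a = 0 ↔ ¬ IsUnit a := by
  constructor
  · intro h hu
    exact not_isUnit_zero (h ▸ hu.map π)
  · intro h
    rw [← RingHom.mem_ker, IsLocalRing.eq_maximalIdeal (RingHom.ker_isMaximal_of_surjective π hπ)]
    exact h

theorem pi_eq_of_val_lt (hπ : Function.Surjective π) {a b : A}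
    (h : A.valuation ((a : Qbar) - b) < 1) : π a = π b := by
  rw [← sub_eq_zero, ← map_sub, pi_eq_zero_iff hπ, ← mem_nonunits_iff,
    ← IsLocalRing.mem_maximalIdeal, ← ValuationSubring.coe_mem_nonunits_iff, A.mem_nonunits_iff]
  exact h

/-- The restriction of an element of the decomposition group to `A`. -/
def decompHom {σ : GalQ} (hσ : Decomp A σ) : A →+* A where
  toFun a := ⟨σ a, (hσ a).mpr a.2⟩
  map_one' := Subtype.ext (map_one σ)
  map_mul' _ _ := Subtype.ext (map_mul σ _ _)
  map_zero' := Subtype.ext (map_zero σ)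
  map_add' _ _ := Subtype.ext (map_add σ _ _)

theorem decompHom_comp {σ τ : GalQ} (hσ : Decomp A σ) (hτ : Decomp A τ) (a : A) :
    decompHom hσ (decompHom hτ a) = decompHom (hσ.mul hτ) a :=
  Subtype.ext rfl

variable (hπ : Function.Surjective π)
include hπ

theorem ker_le_ker_decompHom {σ : GalQ} (hσ : Decomp A σ) :
    RingHom.ker π ≤ RingHom.ker (π.comp (decompHom hσ)) := by
  intro a ha
  rw [RingHom.mem_ker] at ha ⊢
  rw [RingHom.comp_apply, pi_eq_zero_iff hπ]
  intro hu
  refine (pi_eq_zero_iff hπ a).mp ha ?_
  have h := hu.map (decompHom hσ.inv)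
  rwa [decompHom_comp, show decompHom (hσ.inv.mul hσ) a = a from
    Subtype.ext (by simp [decompHom])] at h

/-- The residual endomorphism. -/
def residualHom {σ : GalQ} (hσ : Decomp A σ) : k →+* k :=
  π.liftOfSurjective hπ ⟨π.comp (decompHom hσ), ker_le_ker_decompHom hπ hσ⟩

theorem residualHom_apply {σ : GalQ} (hσ : Decomp A σ) (a : A) :
    residualHom hπ hσ (π a) = π (decompHom hσ a) :=
  RingHom.liftOfRightInverse_comp_apply π _ _ ⟨π.comp (decompHom hσ), ker_le_ker_decompHom hπ hσ⟩ a

/-- The automorphism of the residue field induced by an element of the decomposition group. -/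
def residualAut {σ : GalQ} (hσ : Decomp A σ) : k ≃+* k :=
  RingEquiv.ofRingHom (residualHom hπ hσ) (residualHom hπ hσ.inv)
    (RingHom.ext fun x => by
      obtain ⟨a, rfl⟩ := hπ x
      rw [RingHom.comp_apply, residualHom_apply, residualHom_apply, decompHom_comp]
      exact congrArg π (Subtype.ext (by simp [decompHom])))
    (RingHom.ext fun x => by
      obtain ⟨a, rfl⟩ := hπ x
      rw [RingHom.comp_apply, residualHom_apply, residualHom_apply, decompHom_comp]
      exact congrArg π (Subtype.ext (by simp [decompHom])))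

theorem residualAut_apply {σ : GalQ} (hσ : Decomp A σ) (a : A) :
    residualAut hπ hσ (π a) = π (decompHom hσ a) :=
  residualHom_apply hπ hσ a

theorem residualAut_eq_refl {σ : GalQ} (hσ : Inert A σ) :
    (residualAut hπ hσ.1 : k →+* k) = RingHom.id k :=
  RingHom.ext fun x => by
    obtain ⟨a, rfl⟩ := hπ x
    show residualAut hπ hσ.1 (π a) = π a
    rw [residualAut_apply]
    exact pi_eq_of_val_lt hπ (hσ.2 a a.2)

omit hπ

/-- A field of Laurent series stable under coefficientwise automorphisms. -/
def CoeffStable (κ : IntermediateField k (LaurentSeries k)) : Prop :=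
  ∀ (s : k ≃+* k), ∀ y ∈ κ, coeffMap (s : k →+* k) y ∈ κ

/-- The modular function fields are stable under automorphisms of the constants. -/
theorem coeffStable_fullC (N : ℕ) [NeZero N] : CoeffStable (modularFunctionFieldFullC k N) := by
  intro s y hy
  induction hy using IntermediateField.adjoin_induction with
  | mem x hx =>
    obtain ⟨d, hne, hd, rfl⟩ := hx
    have := hne
    have h1 : coeffMap (s : k →+* k) (qExpand k d (jqModC k)) = qExpand k d (jqModC k) := by
      ext n
      by_cases h : (d : ℤ) ∣ n
      · obtain ⟨j, rfl⟩ := h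
        rw [coeffMap_coeff, qExpand_coeff_mul]
        have h2 := congrArg (fun f : LaurentSeries k => f.coeff j) (map_jqModC (s : k →+* k))
        simpa only [HahnSeries.map_coeff] using h2
      · rw [coeffMap_coeff, qExpand_coeff_of_not_dvd _ _ h, map_zero]
    rw [h1]
    exact jqModCd_mem_full k N hd
  | algebraMap a =>
    rw [coeffMap_algebraMap]
    exact (modularFunctionFieldFullC k N).algebraMap_mem _
  | add x y _ _ hx hy => rw [map_add]; exact add_mem hx hy
  | inv x _ hx => rw [map_inv₀]; exact inv_mem hx
  | mul x y _ _ hx hy => rw [map_mul]; exact mul_mem hx hy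

/-- The coefficientwise automorphism of a stable field of Laurent series. -/
def coeffSemilinear {κ : IntermediateField k (LaurentSeries k)} (hκ : CoeffStable κ) (s : k ≃+* k) :
    SemilinearAut k κ :=
  ⟨({ toFun := fun y => ⟨coeffMap (s : k →+* k) y, hκ s _ y.2⟩
      invFun := fun y => ⟨coeffMap (s.symm : k →+* k) y, hκ s.symm _ y.2⟩
      left_inv := fun y => Subtype.ext (by
        show coeffMap (s.symm : k →+* k) (coeffMap (s : k →+* k) (y : LaurentSeries k)) = _
        rw [coeffMap_coeffMap, coeffMap_congr (g := RingHom.id k) (RingHom.ext s.symm_apply_apply),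
          coeffMap_id])
      right_inv := fun y => Subtype.ext (by
        show coeffMap (s : k →+* k) (coeffMap (s.symm : k →+* k) (y : LaurentSeries k)) = _
        rw [coeffMap_coeffMap, coeffMap_congr (g := RingHom.id k) (RingHom.ext s.apply_symm_apply),
          coeffMap_id])
      map_mul' := fun x y => Subtype.ext (map_mul (coeffMap (s : k →+* k)) _ _)
      map_add' := fun x y => Subtype.ext (map_add (coeffMap (s : k →+* k)) _ _) }, s),
    fun a => Subtype.ext (coeffMap_algebraMap (s : k →+* k) a)⟩

/-- The semilinear action on series is coefficientwise. -/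
theorem coe_coeffSemilinear_smul {κ : IntermediateField k (LaurentSeries k)} (hκ : CoeffStable κ)
    (s : k ≃+* k) (y : κ) :
    ((coeffSemilinear hκ s • y : κ) : LaurentSeries k) = coeffMap (s : k →+* k) y := rfl

variable {F₀ : IntermediateField ℚ (LaurentSeries ℚ)}
  {κ : IntermediateField k (LaurentSeries k)}

theorem liftK_decompHom {σ : GalQ} (hσ : Decomp A σ) (y : LaurentSeries A) :
    liftK A (coeffMap (decompHom hσ) y) = coeffMap (σ : Qbar →+* Qbar) (liftK A y) := rfl

/-- Compatibility of a coefficientwise automorphism with a Gauss reduction. -/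
theorem gauss_compat_of_coe {F : IntermediateField Qbar (LaurentSeries Qbar)}
    (hG : GaussInput F κ π) (hκ : CoeffStable κ) {σ : GalQ} (hσ : Decomp A σ)
    (hF : ∀ y ∈ F, coeffMap (σ : Qbar →+* Qbar) y ∈ F) (f : (gaussReduction hG).V) (τ : F)
    (hτ : (τ : LaurentSeries Qbar) =
      coeffMap (σ : Qbar →+* Qbar) ((f : F) : LaurentSeries Qbar)) :
    ∃ h : τ ∈ (gaussReduction hG).V,
      (gaussReduction hG).res ⟨τ, h⟩ =
        coeffSemilinear hκ (residualAut hG.surjective hσ) • (gaussReduction hG).res f := by
  obtain ⟨y₁, y₂, h₁, h₂, h0, e⟩ := exists_gaussReduction_quotient hG f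
  have hcomm : ∀ y : LaurentSeries A, coeffMap π (coeffMap (decompHom hσ) y) =
      coeffMap (residualAut hG.surjective hσ : k →+* k) (coeffMap π y) := fun y => by
    rw [coeffMap_coeffMap, coeffMap_coeffMap]
    exact coeffMap_congr (RingHom.ext fun a => (residualAut_apply hG.surjective hσ a).symm) y
  have h0' : coeffMap π (coeffMap (decompHom hσ) y₂) ≠ 0 := by
    rw [hcomm]
    exact (map_ne_zero _).mpr h0
  have e' : (τ : LaurentSeries Qbar) * liftK A (coeffMap (decompHom hσ) y₂) =
      liftK A (coeffMap (decompHom hσ) y₁) := by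
    rw [liftK_decompHom, liftK_decompHom, hτ, ← map_mul, e]
  have hmem : τ ∈ (gaussReduction hG).V :=
    (mem_gaussV hG).mpr ⟨_, _, liftK_decompHom hσ y₁ ▸ hF _ h₁,
      liftK_decompHom hσ y₂ ▸ hF _ h₂, h0', e'⟩
  refine ⟨hmem, Subtype.ext ?_⟩
  rw [coe_coeffSemilinear_smul, gaussReduction_res_eq hG ⟨τ, hmem⟩ h0' e',
    gaussReduction_res_eq hG f h0 e, map_div₀, hcomm, hcomm]

/-- Compatibility of the Galois action with a Gauss reduction. -/
theorem gauss_compat (hG : GaussInput (laurentBaseChange Qbar F₀) κ π) (hκ : CoeffStable κ)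
    {σ : GalQ} (hσ : Decomp A σ) (f : (gaussReduction hG).V) :
    ∃ h : arithmeticGalois F₀ σ • (f : laurentBaseChange Qbar F₀) ∈ (gaussReduction hG).V,
      (gaussReduction hG).res ⟨_, h⟩ =
        coeffSemilinear hκ (residualAut hG.surjective hσ) • (gaussReduction hG).res f :=
  gauss_compat_of_coe hG hκ hσ (fun _ hy => coeffMap_mem_laurentBaseChange σ hy) f _
    (coe_arithmeticGalois_smul F₀ σ _)

/-- Inertia acts trivially on residues for the Gauss reduction. -/
theorem gauss_inert (hG : GaussInput (laurentBaseChange Qbar F₀) κ π) (hκ : CoeffStable κ)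
    {σ : GalQ} (hσ : Inert A σ) {f : laurentBaseChange Qbar F₀} (hf : f ∈ (gaussReduction hG).V) :
    resF (gaussReduction hG) (arithmeticGalois F₀ σ • f) = resF (gaussReduction hG) f := by
  obtain ⟨h, e⟩ := gauss_compat hG hκ hσ.1 ⟨f, hf⟩
  rw [resF_of_mem _ h, resF_of_mem _ hf, e]
  refine Subtype.ext ?_
  rw [coe_coeffSemilinear_smul, residualAut_eq_refl hG.surjective hσ, coeffMap_id]

end Fermat.Agent.GoodModel
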