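import Fermat.Agent.GoodModel.Residues
import Fermat.Agent.GaloisBasics.Place
import Fermat.Agent.GoodReductionModular.Gauss

/-!
# Galois-invariant residue-independent bases of stable spaces of Laurent series

In a field of Laurent series over `AlgebraicClosure ℚ` whose rational members are quotients of
rational bounded series, a finite-dimensional Galois-stable space has a basis of rational elements
of the Gauss valuation ring with independent residues.
-/

set_option autoImplicit false

noncomputable section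

open ModularCurve Matrix

namespace Fermat.Agent.GoodModel

open Fermat.Agent.GoodReduction Fermat.Agent.GoodReductionModular Fermat.Agent.GaloisBasics

/-- Finitely many coefficients determine the members of a finite-dimensional space. -/
theorem exists_coords {L : Type*} [Field L] : ∀ (d : ℕ) (W : Submodule L (LaurentSeries L))
    [FiniteDimensional L W], Module.finrank L W ≤ d →
    ∃ e : Fin d → ℤ, ∀ w ∈ W, (∀ i, w.coeff (e i) = 0) → w = 0
  | 0, W, _, hd => ⟨Fin.elim0, fun w hw _ => by
      rw [Submodule.finrank_eq_zero.mp (Nat.le_zero.mp hd)] at hw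
      exact (Submodule.mem_bot L).mp hw⟩
  | d + 1, W, _, hd => by
    rcases eq_or_ne W ⊥ with rfl | hne
    · exact ⟨fun _ => 0, fun w hw _ => (Submodule.mem_bot L).mp hw⟩
    obtain ⟨f, hf, hf0⟩ := Submodule.exists_mem_ne_zero_of_ne_bot hne
    obtain ⟨n, hn⟩ : ∃ n, f.coeff n ≠ 0 := by
      by_contra h
      push Not at h
      exact hf0 (HahnSeries.ext (funext fun n => by simpa using h n))
    let φ : LaurentSeries L →ₗ[L] L :=
      { toFun := fun z => z.coeff n
        map_add' := fun a b => by simp
        map_smul' := fun r a => by rw [RingHom.id_apply, HahnSeries.coeff_smul] }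
    have : FiniteDimensional L ↥(W ⊓ LinearMap.ker φ) :=
      Submodule.finiteDimensional_of_le inf_le_left
    have hlt : W ⊓ LinearMap.ker φ < W :=
      lt_of_le_not_ge inf_le_left fun h => hn (LinearMap.mem_ker.mp (h hf).2)
    have := Submodule.finrank_lt_finrank_of_lt hlt
    obtain ⟨e, he⟩ := exists_coords d (W ⊓ LinearMap.ker φ) (by omega)
    exact ⟨Fin.cons n e, fun w hw h =>
        he w ⟨hw, LinearMap.mem_ker.mpr (show w.coeff n = 0 by simpa using h 0)⟩
      fun i => by simpa using h i.succ⟩

/-- Coefficientwise action. -/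
abbrev conjSeries (σ : GalQ) : LaurentSeries Qbar →+* LaurentSeries Qbar :=
  coeffMap (σ : Qbar →+* Qbar)

/-- Coefficientwise conjugation of a constant series. -/
theorem conjSeries_algebraMap (σ : GalQ) (a : Qbar) :
    conjSeries σ (algebraMap Qbar (LaurentSeries Qbar) a) =
      algebraMap Qbar (LaurentSeries Qbar) (σ a) :=
  coeffMap_algebraMap _ a

/-- A stable finite-dimensional space of series has a basis of invariant series. -/
theorem exists_invariant_basis {d : ℕ} (W : Submodule Qbar (LaurentSeries Qbar))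
    [FiniteDimensional Qbar W] (hd : Module.finrank Qbar W = d)
    (hst : ∀ σ, ∀ f ∈ W, conjSeries σ f ∈ W) :
    ∃ f : Fin d → LaurentSeries Qbar, (∀ i, f i ∈ W) ∧ (∀ σ i, conjSeries σ (f i) = f i) ∧
      W ≤ Submodule.span Qbar (Set.range f) := by
  classical
  obtain ⟨e, he⟩ := exists_coords d W hd.le
  let φ : W →ₗ[Qbar] (Fin d → Qbar) :=
    { toFun := fun w i => (w : LaurentSeries Qbar).coeff (e i)
      map_add' := fun a b => funext fun i => by simp
      map_smul' := fun r a => funext fun i => by
        rw [RingHom.id_apply, Pi.smul_apply, Submodule.coe_smul, HahnSeries.coeff_smul] }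
  have hφ : Function.Injective φ := by
    rw [← LinearMap.ker_eq_bot, LinearMap.ker_eq_bot']
    exact fun w hw => Subtype.ext (he w w.2 fun i => congrFun hw i)
  let Φ := LinearEquiv.ofBijective φ ⟨hφ, (LinearMap.injective_iff_surjective_of_finrank_eq_finrank
    (by rw [hd, Module.finrank_fintype_fun_eq_card, Fintype.card_fin])).mp hφ⟩
  let β := Module.Basis.ofEquivFun Φ
  refine ⟨fun i => β i, fun i => (β i).2, fun σ i => ?_, fun w hw => ?_⟩
  · refine sub_eq_zero.mp (he _ (sub_mem (hst σ _ (β i).2) (β i).2) fun j => ?_)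
    have h1 : ((β i : W) : LaurentSeries Qbar).coeff (e j) =
        (Pi.single i (1 : Qbar) : Fin d → Qbar) j := by
      have h2 : Φ (β i) = Pi.single i 1 := by
        simp [β, Module.Basis.coe_ofEquivFun]
      exact congrFun h2 j
    rw [HahnSeries.coeff_sub, coeffMap_coeff, h1, RingHom.coe_coe]
    rcases eq_or_ne j i with rfl | h <;> simp [*]
  · have := Submodule.mem_map_of_mem (f := W.subtype) (β.mem_span (⟨w, hw⟩ : W))
    rwa [Submodule.map_span, ← Set.range_comp] at this

variable {A : ValuationSubring Qbar} {k : Type*} [Field k] {π : A →+* k}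
  {F : IntermediateField Qbar (LaurentSeries Qbar)} {κ : IntermediateField k (LaurentSeries k)}

/-- The inclusion, linear for the coefficientwise structure. -/
def coeLin (F : IntermediateField Qbar (LaurentSeries Qbar)) : F →ₗ[Qbar] LaurentSeries Qbar where
  toFun f := f
  map_add' _ _ := rfl
  map_smul' r f := by
    rw [RingHom.id_apply, smul_eq_algebraMap_mul, Algebra.smul_def]
    rfl

/-- Multiplication by a series, linear for the coefficientwise structure. -/
def mulLin (y : LaurentSeries Qbar) : LaurentSeries Qbar →ₗ[Qbar] LaurentSeries Qbar where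
  toFun z := z * y
  map_add' a b := add_mul a b y
  map_smul' r a := by
    rw [RingHom.id_apply, smul_eq_algebraMap_mul, smul_eq_algebraMap_mul, mul_assoc]

theorem coeLin_injective : Function.Injective (coeLin F) := fun _ _ h => Subtype.ext h

/-- Elements of a field of series are independent if some coefficients of multiples form a dual
system. -/
theorem linearIndependent_of_coeff {L : Type*} [Field L] {E : IntermediateField L (LaurentSeries L)}
    {d : ℕ} (y : Fin d → E) (Q : LaurentSeries L) (e : Fin d → ℤ)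
    (h : ∀ i j, ((y i : LaurentSeries L) * Q).coeff (e j) = (Pi.single i (1 : L) : Fin d → L) j) :
    LinearIndependent L y := by
  classical
  rw [Fintype.linearIndependent_iff]
  intro a ha j
  have hterm : ∀ i, (((a i • y i : E) : LaurentSeries L) * Q).coeff (e j)
      = a i * (Pi.single i (1 : L) : Fin d → L) j := fun i => by
    rw [show ((a i • y i : E) : LaurentSeries L) =
      algebraMap L (LaurentSeries L) (a i) * (y i : LaurentSeries L) from by
        rw [Algebra.smul_def]; rfl, mul_assoc, algebraMap_laurentSeries_eq_single,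
      HahnSeries.coeff_single_zero_mul, h]
  have h1 := congrArg (fun w : E => ((w : LaurentSeries L) * Q).coeff (e j)) ha
  simp only [ZeroMemClass.coe_zero, zero_mul, HahnSeries.coeff_zero,
    AddSubmonoidClass.coe_finsetSum, Finset.sum_mul, HahnSeries.coeff_sum, hterm] at h1
  rw [Finset.sum_eq_single j ?_ (by simp)] at h1
  · simpa using h1
  · intro i _ hi
    rw [Pi.single_eq_of_ne hi.symm, mul_zero]

/-- Finitely many quotients of invariant bounded series in `F` become bounded after multiplication
by one invariant normalised integral series in `F`. -/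
theorem exists_invariant_denominator (A : ValuationSubring Qbar) {d : ℕ}
    {f a b : Fin d → LaurentSeries Qbar} (ha : ∀ i, a i ∈ boundedSeries Qbar)
    (hb : ∀ i, b i ∈ boundedSeries Qbar) (hbF : ∀ i, b i ∈ F) (hb0 : ∀ i, b i ≠ 0)
    (hbfix : ∀ i σ, conjSeries σ (b i) = b i) (hab : ∀ i, f i * b i = a i) :
    ∃ (y : LaurentSeries A) (n : ℤ), y.coeff n = 1 ∧ liftK A y ∈ F ∧ liftK A y ≠ 0 ∧
      (∀ σ, conjSeries σ (liftK A y) = liftK A y) ∧
      ∀ i, f i * liftK A y ∈ boundedSeries Qbar := by
  classical
  set Y := ∏ i, b i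
  have hYb : Y ∈ boundedSeries Qbar := Subring.prod_mem _ fun i _ => hb i
  have hY0 : Y ≠ 0 := Finset.prod_ne_zero_iff.mpr fun i _ => hb0 i
  have hYfix : ∀ σ, conjSeries σ Y = Y := fun σ => by
    rw [map_prod]; exact Finset.prod_congr rfl fun i _ => hbfix i σ
  obtain ⟨c, y, n, hc, hy, hn⟩ := exists_normalize (A := A) hYb hY0
  have hcfix : ∀ σ : GalQ, σ c = c := by
    intro σ
    have h1 : c * Y.coeff n = 1 := by
      have := congrArg (fun z : LaurentSeries Qbar => z.coeff n) hy
      rw [algebraMap_laurentSeries_eq_single, HahnSeries.coeff_single_zero_mul] at this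
      rw [← this, liftK_coeff, hn]
      rfl
    have h2 : σ (Y.coeff n) = Y.coeff n :=
      congrArg (fun z : LaurentSeries Qbar => z.coeff n) (hYfix σ)
    have h3 := congrArg σ h1
    rw [map_mul, map_one, h2] at h3
    have hY : Y.coeff n ≠ 0 := fun h0 => by rw [h0, mul_zero] at h1; exact zero_ne_one h1
    exact mul_right_cancel₀ hY (h3.trans h1.symm)
  refine ⟨y, n, hn, ?_, ?_, fun σ => ?_, fun i => ?_⟩
  · rw [hy]; exact mul_mem (F.algebraMap_mem _) (prod_mem fun i _ => hbF i)
  · rw [hy]; exact mul_ne_zero ((map_ne_zero _).mpr hc) hY0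
  · rw [hy, map_mul, hYfix, conjSeries_algebraMap, hcfix]
  · rw [hy, show Y = b i * ∏ j ∈ Finset.univ.erase i, b j from
      (Finset.mul_prod_erase _ _ (Finset.mem_univ i)).symm, mul_left_comm, ← mul_assoc (f i), hab]
    exact mul_mem (algebraMap_mem_boundedSeries _)
      (mul_mem (ha i) (Subring.prod_mem _ fun j _ => hb j))

/-- A stable space of bounded series has a basis of invariant integral series which is dual to some
system of coefficients. -/
theorem exists_invariant_dual_basis (red : Reduction F κ A π) {d : ℕ}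
    (W : Submodule Qbar (LaurentSeries Qbar)) [FiniteDimensional Qbar W]
    (hWd : Module.finrank Qbar W = d) (hWb : ∀ z ∈ W, z ∈ boundedSeries Qbar)
    (hWst : ∀ σ, ∀ z ∈ W, conjSeries σ z ∈ W) :
    ∃ (v : Fin d → LaurentSeries A) (e : Fin d → ℤ),
      (∀ i j, (v i).coeff (e j) = (1 : Matrix (Fin d) (Fin d) A) i j) ∧
      (∀ i, liftK A (v i) ∈ W) ∧ ∀ σ i, conjSeries σ (liftK A (v i)) = liftK A (v i) := by
  classical
  obtain ⟨u, huW, hu⟩ := exists_independent_residues π d W hWd hWb
  -- residual coordinates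
  set Wb := Submodule.span k (Set.range fun i => coeffMap π (u i))
  have : FiniteDimensional k Wb := FiniteDimensional.span_of_finite k (Set.finite_range _)
  obtain ⟨e, he⟩ := exists_coords d Wb
    ((finrank_range_le_card _).trans (by rw [Fintype.card_fin]))
  set N : Matrix (Fin d) (Fin d) A := Matrix.of fun i j => (u i).coeff (e j)
  have hNk : IsUnit (N.map π) := by
    rw [← Matrix.isUnit_transpose, ← Matrix.mulVec_injective_iff_isUnit, ← Matrix.coe_mulVecLin,
      ← LinearMap.ker_eq_bot, LinearMap.ker_eq_bot']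
    intro y hy
    have h0 : ∑ i, y i • coeffMap π (u i) = 0 := by
      refine he _ (Submodule.sum_mem _ fun i _ => Submodule.smul_mem _ _
        (Submodule.subset_span ⟨i, rfl⟩)) fun j => ?_
      rw [HahnSeries.coeff_sum]
      have := congrFun hy j
      simp only [Matrix.mulVecLin_apply, Matrix.mulVec, dotProduct, Matrix.transpose_apply,
        Matrix.map_apply, N, Matrix.of_apply, Pi.zero_apply] at this
      rw [← this]
      refine Finset.sum_congr rfl fun i _ => ?_
      rw [HahnSeries.coeff_smul, coeffMap_coeff, smul_eq_mul, mul_comm]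
    exact funext (Fintype.linearIndependent_iff.mp hu y h0)
  have hN : IsUnit N.det := by
    refine isUnit_of_map_ne_zero ?_ red
    rw [RingHom.map_det, RingHom.mapMatrix_apply]
    exact ((Matrix.isUnit_iff_isUnit_det _).mp hNk).ne_zero
  set v : Fin d → LaurentSeries A := fun i => ∑ l, HahnSeries.C (N⁻¹ i l) * u l
  have hvcoeff : ∀ i j, (v i).coeff (e j) = (1 : Matrix (Fin d) (Fin d) A) i j := by
    intro i j
    rw [← Matrix.nonsing_inv_mul N hN, Matrix.mul_apply, HahnSeries.coeff_sum]
    refine Finset.sum_congr rfl fun l _ => ?_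
    rw [HahnSeries.C_apply, HahnSeries.coeff_single_zero_mul]
    rfl
  have hvW : ∀ i, liftK A (v i) ∈ W := fun i => by
    rw [map_sum]
    refine Submodule.sum_mem _ fun l _ => ?_
    rw [map_mul, liftK_C, ← smul_eq_algebraMap_mul]
    exact W.smul_mem _ (huW l)
  have hcoeffsum : ∀ (y : Fin d → Qbar) (i : Fin d),
      (∑ j, y j • liftK A (v j)).coeff (e i) = y i := by
    intro y i
    rw [HahnSeries.coeff_sum, Finset.sum_eq_single i ?_ (by simp)]
    · simp [hvcoeff, liftK_coeff]
    · intro j _ hj
      simp [hvcoeff, liftK_coeff, Matrix.one_apply_ne hj]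
  have hind : LinearIndependent Qbar fun i => liftK A (v i) :=
    Fintype.linearIndependent_iff.mpr fun y hy i => by
      rw [← hcoeffsum y i, hy, HahnSeries.coeff_zero]
  have hspanW : Submodule.span Qbar (Set.range fun i => liftK A (v i)) = W :=
    Submodule.eq_of_le_of_finrank_le (Submodule.span_le.mpr (by rintro _ ⟨i, rfl⟩; exact hvW i))
      (by rw [hWd, finrank_span_eq_card hind, Fintype.card_fin])
  refine ⟨v, e, hvcoeff, hvW, fun σ i => ?_⟩
  obtain ⟨y, hy⟩ := (Submodule.mem_span_range_iff_exists_fun Qbar).mp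
    (hspanW ▸ sub_mem (hWst σ _ (hvW i)) (hvW i))
  rw [← sub_eq_zero, ← hy]
  refine Finset.sum_eq_zero fun j _ => ?_
  rw [← hcoeffsum y j, hy, HahnSeries.coeff_sub, coeffMap_coeff, liftK_coeff, hvcoeff]
  rcases eq_or_ne i j with rfl | h <;> simp [Matrix.one_apply_ne, *]

/-- An invariant residue-independent basis of a stable space. -/
theorem exists_rational_basis (hG : GaussInput F κ π)
    (hquot : ∀ f ∈ F, (∀ σ, conjSeries σ f = f) → ∃ a b : LaurentSeries Qbar,
      a ∈ boundedSeries Qbar ∧ b ∈ boundedSeries Qbar ∧ a ∈ F ∧ b ∈ F ∧ b ≠ 0 ∧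
        (∀ σ, conjSeries σ b = b) ∧ f * b = a)
    (M : Submodule Qbar F) [FiniteDimensional Qbar M] {d : ℕ} (hd : Module.finrank Qbar M = d)
    (hM : ∀ σ, ∀ f ∈ M, ∃ f' ∈ M, (f' : LaurentSeries Qbar) = conjSeries σ f) :
    ∃ b : Fin d → F, (∀ i, b i ∈ (gaussReduction hG).V) ∧ (∀ i, b i ∈ M) ∧
      LinearIndependent k (resF (gaussReduction hG) ∘ b) ∧
      Submodule.span Qbar (Set.range b) = M ∧
      ∀ σ i, conjSeries σ (b i : LaurentSeries Qbar) = b i := by
  classical
  set red := gaussReduction hG
  set W₀ := M.map (coeLin F) with hW₀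
  have hd₀ : Module.finrank Qbar W₀ = d := by
    rw [hW₀, ← (Submodule.equivMapOfInjective (coeLin F) coeLin_injective M).finrank_eq, hd]
  have hst₀ : ∀ σ, ∀ f ∈ W₀, conjSeries σ f ∈ W₀ := by
    rintro σ _ ⟨f, hf, rfl⟩
    obtain ⟨f', hf', e⟩ := hM σ f hf
    exact ⟨f', hf', e⟩
  have hW₀F : ∀ f ∈ W₀, f ∈ F := by
    rintro _ ⟨f, -, rfl⟩; exact f.2
  obtain ⟨f, hfW, hffix, hfspan⟩ := exists_invariant_basis W₀ hd₀ hst₀
  choose a b ha hb haF hbF hb0 hbfix hab using fun i =>
    hquot (f i) (hW₀F _ (hfW i)) fun σ => hffix σ i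
  obtain ⟨yQ, n, hn, hyQF, hyQ0, hyQfix, hfyQ⟩ :=
    exists_invariant_denominator A ha hb hbF hb0 hbfix hab
  -- the space multiplied by the denominator
  set W := W₀.map (mulLin (liftK A yQ)) with hW
  have hWd : Module.finrank Qbar W = d := by
    rw [hW, ← (Submodule.equivMapOfInjective (mulLin (liftK A yQ))
      (mul_left_injective₀ hyQ0) W₀).finrank_eq, hd₀]
  have hWst : ∀ σ, ∀ z ∈ W, conjSeries σ z ∈ W := by
    rintro σ _ ⟨z, hz, rfl⟩
    exact ⟨_, hst₀ σ z hz, by show _ * _ = conjSeries σ (_ * _); rw [map_mul, hyQfix]⟩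
  have hWb : ∀ z ∈ W, z ∈ boundedSeries Qbar := by
    rintro _ ⟨z, hz, rfl⟩
    obtain ⟨γ, rfl⟩ := (Submodule.mem_span_range_iff_exists_fun Qbar).mp (hfspan hz)
    show (∑ i, γ i • f i) * _ ∈ _
    rw [Finset.sum_mul]
    refine Subring.sum_mem _ fun i _ => ?_
    rw [smul_eq_algebraMap_mul, mul_assoc]
    exact mul_mem (algebraMap_mem_boundedSeries _) (hfyQ i)
  obtain ⟨v, e, hvcoeff, hvW, hvfix⟩ := exists_invariant_dual_basis red W hWd hWb hWst
  choose z hzW hz using fun i => Submodule.mem_map.mp (hvW i)
  choose x hxM hx using fun i => Submodule.mem_map.mp (hzW i)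
  have hxQ : ∀ i, (x i : LaurentSeries Qbar) * liftK A yQ = liftK A (v i) := fun i => by
    rw [show (x i : LaurentSeries Qbar) = z i from hx i]
    exact hz i
  have hvF : ∀ i, liftK A (v i) ∈ F := fun i => hxQ i ▸ mul_mem (x i).2 hyQF
  have hQ0 := coeffMap_ne_zero_of_coeff_eq_one (π := π) hn
  have hxV : ∀ i, x i ∈ red.V := fun i =>
    (mem_gaussV hG).mpr ⟨v i, yQ, hvF i, hyQF, hQ0, hxQ i⟩
  have hres : ∀ i, ((resF red (x i) : κ) : LaurentSeries k) = coeffMap π (v i) / coeffMap π yQ :=
    fun i => by
      rw [resF_of_mem red (hxV i)]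
      exact gaussReduction_res_eq hG _ hQ0 (hxQ i)
  have hli : LinearIndependent k (resF red ∘ x) :=
    linearIndependent_of_coeff (fun i => (resF red (x i) : κ)) (coeffMap π yQ) e fun i j => by
      show (((resF red (x i) : κ) : LaurentSeries k) * coeffMap π yQ).coeff (e j) = _
      rw [hres, div_mul_cancel₀ _ hQ0, coeffMap_coeff, hvcoeff]
      rcases eq_or_ne i j with rfl | h
      · simp
      · simp [Matrix.one_apply_ne h, Pi.single_eq_of_ne h.symm]
  refine ⟨x, hxV, hxM, hli, span_eq_of_res red hxV hxM hli (by rw [hd, Fintype.card_fin]), ?_⟩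
  intro σ i
  refine mul_right_cancel₀ hyQ0 ?_
  rw [hxQ i]
  conv_lhs => rw [← hyQfix σ, ← map_mul, hxQ i, hvfix σ i]

end Fermat.Agent.GoodModel
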