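import Fermat.Agent.GoodModel.FibrePlaces
import Fermat.Agent.GoodModel.GaussGalois
import Fermat.Agent.GoodModel.RationalBasis
import Fermat.Agent.GoodReductionS18.Model.Fibres
import Fermat.Agent.CarayolFF.Descend
import Fermat.Agent.GaloisBasics.ResidueField

/-!
# Galois data of the good model of `X₀(M)` on a Hauptmodul

For `h ∈ {2, 3}` dividing a level `M` invertible in the residue field, the Galois action on Laurent
series fixes the Hauptmodul of level `h` and gives the good model of `X₀(M)` its Galois data.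
-/

set_option autoImplicit false

noncomputable section

open AlgebraicCurve ModularCurve

namespace Fermat.Agent.GoodModel

open Fermat.Agent.GoodReduction Fermat.Agent.GaloisBasics Fermat.Agent.GoodReductionModular
  Fermat.Agent.FunctionField Fermat.Agent.GoodReductionS18

/-- Invariant functions are quotients of invariant bounded functions. -/
theorem exists_invariant_quotient (M : ℕ) [NeZero M] {f : LaurentSeries Qbar}
    (hf : f ∈ modularFunctionFieldBar M) (hfix : ∀ σ, conjSeries σ f = f) :
    ∃ a b : LaurentSeries Qbar, a ∈ boundedSeries Qbar ∧ b ∈ boundedSeries Qbar ∧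
      a ∈ modularFunctionFieldBar M ∧ b ∈ modularFunctionFieldBar M ∧ b ≠ 0 ∧
      (∀ σ, conjSeries σ b = b) ∧ f * b = a := by
  have hmem : f ∈ Carayol.levelField ⊥ M := CarayolFF.mem_levelField_of_coeff ⊥ hf fun n => by
    rw [InfiniteGalois.mem_bot_iff_fixed]
    exact fun σ => congrArg (fun y : LaurentSeries Qbar => y.coeff n) (hfix σ)
  suffices h : ∃ a b : LaurentSeries Qbar, a ∈ boundedSeries Qbar ∧ b ∈ boundedSeries Qbar ∧
      a ∈ modularFunctionFieldBar M ∧ b ∈ modularFunctionFieldBar M ∧ b ≠ 0 ∧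
      (∀ σ, conjSeries σ a = a) ∧ (∀ σ, conjSeries σ b = b) ∧ f * b = a by
    obtain ⟨a, b, h1, h2, h3, h4, h5, -, h6, h7⟩ := h
    exact ⟨a, b, h1, h2, h3, h4, h5, h6, h7⟩
  clear hf hfix
  induction hmem using Subfield.closure_induction with
  | mem x hx =>
    rcases hx with ⟨c, hc, rfl⟩ | ⟨y, hy, rfl⟩
    · refine ⟨_, 1, algebraMap_mem_boundedSeries c, one_mem _,
        IntermediateField.algebraMap_mem _ c, one_mem _, one_ne_zero, fun σ => ?_,
        fun σ => map_one _, mul_one _⟩
      rw [conjSeries_algebraMap, (InfiniteGalois.mem_bot_iff_fixed c).mp hc σ]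
    · obtain ⟨d, hd, hdM, rfl⟩ := hy
      refine ⟨_, 1, ?_, one_mem _,
        coeffEmb_mem_laurentBaseChange _ (IntermediateField.subset_adjoin ℚ _ ⟨d, hd, hdM, rfl⟩),
        one_mem _, one_ne_zero, fun σ => coeffMap_coeffEmb σ _, fun σ => map_one _, mul_one _⟩
      rw [show coeffEmb Qbar (qExpand ℚ d jq) = coeffMap (Int.castRingHom Qbar) (jqNModC ℤ d) from
        (coeffMap_jqNModC (algebraMap ℚ Qbar) d).trans (coeffMap_jqNModC _ d).symm]
      exact coeffMap_intCast_mem_boundedSeries _
  | one => exact ⟨1, 1, one_mem _, one_mem _, one_mem _, one_mem _, one_ne_zero,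
      fun σ => map_one _, fun σ => map_one _, mul_one _⟩
  | add x y _ _ hx hy =>
    obtain ⟨a, b, ha, hb, haF, hbF, hb0, hσa, hσb, e⟩ := hx
    obtain ⟨a', b', ha', hb', haF', hbF', hb0', hσa', hσb', e'⟩ := hy
    exact ⟨a * b' + a' * b, b * b', add_mem (mul_mem ha hb') (mul_mem ha' hb), mul_mem hb hb',
      add_mem (mul_mem haF hbF') (mul_mem haF' hbF), mul_mem hbF hbF', mul_ne_zero hb0 hb0',
      fun σ => by simp [hσa, hσb, hσa', hσb'], fun σ => by simp [hσb, hσb'],
      by rw [← e, ← e']; ring⟩
  | neg x _ hx =>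
    obtain ⟨a, b, ha, hb, haF, hbF, hb0, hσa, hσb, e⟩ := hx
    exact ⟨-a, b, neg_mem ha, hb, neg_mem haF, hbF, hb0, fun σ => by rw [map_neg, hσa],
      hσb, by rw [neg_mul, e]⟩
  | inv x _ hx =>
    obtain ⟨a, b, ha, hb, haF, hbF, hb0, hσa, hσb, e⟩ := hx
    rcases eq_or_ne x 0 with rfl | hx0
    · exact ⟨0, 1, zero_mem _, one_mem _, zero_mem _, one_mem _, one_ne_zero,
        fun σ => map_zero _, fun σ => map_one _, by simp⟩
    exact ⟨b, a, hb, ha, hbF, haF, e ▸ mul_ne_zero hx0 hb0, hσb, hσa,
      by rw [← e, inv_mul_cancel_left₀ hx0]⟩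
  | mul x y _ _ hx hy =>
    obtain ⟨a, b, ha, hb, haF, hbF, hb0, hσa, hσb, e⟩ := hx
    obtain ⟨a', b', ha', hb', haF', hbF', hb0', hσa', hσb', e'⟩ := hy
    exact ⟨a * a', b * b', mul_mem ha ha', mul_mem hb hb', mul_mem haF haF', mul_mem hbF hbF',
      mul_ne_zero hb0 hb0', fun σ => by simp [hσa, hσa'], fun σ => by simp [hσb, hσb'],
      by rw [← e, ← e']; ring⟩

variable {ℓ : ℕ} {A : ValuationSubring Qbar} {k : Type*} [Field k] [IsAlgClosed k] {π : A →+* k}
variable {h : ℕ} [NeZero h] {M : ℕ} [NeZero M]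

attribute [local instance] isFunctionField_fullC

omit [IsAlgClosed k] in
theorem smul_hauptElt (hh : h = 2 ∨ h = 3) (hhM : h ∣ M)
    (HG : GaussInput (laurentBaseChange Qbar (modularFunctionFieldFull M))
      (modularFunctionFieldFullC k M) π) (σ : GalQ) :
    arithmeticGalois (modularFunctionFieldFull M) σ •
        ((hauptElt hh hhM HG : (gaussReduction HG).V) :
          laurentBaseChange Qbar (modularFunctionFieldFull M)) =
      ((hauptElt hh hhM HG : (gaussReduction HG).V) :
        laurentBaseChange Qbar (modularFunctionFieldFull M)) := by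
  refine Subtype.ext ?_
  rw [coe_arithmeticGalois_smul, coe_hauptElt, coeffMap_hauptX]

/-- The good model of level `M` with its Galois data. -/
theorem exists_galoisData (hh : h = 2 ∨ h = 3) (hhM : h ∣ M) (hMk : (M : k) ≠ 0)
    (hπ : Function.Surjective π) (hA : A.LiesOverPrime ℓ) (hℓ : ℓ.Prime) :
    ∃ (HG : GaussInput (laurentBaseChange Qbar (modularFunctionFieldFull M))
        (modularFunctionFieldFullC k M) π) (g : ℕ) (c : ℤ)
      (Hd : Divisor Qbar (laurentBaseChange Qbar (modularFunctionFieldFull M)))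
      (Hb : Divisor k (modularFunctionFieldFullC k M))
      (G : GoodReduction.GoodModel (gaussReduction HG) g c Hd Hb),
      GaloisData G (arithmeticGalois (modularFunctionFieldFull M)) := by
  have : IsFunctionField Qbar (laurentBaseChange Qbar (modularFunctionFieldFull M)) :=
    Hecke.isFunctionField_modular Qbar M
  set HG : GaussInput (laurentBaseChange Qbar (modularFunctionFieldFull M))
    (modularFunctionFieldFullC k M) π := gaussInput_level hπ hMk
  obtain ⟨g, c₀, hG⟩ := goodModel_hauptElt hh hhM hMk HG (hauptFibres h M hh)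
  set G := hG c₀ le_rfl
  set x := hauptElt hh hhM HG
  set act := arithmeticGalois (L := Qbar) (modularFunctionFieldFull M)
  have hκ : CoeffStable (modularFunctionFieldFullC k M) := coeffStable_fullC M
  have hxfix : ∀ σ, act σ •
      (x : laurentBaseChange Qbar (modularFunctionFieldFull M)) =
        (x : laurentBaseChange Qbar (modularFunctionFieldFull M)) := smul_hauptElt hh hhM HG
  have ht := transcendental_res_hauptElt hh hhM hMk HG
  have := isSeparable_res_hauptElt hh hhM hMk HG
  have hHfix : ∀ σ, act σ • poleDiv Qbar (x : laurentBaseChange Qbar (modularFunctionFieldFull M)) =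
      poleDiv Qbar (x : laurentBaseChange Qbar (modularFunctionFieldFull M)) :=
    fun σ => smul_poleDiv_eq _ (hxfix σ)
  refine ⟨HG, g, c₀, _, _, G,
    { baseAut_eq := fun σ a => rfl
      H_nonneg := poleDiv_nonneg _
      H_fixed := hHfix
      compat := fun σ hσ => ?_
      inert := fun σ hσ f hf => gauss_inert HG hκ hσ hf
      fixedBasis := fun m => ?_
      infinite_fixed := ?_ }⟩
  · refine ⟨coeffSemilinear hκ (residualAut HG.surjective hσ), smul_poleDiv_eq _ ?_,
      gauss_compat HG hκ hσ⟩
    refine Subtype.ext ?_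
    rw [coe_coeffSemilinear_smul, res_hauptElt, coeffMap_hauptX]
  · have := G.riemann.finite (m • poleDiv Qbar
      (x : laurentBaseChange Qbar (modularFunctionFieldFull M)))
    obtain ⟨b, hbV, -, hbli, hbspan, hbfix⟩ := exists_rational_basis HG
      (fun f hf hfix => exists_invariant_quotient M hf hfix)
      (LSpace (m • poleDiv Qbar (x : laurentBaseChange Qbar (modularFunctionFieldFull M)))) rfl
      (fun σ f hf => ⟨act σ • f, by
        have := smul_mem_LSpace (act σ) hf
        rwa [smul_comm, hHfix] at this, coe_arithmeticGalois_smul _ σ f⟩)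
    exact ⟨_, b, hbV, hbli, hbspan, fun σ i => Subtype.ext
      ((coe_arithmeticGalois_smul _ σ (b i)).trans (hbfix σ i))⟩
  · refine infinite_fixed_of_fibres G act (fun σ a => rfl) hA hℓ hHfix (fun σ hσ f hf => ?_) hxfix
      ((gaussReduction HG).transcendental ht) ht (degFun_res_hauptElt hh hhM hMk HG)
    exact ⟨(gauss_compat HG hκ hσ.1 ⟨f, hf⟩).1, gauss_inert HG hκ hσ hf⟩

end Fermat.Agent.GoodModel
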