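import Fermat.Agent.GoodModel.RegularTransport
import Fermat.Agent.GoodReduction.Injective

/-!
# Regular families of effective divisors on a good model

A family of divisors is regular when its spaces `L(mH - D p)` form regular families for all large
`m`. Regular families are closed under sums and under passing to the residual divisor in a
linear system.
-/

set_option autoImplicit false

noncomputable section

open AlgebraicCurve Filter

namespace Fermat.Agent.GoodModel

open Fermat.Agent.GoodReduction

variable {K k F κ : Type*} [Field K] [Field k] [Field F] [Field κ] [Algebra K F] [Algebra k κ]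
variable {A : ValuationSubring K} {π : A →+* k} {red : Reduction F κ A π}
variable {g : ℕ} {c : ℤ} {H : Divisor K F} {Hb : Divisor k κ}

/-- The divisor `H` reduces to `Hb`. -/
theorem divMap_H (G : GoodReduction.GoodModel red g c H Hb) (hH : 0 ≤ H) : G.divMap H = Hb := by
  refine G.redEquiv_unique (G.redEquiv_divMap hH) ?_
  filter_upwards [(tendsto_sub_atTop_nat 1).eventually G.res_L, eventually_ge_atTop 1] with m hm h1
  obtain ⟨n, rfl⟩ : ∃ n, m = n + 1 := ⟨m - 1, by omega⟩
  simpa [succ_nsmul] using hm

/-- Semicontinuity of `l(D)`. -/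
theorem finrank_le_divMap (G : GoodReduction.GoodModel red g c H Hb) (D : Divisor K F) :
    Module.finrank K (LSpace D) ≤ Module.finrank k (LSpace (G.divMap D)) := by
  have := G.riemann.finite D
  have := G.riemann'.finite (G.divMap D)
  rw [← red.finrank_resSpace]
  refine Submodule.finrank_mono fun y hy => ?_
  obtain ⟨x, hx, rfl⟩ := red.exists_of_mem_resSpace hy
  exact G.res_mem_LSpace hx

theorem _root_.Fermat.Agent.GoodReduction.RiemannData.mem_LSpace_sub_iff
    {K F : Type*} [Field K] [Field F] [Algebra K F] {g : ℕ} {c : ℤ}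
    (R : RiemannData K F g c) {D D' : Divisor K F} (hD : c + 1 ≤ Divisor.degree D) {h : F}
    {s : Set F} (hs : Submodule.span K s = LSpace D) :
    h ∈ LSpace (D' - D) ↔ ∀ f ∈ s, h * f ∈ LSpace D' := by
  constructor
  · intro hh f hf
    have := R.mul_mem hh (hs ▸ Submodule.subset_span hf : f ∈ LSpace D)
    rwa [sub_add_cancel] at this
  · intro hh
    rcases eq_or_ne h 0 with rfl | h0
    · exact zero_mem _
    have hall : ∀ f ∈ LSpace D, h * f ∈ LSpace D' := by
      intro f hf
      rw [← hs] at hf
      induction hf using Submodule.span_induction with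
      | mem f hf => exact hh f hf
      | zero => rw [mul_zero]; exact zero_mem _
      | add a b _ _ ha hb => rw [mul_add]; exact add_mem ha hb
      | smul r a _ ha => rw [mul_smul_comm]; exact Submodule.smul_mem _ _ ha
    rw [mem_LSpace h0]
    intro v
    obtain ⟨f, hf, hf0, hv⟩ := R.exists_ord_eq hD v
    have := (mem_LSpace (mul_ne_zero h0 hf0)).mp (hall f hf) v
    rw [v.ord_mul h0 hf0] at this
    rw [Finsupp.sub_apply]
    omega

variable {P : Type*} (S : Subalgebra A (P → K))

/-- A regular family of divisors. -/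
def RegDiv (red : Reduction F κ A π) (H : Divisor K F) (D : P → Divisor K F) : Prop :=
  ∀ᶠ m : ℕ in atTop, Reg red S fun p => LSpace (m • H - D p)

variable (G : GoodReduction.GoodModel red g c H Hb)

include G in
/-- A constant family of divisors is regular. -/
theorem regDiv_const (D : Divisor K F) : RegDiv S red H fun _ => D :=
  Eventually.of_forall fun m =>
    haveI := G.riemann.finite (m • H - D)
    reg_const red S _

/-- Regularity depends only on the values of the family. -/
theorem RegDiv.congr {D D' : P → Divisor K F} (h : ∀ p, D p = D' p) (hD : RegDiv S red H D) :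
    RegDiv S red H D' := by
  rwa [← show D = D' from funext h]

/-- Pullback of a regular family of divisors along a map of the parameter sets. -/
theorem RegDiv.comp {D : P → Divisor K F} (hD : RegDiv S red H D) {P' : Type*}
    {S' : Subalgebra A (P' → K)} (u : P' → P) (hu : ∀ s ∈ S, (fun q => s (u q)) ∈ S') :
    RegDiv S' red H fun q => D (u q) :=
  hD.mono fun _ hm => Reg.comp red S hm u hu

variable (hS : ∀ f ∈ S, ∀ p, f p ∈ A) [Finite P]

include G in
theorem eventually_redEquiv {D : P → Divisor K F} (hD : ∀ p, 0 ≤ D p) :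
    ∀ᶠ m : ℕ in atTop, ∀ p,
      red.resSpace (LSpace (m • H - D p)) = LSpace (m • Hb - G.divMap (D p)) :=
  eventually_all.mpr fun p => G.redEquiv_divMap (hD p)

include G hS in
theorem regDiv_add_aux {D D' : P → Divisor K F} {δ δ' : ℤ} (hD : ∀ p, 0 ≤ D p)
    (hD' : ∀ p, 0 ≤ D' p) (hδ : ∀ p, Divisor.degree (D p) = δ)
    (hδ' : ∀ p, Divisor.degree (D' p) = δ') {a : ℕ}
    (ha : Reg red S fun p => LSpace (a • H - D p))
    (hred : ∀ p, red.resSpace (LSpace (a • H - D p)) = LSpace (a • Hb - G.divMap (D p)))
    (hdeg : c + 1 + δ ≤ a * Divisor.degree H) (h' : RegDiv S red H D') :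
    RegDiv S red H fun p => D p + D' p := by
  filter_upwards [(tendsto_sub_atTop_nat a).eventually h',
    (tendsto_sub_atTop_nat a).eventually ((eventually_redEquiv G hD').and (eventually_le_mul
      G.deg_pos (c + δ' + ((a : ℤ) * Divisor.degree H - δ)))),
    eventually_redEquiv G fun p => add_nonneg (hD p) (hD' p),
    eventually_ge_atTop a] with m hm hm' hmsum hma
  refine Reg.mul red S hS ha hm (fun p => ?_) fun p => ?_
  · rw [← smul_split hma]
    exact G.riemann.mul_le _ _
  · have e1 : Divisor.degree (a • Hb - G.divMap (D p)) = a * Divisor.degree H - δ := by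
      rw [G.degree_smul_sub', G.degree_divMap, hδ]
    have e2 : Divisor.degree ((m - a) • Hb - G.divMap (D' p))
        = ((m - a : ℕ) : ℤ) * Divisor.degree H - δ' := by
      rw [G.degree_smul_sub', G.degree_divMap, hδ']
    rw [hmsum p, hred p, hm'.1 p, G.riemann'.mul_eq (by rw [e1]; linarith)
      (by rw [e1, e2]; linarith [hm'.2]), smul_split hma, map_add]

include G hS in
/-- The sum of two regular families of effective divisors is regular. -/
theorem RegDiv.add {D D' : P → Divisor K F} {δ δ' : ℤ} (hD : ∀ p, 0 ≤ D p) (hD' : ∀ p, 0 ≤ D' p)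
    (hδ : ∀ p, Divisor.degree (D p) = δ) (hδ' : ∀ p, Divisor.degree (D' p) = δ')
    (h : RegDiv S red H D) (h' : RegDiv S red H D') : RegDiv S red H fun p => D p + D' p := by
  obtain ⟨a, ha, hred, hdeg⟩ := (h.and ((eventually_redEquiv G hD).and
    (eventually_le_mul G.deg_pos (c + 1 + δ)))).exists
  exact regDiv_add_aux S G hS hD hD' hδ hδ' ha hred hdeg h'

include G hS in
/-- A family regular in one large degree is regular. -/
theorem RegDiv.of_one {D : P → Divisor K F} {δ : ℤ} (hD : ∀ p, 0 ≤ D p)
    (hδ : ∀ p, Divisor.degree (D p) = δ) {a : ℕ} (ha : Reg red S fun p => LSpace (a • H - D p))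
    (hred : ∀ p, red.resSpace (LSpace (a • H - D p)) = LSpace (a • Hb - G.divMap (D p)))
    (hdeg : c + 1 + δ ≤ a * Divisor.degree H) : RegDiv S red H D := by
  refine RegDiv.congr S (fun p => add_zero (D p)) ?_
  exact regDiv_add_aux S G hS (D' := fun _ => 0) hD (fun _ => le_rfl) hδ (fun _ => map_zero _)
    ha hred hdeg (regDiv_const S G 0)

include G hS in
/-- A regular family of divisors gives regular spaces in every degree `m` in which they have
constant dimension and reduce onto the residual spaces. -/
theorem RegDiv.reg_of_resSpace_eq [Infinite k] {D : P → Divisor K F} {δ : ℤ} (hD : ∀ p, 0 ≤ D p)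
    (hδ : ∀ p, Divisor.degree (D p) = δ) (h : RegDiv S red H D) {m e : ℕ}
    (he : ∀ p, Module.finrank K (LSpace (m • H - D p)) = e)
    (hres : ∀ p, red.resSpace (LSpace (m • H - D p)) = LSpace (m • Hb - G.divMap (D p))) :
    Reg red S fun p => LSpace (m • H - D p) := by
  have := fun D => G.riemann.finite D
  obtain ⟨a, haL, had, ha⟩ := (G.res_L.and ((eventually_le_mul G.deg_pos
    (max (c + 1) (c + δ - m * Divisor.degree H))).and
      ((tendsto_add_atTop_nat m).eventually (h.and (eventually_redEquiv G hD))))).exists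
  obtain ⟨haReg, hared⟩ := ha
  have had1 : c + 1 ≤ Divisor.degree (a • H) := by
    rw [map_nsmul, nsmul_eq_mul]
    exact le_trans (le_max_left _ _) had
  have had2 : c ≤ ((a + m : ℕ) : ℤ) * Divisor.degree H - δ := by
    push_cast
    linarith [le_trans (le_max_right _ _) had]
  obtain ⟨γ, hγV, hγM, hγli, hγspan⟩ := exists_resBasis red (LSpace (a • H)) rfl
  have hγres : Submodule.span k (Set.range (resF red ∘ γ)) = LSpace (a • Hb) := by
    rw [← resSpace_span_eq red hγV hγli, hγspan, haL]
  refine Reg.transport red S hS (M := LSpace (m • H)) (M' := LSpace ((a + m) • H))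
    (fun i _ => γ i) (fun i => const_mem_fam red S (hγV i)) (fun h hh i p => ?_) haReg
    (fun p => LSpace_mono (sub_le_self _ (hD p)))
    (r := ((((a + m : ℕ) : ℤ) * Divisor.degree H - δ) + 1 - g).toNat) (fun p => ?_)
    (fun p h => ?_) he fun p y _ hy => ?_
  · rw [add_smul, add_comm]
    exact G.riemann.mul_mem hh (hγM i)
  · have := G.riemann.exact' ((a + m) • H - D p) (by rw [G.degree_smul_sub, hδ]; exact had2)
    rw [G.degree_smul_sub, hδ] at this
    omega
  · have key := G.riemann.mem_LSpace_sub_iff (D := a • H) (D' := (a + m) • H - D p) had1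
      (h := h) hγspan
    rw [Set.forall_mem_range, show (a + m) • H - D p - a • H = m • H - D p from by
      rw [add_smul]; abel] at key
    exact ⟨fun hh => ⟨LSpace_mono (sub_le_self _ (hD p)) hh, key.mp hh⟩, fun hh => key.mpr hh.2⟩
  · rw [hres p]
    have key := G.riemann'.mem_LSpace_sub_iff (D := a • Hb)
      (D' := (a + m) • Hb - G.divMap (D p))
      (by rw [map_nsmul, G.deg_eq, ← map_nsmul]; exact had1) (h := y) hγres
    rw [Set.forall_mem_range, show (a + m) • Hb - G.divMap (D p) - a • Hb
      = m • Hb - G.divMap (D p) from by rw [add_smul]; abel] at key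
    refine key.mpr fun i => ?_
    rw [← hared p]
    exact hy i

include G in
/-- If `E + N - bH` is principal with `E` effective and `l(bH̄ - N̄) = 1`, then `L(bH - N)` is
a line reducing onto `L(bH̄ - N̄)`, whose nonzero members have divisor `E + N - bH`. -/
theorem LSpace_sub_of_residual (hH : 0 ≤ H) {N E : Divisor K F} (hE : 0 ≤ E) {b : ℕ} {f : F}
    (hf0 : f ≠ 0) (hdiv : G.riemann.div f = E + N - b • H)
    (hone : Module.finrank k (LSpace (b • Hb - G.divMap N)) = 1) :
    Module.finrank K (LSpace (b • H - N)) = 1 ∧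
      red.resSpace (LSpace (b • H - N)) = LSpace (b • Hb - G.divMap N) ∧
      ∀ v ∈ LSpace (b • H - N), v ≠ 0 → G.riemann.div v = E + N - b • H := by
  have := fun D => G.riemann.finite D
  have := fun D => G.riemann'.finite D
  have hfY : f ∈ LSpace (b • H - N) := (mem_LSpace hf0).mpr fun v => by
    have hv := Finsupp.ext_iff.mp hdiv v
    have := hE v
    simp only [G.riemann.div_apply, Finsupp.sub_apply, Finsupp.add_apply] at hv
    simp only [Finsupp.coe_zero, Pi.zero_apply] at this
    simp only [Finsupp.sub_apply]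
    omega
  have hbar : G.divMap (b • H - N) = b • Hb - G.divMap N := by
    rw [map_sub, map_nsmul, divMap_H G hH]
  have hY1 : Module.finrank K (LSpace (b • H - N)) = 1 := by
    refine le_antisymm ?_ ?_
    · rw [← hone, ← hbar]
      exact finrank_le_divMap G _
    · rw [Nat.one_le_iff_ne_zero]
      intro h0
      rw [Submodule.finrank_eq_zero] at h0
      exact hf0 ((Submodule.mem_bot K).mp (h0 ▸ hfY))
  refine ⟨hY1, ?_, fun v hv hv0 => ?_⟩
  · refine Submodule.eq_of_le_of_finrank_eq (fun y hy => ?_)
      (by rw [red.finrank_resSpace, hY1, hone])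
    obtain ⟨x, hx, rfl⟩ := red.exists_of_mem_resSpace hy
    rw [← hbar]
    exact G.res_mem_LSpace hx
  · obtain ⟨a, ha⟩ := (finrank_eq_one_iff_of_nonzero' (⟨v, hv⟩ : LSpace (b • H - N))
      (fun h0 => hv0 (congrArg Subtype.val h0))).mp hY1 ⟨f, hfY⟩
    have ha' : f = algebraMap K F a * v := by
      rw [← Algebra.smul_def]; exact (congrArg Subtype.val ha).symm
    have ha0 : algebraMap K F a ≠ 0 := fun h0 => hf0 (by rw [ha', h0, zero_mul])
    rw [← hdiv, ha', G.riemann.div_mul ha0 hv0]
    refine (add_eq_right.mpr (Finsupp.ext fun w => ?_)).symm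
    rw [G.riemann.div_apply, ord_algebraMap_eq_zero, Finsupp.coe_zero, Pi.zero_apply]

include G hS in
/-- For a regular family `N` with principal `E + N - bH`, some integral family with nonzero residues
has divisors `E + N - bH`. -/
theorem RegDiv.exists_fam_div [Infinite k] (hH : 0 ≤ H) {N E : P → Divisor K F} {dN : ℤ} {b : ℕ}
    (hN : ∀ p, 0 ≤ N p) (hE : ∀ p, 0 ≤ E p) (hdN : ∀ p, Divisor.degree (N p) = dN)
    (hf : ∀ p, ∃ f : F, f ≠ 0 ∧ G.riemann.div f = E p + N p - b • H)
    (hone : ∀ p, Module.finrank k (LSpace (b • Hb - G.divMap (N p))) = 1)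
    (h : RegDiv S red H N) :
    ∃ v ∈ fam red S, (∀ p, resF red (v p) ≠ 0) ∧
      ∀ p, G.riemann.div (v p) = E p + N p - b • H := by
  choose f hf0 hdiv using hf
  have hline := fun p => LSpace_sub_of_residual G hH (hE p) (hf0 p) (hdiv p) (hone p)
  have : ∀ p, FiniteDimensional K ((fun p => LSpace (b • H - N p)) p) := fun p => G.riemann.finite _
  obtain ⟨v, hv, hvY, hvli, -⟩ := (h.reg_of_resSpace_eq S G hS hN hdN (fun p => (hline p).1)
    fun p => (hline p).2.1).exists_basis red S hS fun p => (hline p).1
  have hv0 : ∀ p, resF red (v 0 p) ≠ 0 := fun p => (hvli p).ne_zero 0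
  exact ⟨v 0, hv 0, hv0, fun p => (hline p).2.2 _ (hvY 0 p) fun h0 =>
    hv0 p (by rw [h0, resF_zero])⟩

include G hS in
/-- Division by `L(aH - N p)`: if the spaces `L((m + a)H - N p - E p)` form a regular family and
`m`, `a` are large, then so do the spaces `L(mH - E p)`. -/
theorem reg_sub_of_reg_add [Infinite k] {N E : P → Divisor K F} {dN dE : ℤ}
    (hN : ∀ p, 0 ≤ N p) (hE : ∀ p, 0 ≤ E p) (hdN : ∀ p, Divisor.degree (N p) = dN)
    (hdE : ∀ p, Divisor.degree (E p) = dE) {a m : ℕ}
    (haReg : Reg red S fun p => LSpace (a • H - N p))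
    (hared : ∀ p, red.resSpace (LSpace (a • H - N p)) = LSpace (a • Hb - G.divMap (N p)))
    (had : c + 1 + dN ≤ a * Divisor.degree H)
    (hWreg : Reg red S fun p => LSpace ((m + a) • H - (N p + E p)))
    (hmE : ∀ p, red.resSpace (LSpace (m • H - E p)) = LSpace (m • Hb - G.divMap (E p)))
    (hmNE : ∀ p, red.resSpace (LSpace ((m + a) • H - (N p + E p))) =
      LSpace ((m + a) • Hb - G.divMap (N p + E p)))
    (hmd : c + dE ≤ m * Divisor.degree H)
    (hmd' : c + dN + dE - a * Divisor.degree H ≤ m * Divisor.degree H) :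
    Reg red S fun p => LSpace (m • H - E p) := by
  have := fun D => G.riemann.finite D
  have hda : ∀ p, c + 1 ≤ Divisor.degree (a • H - N p) := fun p => by
    rw [G.degree_smul_sub, hdN]; linarith
  have : ∀ p, FiniteDimensional K ((fun p => LSpace (a • H - N p)) p) := fun p => G.riemann.finite _
  obtain ⟨G₂, hG₂, hG₂mem, hG₂li, hG₂span⟩ := haReg.exists_basis red S hS
    (r := ((a : ℤ) * Divisor.degree H - dN + 1 - g).toNat) (fun p => by
      have := G.riemann.exact' (a • H - N p) (by have := hda p; omega)
      rw [G.degree_smul_sub, hdN] at this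
      omega)
  have hG₂K : ∀ p, Submodule.span K (Set.range fun i => G₂ i p) = LSpace (a • H - N p) := by
    intro p
    refine span_eq_of_res red (fun i => apply_mem_V red S hS (hG₂ i) p) (fun i => hG₂mem i p)
      (hG₂li p) ?_
    rw [← red.finrank_resSpace, hG₂span p]
    exact (finrank_range_le_card _).trans le_rfl
  refine Reg.transport red S hS (M := LSpace (m • H)) (M' := LSpace ((m + a) • H))
    G₂ hG₂ (fun h hh i p => ?_) hWreg
    (fun p => LSpace_mono (sub_le_self _ (add_nonneg (hN p) (hE p))))
    (r := (((m + a : ℕ) : ℤ) * Divisor.degree H - (dN + dE) + 1 - g).toNat) (fun p => ?_)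
    (fun p h => ?_) (e := ((m : ℤ) * Divisor.degree H - dE + 1 - g).toNat) (fun p => ?_)
    fun p y _ hy => ?_
  · rw [add_smul]
    exact G.riemann.mul_mem hh (LSpace_mono (sub_le_self _ (hN p)) (hG₂mem i p))
  · have := G.riemann.exact' ((m + a) • H - (N p + E p))
      (by rw [G.degree_smul_sub, map_add, hdN, hdE]; push_cast; linarith)
    rw [G.degree_smul_sub, map_add, hdN, hdE] at this
    omega
  · have key := G.riemann.mem_LSpace_sub_iff (D := a • H - N p)
      (D' := (m + a) • H - (N p + E p)) (hda p) (h := h) (hG₂K p)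
    rw [Set.forall_mem_range, show (m + a) • H - (N p + E p) - (a • H - N p) = m • H - E p from by
      rw [add_smul]; abel] at key
    exact ⟨fun hh => ⟨LSpace_mono (sub_le_self _ (hE p)) hh, key.mp hh⟩, fun hh => key.mpr hh.2⟩
  · have := G.riemann.exact' (m • H - E p) (by rw [G.degree_smul_sub, hdE]; linarith)
    rw [G.degree_smul_sub, hdE] at this
    omega
  · rw [hmE p]
    have key := G.riemann'.mem_LSpace_sub_iff (D := a • Hb - G.divMap (N p))
      (D' := (m + a) • Hb - (G.divMap (N p) + G.divMap (E p)))
      (by rw [G.degree_smul_sub', G.degree_divMap, hdN]; linarith) (h := y)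
      (s := Set.range fun i => resF red (G₂ i p)) (by rw [← hG₂span p, hared p])
    rw [Set.forall_mem_range, show (m + a) • Hb - (G.divMap (N p) + G.divMap (E p))
      - (a • Hb - G.divMap (N p)) = m • Hb - G.divMap (E p) from by rw [add_smul]; abel] at key
    refine key.mpr fun i => ?_
    rw [← map_add, ← hmNE p]
    exact hy i

include G hS in
/-- The residual divisor of a regular family in `|bH|` is regular. -/
theorem RegDiv.residual [Infinite k] (hH : 0 ≤ H) {N E : P → Divisor K F} {dN dE : ℤ} {b : ℕ}
    (hN : ∀ p, 0 ≤ N p) (hE : ∀ p, 0 ≤ E p) (hdN : ∀ p, Divisor.degree (N p) = dN)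
    (hdE : ∀ p, Divisor.degree (E p) = dE)
    (hf : ∀ p, ∃ f : F, f ≠ 0 ∧ G.riemann.div f = E p + N p - b • H)
    (hone : ∀ p, Module.finrank k (LSpace (b • Hb - G.divMap (N p))) = 1)
    (h : RegDiv S red H N) : RegDiv S red H E := by
  have := fun D => G.riemann.finite D
  obtain ⟨v, hv, hv0, hvdiv⟩ := h.exists_fam_div S G hS hH hN hE hdN hf hone
  obtain ⟨a, haReg, hared, had⟩ := (h.and ((eventually_redEquiv G hN).and
    (eventually_le_mul G.deg_pos (c + 1 + dN)))).exists
  filter_upwards [eventually_redEquiv G hE,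
    (tendsto_add_atTop_nat a).eventually
      (eventually_redEquiv G fun p => add_nonneg (hN p) (hE p)),
    eventually_ge_atTop b, eventually_le_mul G.deg_pos (c + dE),
    eventually_le_mul G.deg_pos (c + dN + dE - a * Divisor.degree H)] with m hmE hmNE hmb hmd hmd'
  have hWeq : ∀ p, (LSpace ((m + a - b) • H)).map (LinearMap.mulLeft K (v p)) =
      LSpace ((m + a) • H - (N p + E p)) := fun p => by
    rw [G.riemann.map_mulLeft (fun h0 => hv0 p (by rw [h0, resF_zero])), hvdiv p]
    congr 1
    conv_rhs => rw [← Nat.sub_add_cancel (show b ≤ m + a by omega), add_smul]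
    abel
  have hWreg : Reg red S fun p => LSpace ((m + a) • H - (N p + E p)) :=
    (Reg.smul_family red S hS (reg_const red S (LSpace ((m + a - b) • H))) hv hv0).congr
      red S hWeq
  exact reg_sub_of_reg_add S G hS hN hE hdN hdE haReg hared had hWreg hmE hmNE hmd hmd'

end Fermat.Agent.GoodModel
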