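import Fermat.Agent.GoodModel.FamilyMatrix

/-!
# Regular families of subspaces

A family of subspaces of a field with a reduction, indexed by a finite set `P`, is regular for an
algebra `S` of `A`-valued functions on `P` if at every point it contains the values of finitely
many `S`-combinations of constant integral elements whose residues span its reduction.
-/

set_option autoImplicit false

noncomputable section

open Matrix

namespace Fermat.Agent.GoodModel

open Fermat.Agent.GoodReduction

variable {K k F κ : Type*} [Field K] [Field k] [Field F] [Field κ] [Algebra K F] [Algebra k κ]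
variable {A : ValuationSubring K} {π : A →+* k} (red : Reduction F κ A π)
variable {P : Type*} (S : Subalgebra A (P → K))

/-- Combinations over `S` of constant integral elements. -/
def fam : Submodule S (P → F) :=
  Submodule.span S (Set.range fun x : red.V => fun _ : P => (x : F))

/-- Pointwise value of a multiple of a family. -/
theorem smul_apply_fam (s : S) (f : P → F) (p : P) : (s • f) p = evK S p s • f p := rfl

/-- Constant integral families belong to `fam`. -/
theorem const_mem_fam {x : F} (hx : x ∈ red.V) : (fun _ : P => x) ∈ fam red S :=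
  Submodule.subset_span ⟨⟨x, hx⟩, rfl⟩

/-- `fam` is closed under products. -/
theorem mul_mem_fam {f g : P → F} (hf : f ∈ fam red S) (hg : g ∈ fam red S) :
    f * g ∈ fam red S := by
  induction hf using Submodule.span_induction with
  | mem f hf =>
    obtain ⟨x, rfl⟩ := hf
    induction hg using Submodule.span_induction with
    | mem g hg =>
      obtain ⟨y, rfl⟩ := hg
      exact const_mem_fam red S (mul_mem x.2 y.2)
    | zero => rw [mul_zero]; exact zero_mem _
    | add a b _ _ ha hb => rw [mul_add]; exact add_mem ha hb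
    | smul s a _ ha =>
      have : (fun _ : P => (x : F)) * (s • a) = s • ((fun _ : P => (x : F)) * a) :=
        funext fun p => mul_smul_comm (evK S p s) (x : F) (a p)
      rw [this]
      exact Submodule.smul_mem _ _ ha
  | zero => rw [zero_mul]; exact zero_mem _
  | add a b _ _ ha hb => rw [add_mul]; exact add_mem ha hb
  | smul s a _ ha =>
    have : (s • a) * g = s • (a * g) := funext fun p => smul_mul_assoc (evK S p s) (a p) (g p)
    rw [this]
    exact Submodule.smul_mem _ _ ha

theorem comp_mem_fam {P' : Type*} {S' : Subalgebra A (P' → K)} (u : P' → P)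
    (hu : ∀ s ∈ S, (fun q => s (u q)) ∈ S') {f : P → F} (hf : f ∈ fam red S) :
    (fun q => f (u q)) ∈ fam red S' := by
  induction hf using Submodule.span_induction with
  | mem f hf => obtain ⟨x, rfl⟩ := hf; exact const_mem_fam red S' x.2
  | zero => exact zero_mem _
  | add a b _ _ ha hb => exact add_mem ha hb
  | smul s a _ ha => exact Submodule.smul_mem _ (⟨_, hu s s.2⟩ : S') ha

variable (hS : ∀ f ∈ S, ∀ p, f p ∈ A)

include hS in
/-- The values of a family are integral. -/
theorem apply_mem_V {f : P → F} (hf : f ∈ fam red S) (p : P) : f p ∈ red.V := by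
  induction hf using Submodule.span_induction with
  | mem f hf => obtain ⟨x, rfl⟩ := hf; exact x.2
  | zero => exact zero_mem _
  | add a b _ _ ha hb => exact add_mem ha hb
  | smul s a _ ha => exact smul_mem_V red (hS s s.2 p) ha

include hS in
/-- Residue of a combination with coefficients in `S`. -/
theorem resF_sum_smul {ι : Type*} [Fintype ι] (c : ι → S) {b : ι → F} (hb : ∀ i, b i ∈ red.V)
    (p : P) :
    resF red (∑ i, evK S p (c i) • b i) = ∑ i, evk S hS π p (c i) • resF red (b i) := by
  have hm : ∀ i, evK S p (c i) • b i ∈ red.V := fun i => smul_mem_V red (hS _ (c i).2 p) (hb i)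
  rw [resF_sum red _ fun i _ => hm i]
  exact Finset.sum_congr rfl fun i _ => resF_smul red (hS _ (c i).2 p) (hb i)

/-- Coordinates of a family in a residue-independent basis lie in `S`. -/
theorem exists_coord {ι : Type} [Fintype ι] {b : ι → F} (hb : ∀ i, b i ∈ red.V)
    (hli : LinearIndependent k (resF red ∘ b)) {f : P → F} (hf : f ∈ fam red S)
    (hspan : ∀ p, f p ∈ Submodule.span K (Set.range b)) :
    ∃ c : ι → S, ∀ p, f p = ∑ i, evK S p (c i) • b i := by
  classical
  have key : ∃ M : Submodule K F, FiniteDimensional K M ∧ ∀ (ι' : Type) [Fintype ι'] (b' : ι' → F),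
      (∀ i, b' i ∈ red.V) → LinearIndependent k (resF red ∘ b') →
      M ≤ Submodule.span K (Set.range b') → ∃ c : ι' → S, ∀ p, f p = ∑ i, evK S p (c i) • b' i := by
    clear hspan
    induction hf using Submodule.span_induction with
    | mem f hf =>
      obtain ⟨x, rfl⟩ := hf
      refine ⟨Submodule.span K {(x : F)}, inferInstance, fun ι' _ b' hb' hli' hM => ?_⟩
      obtain ⟨c, hc⟩ := (Submodule.mem_span_range_iff_exists_fun K).mp
        (hM (Submodule.mem_span_singleton_self (x : F)))
      have hcA := coeff_mem red hb' hli' (c := c) (hc ▸ x.2)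
      exact ⟨fun i => algebraMap A S ⟨c i, hcA i⟩, fun p => hc.symm⟩
    | zero => exact ⟨⊥, inferInstance, fun ι' _ b' _ _ _ => ⟨0, fun p => by simp⟩⟩
    | add u v _ _ hu hv =>
      obtain ⟨Mu, hMu, hu⟩ := hu
      obtain ⟨Mv, hMv, hv⟩ := hv
      refine ⟨Mu ⊔ Mv, Submodule.finiteDimensional_sup _ _, fun ι' _ b' hb' hli' hM => ?_⟩
      obtain ⟨c, hc⟩ := hu ι' b' hb' hli' (le_trans le_sup_left hM)
      obtain ⟨d, hd⟩ := hv ι' b' hb' hli' (le_trans le_sup_right hM)
      exact ⟨c + d, fun p => by
        simp only [Pi.add_apply, hc p, hd p, map_add, add_smul, Finset.sum_add_distrib]⟩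
    | smul s u _ hu =>
      obtain ⟨Mu, hMu, hu⟩ := hu
      refine ⟨Mu, hMu, fun ι' _ b' hb' hli' hM => ?_⟩
      obtain ⟨c, hc⟩ := hu ι' b' hb' hli' hM
      refine ⟨fun i => s * c i, fun p => ?_⟩
      rw [smul_apply_fam, hc p, Finset.smul_sum]
      simp only [map_mul, mul_smul]
  obtain ⟨M, hM, key⟩ := key
  obtain ⟨n, b', hb', hli', hMb⟩ := exists_extend red hb hli M
  have hV : ∀ i, Sum.elim b b' i ∈ red.V := by rintro (i | i); exacts [hb i, hb' i]
  obtain ⟨c, hc⟩ := key (ι ⊕ Fin n) _ hV hli' hMb
  refine ⟨fun i => c (Sum.inl i), fun p => ?_⟩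
  obtain ⟨d, hd⟩ := (Submodule.mem_span_range_iff_exists_fun K).mp (hspan p)
  have hind := linearIndependent_of_res red hV hli'
  have h0 := Fintype.linearIndependent_iff.mp hind
    (Sum.elim (fun i => evK S p (c (Sum.inl i)) - d i) (fun j => evK S p (c (Sum.inr j))))
    (by
      have h1 := hc p
      rw [Fintype.sum_sum_type] at h1
      simp only [Sum.elim_inl, Sum.elim_inr, ← hd] at h1
      rw [Fintype.sum_sum_type]
      simp only [Sum.elim_inl, Sum.elim_inr, sub_smul, Finset.sum_sub_distrib, h1]
      abel)
  rw [← hd]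
  exact Finset.sum_congr rfl fun i _ => by
    have := h0 (Sum.inl i)
    rw [Sum.elim_inl, sub_eq_zero] at this
    rw [this]

/-- A regular family of subspaces. -/
def Reg (W : P → Submodule K F) : Prop :=
  ∃ (n : ℕ) (v : Fin n → P → F), (∀ j, v j ∈ fam red S) ∧ (∀ j p, v j p ∈ W p) ∧
    ∀ p, red.resSpace (W p) ≤ Submodule.span k (Set.range fun j => resF red (v j p))

/-- Regularity from generators indexed by a finite type. -/
theorem Reg.of_fintype {ι : Type} [Fintype ι] {W : P → Submodule K F} (v : ι → P → F)
    (hv : ∀ j, v j ∈ fam red S) (hW : ∀ j p, v j p ∈ W p)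
    (hres : ∀ p, red.resSpace (W p) ≤ Submodule.span k (Set.range fun j => resF red (v j p))) :
    Reg red S W := by
  refine ⟨_, fun j => v ((Fintype.equivFin ι).symm j), fun j => hv _, fun j p => hW _ p,
    fun p => ?_⟩
  refine (hres p).trans (Submodule.span_mono ?_)
  rintro _ ⟨i, rfl⟩
  exact ⟨Fintype.equivFin ι i, by simp⟩

/-- Regularity depends only on the values of the family of subspaces. -/
theorem Reg.congr {W W' : P → Submodule K F} (h : ∀ p, W p = W' p) (hW : Reg red S W) :
    Reg red S W' := by
  rwa [← show W = W' from funext h]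

/-- A constant family of subspaces is regular. -/
theorem reg_const (W : Submodule K F) [FiniteDimensional K W] :
    Reg red S fun _ => W := by
  obtain ⟨b, hbV, hbW, hli, hspan⟩ := exists_resBasis red W rfl
  refine ⟨_, fun i _ => b i, fun i => const_mem_fam red S (hbV i), fun i _ => hbW i, fun p => ?_⟩
  exact ((congrArg red.resSpace hspan.symm).trans (resSpace_span_eq red hbV hli)).le

/-- Pullback of a regular family along a map of the parameter sets. -/
theorem Reg.comp {W : P → Submodule K F} (hW : Reg red S W) {P' : Type*}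
    {S' : Subalgebra A (P' → K)} (u : P' → P) (hu : ∀ s ∈ S, (fun q => s (u q)) ∈ S') :
    Reg red S' fun q => W (u q) := by
  obtain ⟨n, v, hv, hvW, hres⟩ := hW
  exact ⟨n, fun j q => v j (u q), fun j => comp_mem_fam red S u hu (hv j),
    fun j q => hvW j (u q), fun q => hres (u q)⟩

include hS in
/-- A family receiving the products of two regular families, residually onto, is regular. -/
theorem Reg.mul {W W' U : P → Submodule K F} (hW : Reg red S W) (hW' : Reg red S W')
    (hle : ∀ p, W p * W' p ≤ U p)
    (hres : ∀ p, red.resSpace (U p) ≤ red.resSpace (W p) * red.resSpace (W' p)) :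
    Reg red S U := by
  obtain ⟨n, v, hv, hvW, hvres⟩ := hW
  obtain ⟨m, v', hv', hvW', hvres'⟩ := hW'
  refine Reg.of_fintype red S (fun ij : Fin n × Fin m => v ij.1 * v' ij.2)
    (fun ij => mul_mem_fam red S (hv _) (hv' _))
    (fun ij p => hle p (Submodule.mul_mem_mul (hvW _ p) (hvW' _ p))) fun p => ?_
  refine (hres p).trans ((mul_le_mul' (hvres p) (hvres' p)).trans ?_)
  rw [Submodule.span_mul_span, Submodule.span_le]
  rintro _ ⟨_, ⟨i, rfl⟩, _, ⟨j, rfl⟩, rfl⟩
  refine Submodule.subset_span ⟨(i, j), ?_⟩
  exact resF_mul red (apply_mem_V red S hS (hv i) p) (apply_mem_V red S hS (hv' j) p)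

include hS in
/-- A regular family of constant dimension has a basis in `fam` with independent residues. -/
theorem Reg.exists_basis [Finite P] [Infinite k] {W : P → Submodule K F}
    [∀ p, FiniteDimensional K (W p)] (hW : Reg red S W) {r : ℕ}
    (hr : ∀ p, Module.finrank K (W p) = r) :
    ∃ v : Fin r → P → F, (∀ l, v l ∈ fam red S) ∧ (∀ l p, v l p ∈ W p) ∧
      (∀ p, LinearIndependent k fun l => resF red (v l p)) ∧
      ∀ p, red.resSpace (W p) = Submodule.span k (Set.range fun l => resF red (v l p)) := by
  classical
  obtain ⟨n, v, hv, hvW, hres⟩ := hW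
  rcases isEmpty_or_nonempty P with hP | ⟨⟨p₀⟩⟩
  · exact ⟨fun _ => isEmptyElim, fun l => by
      rw [show (isEmptyElim : P → F) = 0 from funext isEmptyElim]; exact zero_mem _,
      fun l p => isEmptyElim p, fun p => isEmptyElim p, fun p => isEmptyElim p⟩
  let T : P → (Fin n → k) →ₗ[k] κ := fun p => Fintype.linearCombination k fun j => resF red (v j p)
  have hrange : ∀ p, LinearMap.range (T p) = red.resSpace (W p) := fun p => by
    rw [Fintype.range_linearCombination]
    refine le_antisymm (Submodule.span_le.mpr ?_) (hres p)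
    rintro _ ⟨j, rfl⟩
    exact resF_mem red (apply_mem_V red S hS (hv j) p) (hvW j p)
  have hker : ∀ p, Module.finrank k (LinearMap.ker (T p)) = n - r ∧ r ≤ n := fun p => by
    have := LinearMap.finrank_range_add_finrank_ker (T p)
    rw [hrange, red.finrank_resSpace, hr, Module.finrank_fintype_fun_eq_card, Fintype.card_fin]
      at this
    omega
  have hrn := (hker p₀).2
  obtain ⟨C, hC⟩ := exists_common_compl (k := k) r (fun p => LinearMap.ker (T p)) (n - r)
    (fun p => (hker p).1) (by rw [Module.finrank_fintype_fun_eq_card, Fintype.card_fin]; omega)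
  have hCp := fun p => compl_props ((hker p).1)
    (by rw [Module.finrank_fintype_fun_eq_card, Fintype.card_fin]; omega) (hC p)
  choose C' hC' using fun l j => red.surjective (C l j)
  have hval : ∀ l p, resF red ((∑ j, algebraMap A S (C' l j) • v j) p) = T p (C l) := by
    intro l p
    rw [Finset.sum_apply]
    simp only [smul_apply_fam, evK_algebraMap]
    rw [resF_sum red _ fun j _ => smul_mem_V red (C' l j).2 (apply_mem_V red S hS (hv j) p),
      Fintype.linearCombination_apply]
    exact Finset.sum_congr rfl fun j _ => by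
      rw [resF_smul red (C' l j).2 (apply_mem_V red S hS (hv j) p), hC']
  refine ⟨fun l => ∑ j, algebraMap A S (C' l j) • v j,
    fun l => sum_mem fun j _ => Submodule.smul_mem _ _ (hv j), fun l p => ?_, fun p => ?_,
    fun p => ?_⟩
  · simp only [Finset.sum_apply, smul_apply_fam]
    exact Submodule.sum_mem _ fun j _ => (W p).smul_mem _ (hvW j p)
  · simp only [hval]
    exact (hCp p).1.map (f := T p) (hCp p).2.symm
  · simp only [hval]
    rw [show (fun l => T p (C l)) = T p ∘ C from rfl, Set.range_comp, ← Submodule.map_span,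
      ← hrange p, LinearMap.range_eq_map, ← hC p, Submodule.map_sup]
    refine sup_eq_right.mpr ?_
    rintro _ ⟨y, hy, rfl⟩
    rw [LinearMap.mem_ker.mp hy]
    exact zero_mem _

include hS in
/-- Coefficients along a constant residual complement lie in `S`. -/
theorem exists_coeff [Finite P] [Infinite k] {M : Submodule K F} [FiniteDimensional K M]
    {W : P → Submodule K F} (hWM : ∀ p, W p ≤ M) (hW : Reg red S W) {r g : ℕ}
    (hr : ∀ p, Module.finrank K (W p) = r) (hn : r + g = Module.finrank K M) {u : Fin g → F}
    (huV : ∀ l, u l ∈ red.V) (huM : ∀ l, u l ∈ M)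
    (hsup : ∀ p, red.resSpace M ≤
      red.resSpace (W p) ⊔ Submodule.span k (Set.range (resF red ∘ u)))
    {f : P → F} (hf : f ∈ fam red S) (hfM : ∀ p, f p ∈ M) :
    ∃ c : Fin g → S, ∀ p, f p - ∑ l, evK S p (c l) • u l ∈ W p := by
  classical
  have : ∀ p, FiniteDimensional K (W p) := fun p => Submodule.finiteDimensional_of_le (hWM p)
  have := red.finite_resSpace M
  obtain ⟨v, hv, hvW, -, hvspan⟩ := hW.exists_basis red S hS hr
  obtain ⟨b₀, hb₀V, hb₀M, hb₀li, hb₀span⟩ := exists_resBasis red M hn.symm
  set b : Fin r ⊕ Fin g → F := b₀ ∘ finSumFinEquiv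
  have hbV : ∀ a, b a ∈ red.V := fun a => hb₀V _
  have hbli : LinearIndependent k (resF red ∘ b) := hb₀li.comp _ finSumFinEquiv.injective
  have hbspan : Submodule.span K (Set.range b) = M := by
    rw [Set.range_comp, Equiv.range_eq_univ, Set.image_univ, hb₀span]
  set vec : Fin r ⊕ Fin g → P → F := Sum.elim v fun l _ => u l
  have hvec : ∀ a, vec a ∈ fam red S := by
    rintro (a | a); exacts [hv a, const_mem_fam red S (huV a)]
  have hvecM : ∀ a p, vec a p ∈ M := by
    rintro (a | a) p; exacts [hWM p (hvW a p), huM a]
  choose N hN using fun a => exists_coord red S hbV hbli (hvec a) fun p => hbspan ▸ hvecM a p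
  obtain ⟨cf, hcf⟩ := exists_coord red S hbV hbli hf fun p => hbspan ▸ hfM p
  set NM : Matrix (Fin r ⊕ Fin g) (Fin r ⊕ Fin g) S := Matrix.of fun i a => N a i
  have hinj : ∀ p, Function.Injective (NM.map (evk S hS π p)).mulVec := by
    intro p
    rw [← Matrix.coe_mulVecLin, ← LinearMap.ker_eq_bot, LinearMap.ker_eq_bot']
    intro y hy
    set rv : Fin r ⊕ Fin g → κ := fun a => resF red (vec a p)
    have hrvsum : rv = Sum.elim (fun l => resF red (v l p)) (resF red ∘ u) := by
      funext a; rcases a with a | a <;> rfl
    have hspan : red.resSpace M ≤ Submodule.span k (Set.range rv) := by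
      rw [hrvsum, Set.Sum.elim_range, Submodule.span_union, ← hvspan p]
      exact hsup p
    have hli : LinearIndependent k rv := by
      refine linearIndependent_iff_card_le_finrank_span.mpr ?_
      rw [Fintype.card_sum, Fintype.card_fin, Fintype.card_fin, hn, ← red.finrank_resSpace M]
      have := FiniteDimensional.span_of_finite k (Set.finite_range rv)
      exact Submodule.finrank_mono hspan
    refine funext (Fintype.linearIndependent_iff.mp hli y ?_)
    have hy' : ∀ i, ∑ a, evk S hS π p (N a i) * y a = 0 := fun i => congrFun hy i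
    simp only [rv, hN, resF_sum_smul red S hS _ hbV p, Finset.smul_sum, smul_smul]
    rw [Finset.sum_comm]
    refine Finset.sum_eq_zero fun i _ => ?_
    rw [← Finset.sum_smul]
    simp only [mul_comm (y _), hy' i, zero_smul]
  have hdet := isUnit_det red S hS NM hinj
  set d : Fin r ⊕ Fin g → S := NM⁻¹ *ᵥ cf
  have hd : NM *ᵥ d = cf := by
    rw [mulVec_mulVec, Matrix.mul_nonsing_inv _ hdet, one_mulVec]
  refine ⟨fun l => d (Sum.inr l), fun p => ?_⟩
  have hfeq : f p = ∑ a, evK S p (d a) • vec a p := by
    rw [hcf p, ← hd]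
    simp only [hN, Matrix.mulVec, dotProduct, map_sum, map_mul, Finset.sum_smul, Finset.smul_sum,
      smul_smul, NM, Matrix.of_apply]
    rw [Finset.sum_comm]
    simp only [mul_comm]
  rw [hfeq, Fintype.sum_sum_type]
  simp only [vec, Sum.elim_inl, Sum.elim_inr, add_sub_cancel_right]
  exact Submodule.sum_mem _ fun l _ => (W p).smul_mem _ (hvW l p)

include red in
/-- A residual complement is a complement. -/
theorem coeff_unique {M W : Submodule K F} [FiniteDimensional K M] (hWM : W ≤ M) {r g : ℕ}
    (hr : Module.finrank K W = r) (hn : r + g = Module.finrank K M) {u : Fin g → F}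
    (huV : ∀ l, u l ∈ red.V)
    (hsup : red.resSpace M ≤ red.resSpace W ⊔ Submodule.span k (Set.range (resF red ∘ u)))
    {c : Fin g → K} (hc : ∑ l, c l • u l ∈ W) : c = 0 := by
  classical
  have : FiniteDimensional K W := Submodule.finiteDimensional_of_le hWM
  have := FiniteDimensional.span_of_finite K (Set.finite_range u)
  set U := W ⊔ Submodule.span K (Set.range u) with hU
  have : FiniteDimensional K U := Submodule.finiteDimensional_sup _ _
  have := red.finite_resSpace U
  have hdimU : Module.finrank K M ≤ Module.finrank K U := by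
    rw [← red.finrank_resSpace M, ← red.finrank_resSpace U]
    refine Submodule.finrank_mono (hsup.trans (sup_le (red.resSpace_mono le_sup_left)
      (Submodule.span_le.mpr ?_)))
    rintro _ ⟨l, rfl⟩
    exact resF_mem red (huV l) (Submodule.mem_sup_right (Submodule.subset_span ⟨l, rfl⟩))
  have h1 := Submodule.finrank_sup_add_finrank_inf_eq W (Submodule.span K (Set.range u))
  have h2 : Module.finrank K (Submodule.span K (Set.range u)) ≤ g :=
    (finrank_range_le_card u).trans (by simp)
  rw [← hU, hr] at h1
  have hinf : W ⊓ Submodule.span K (Set.range u) = ⊥ :=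
    Submodule.finrank_eq_zero.mp (by omega)
  have hli : LinearIndependent K u := linearIndependent_iff_card_le_finrank_span.mpr (by
    show Fintype.card (Fin g) ≤ Module.finrank K (Submodule.span K (Set.range u))
    rw [Fintype.card_fin]
    omega)
  have h0 : ∑ l, c l • u l ∈ W ⊓ Submodule.span K (Set.range u) :=
    ⟨hc, Submodule.sum_mem _ fun l _ => Submodule.smul_mem _ _ (Submodule.subset_span ⟨l, rfl⟩)⟩
  rw [hinf, Submodule.mem_bot] at h0
  exact funext (Fintype.linearIndependent_iff.mp hli c h0)

end Fermat.Agent.GoodModel
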