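import Fermat.Agent.GoodModel.RegularFamily

/-!
# Division of regular families

If `W` is regular and `G` is an integral family, the subspaces `{h ∈ M : h G_i ∈ W}` form a regular
family as soon as they have constant dimension and reduce onto the corresponding residual spaces.
-/

set_option autoImplicit false

noncomputable section

open Matrix

namespace Fermat.Agent.GoodModel

open Fermat.Agent.GoodReduction

variable {K k F κ : Type*} [Field K] [Field k] [Field F] [Field κ] [Algebra K F] [Algebra k κ]
variable {A : ValuationSubring K} {π : A →+* k} (red : Reduction F κ A π)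
variable {P : Type*} (S : Subalgebra A (P → K)) (hS : ∀ f ∈ S, ∀ p, f p ∈ A)

theorem mem_resSpace_mul {W : Submodule K F} {f : F} {y : κ} {x : F} (hx : x ∈ red.V)
    (hf : f ∈ red.V) (hy : resF red x = y) (h : x * f ∈ W) : y * resF red f ∈ red.resSpace W := by
  rw [← hy, ← resF_mul red hx hf]
  exact resF_mem red (mul_mem hx hf) h

include hS in
/-- Multiplying by a family with nonzero residue preserves regularity. -/
theorem Reg.smul_family {W : P → Submodule K F} [∀ p, FiniteDimensional K (W p)]
    (hW : Reg red S W) {f : P → F} (hf : f ∈ fam red S) (hf0 : ∀ p, resF red (f p) ≠ 0) :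
    Reg red S fun p => (W p).map (LinearMap.mulLeft K (f p)) := by
  obtain ⟨n, v, hv, hvW, hres⟩ := hW
  refine ⟨n, fun j => f * v j, fun j => mul_mem_fam red S hf (hv j),
    fun j p => ⟨v j p, hvW j p, rfl⟩, fun p => ?_⟩
  have hfV := apply_mem_V red S hS hf p
  have hfne : f p ≠ 0 := fun h => hf0 p (by rw [h, resF_zero])
  have := red.finite_resSpace (W p)
  have := red.finite_resSpace ((W p).map (LinearMap.mulLeft K (f p)))
  set L := LinearMap.mulLeft k (resF red (f p)) with hL
  have hle : (red.resSpace (W p)).map L ≤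
      red.resSpace ((W p).map (LinearMap.mulLeft K (f p))) := by
    rintro _ ⟨y, hy, rfl⟩
    obtain ⟨x, hxV, hxW, rfl⟩ := exists_resF_eq red hy
    rw [hL, LinearMap.mulLeft_apply, ← resF_mul red hfV hxV]
    exact resF_mem red (mul_mem hfV hxV) ⟨x, hxW, rfl⟩
  have heq : (red.resSpace (W p)).map L =
      red.resSpace ((W p).map (LinearMap.mulLeft K (f p))) := by
    refine Submodule.eq_of_le_of_finrank_eq hle ?_
    rw [red.finrank_resSpace,
      ← (Submodule.equivMapOfInjective L (mul_right_injective₀ (hf0 p)) _).finrank_eq,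
      ← (Submodule.equivMapOfInjective (LinearMap.mulLeft K (f p))
        (mul_right_injective₀ hfne) (W p)).finrank_eq, red.finrank_resSpace]
  rw [← heq]
  refine (Submodule.map_mono (hres p)).trans ?_
  rw [Submodule.map_span, Submodule.span_le]
  rintro _ ⟨_, ⟨j, rfl⟩, rfl⟩
  exact Submodule.subset_span ⟨j, resF_mul red hfV (apply_mem_V red S hS (hv j) p)⟩

/-- A family of subspaces of constant dimension has a constant integral residual complement. -/
theorem exists_residual_complement [Finite P] [Infinite k] {M : Submodule K F}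
    [FiniteDimensional K M] {W : P → Submodule K F} (hWM : ∀ p, W p ≤ M) {r d : ℕ}
    (hr : ∀ p, Module.finrank K (W p) = r) (hn : r + d = Module.finrank K M) :
    ∃ u : Fin d → F, (∀ l, u l ∈ red.V) ∧ (∀ l, u l ∈ M) ∧
      (∀ p, red.resSpace M ≤ red.resSpace (W p) ⊔ Submodule.span k (Set.range (resF red ∘ u))) ∧
      ∀ p (c : Fin d → k), ∑ l, c l • resF red (u l) ∈ red.resSpace (W p) → c = 0 := by
  have := red.finite_resSpace M
  set U : P → Submodule k (red.resSpace M) :=
    fun p => (red.resSpace (W p)).comap (red.resSpace M).subtype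
  have hU : ∀ p, Module.finrank k (U p) = r := fun p => by
    have : FiniteDimensional K (W p) := Submodule.finiteDimensional_of_le (hWM p)
    rw [(Submodule.comapSubtypeEquivOfLe (red.resSpace_mono (hWM p))).finrank_eq,
      red.finrank_resSpace, hr]
  obtain ⟨w, hw⟩ := exists_common_compl (k := k) d U r hU (by rw [red.finrank_resSpace]; omega)
  choose u huV huM hu using fun l => exists_resF_eq red (w l).2
  refine ⟨u, huV, huM, fun p x hx => ?_, fun p c hc => ?_⟩
  · have hmem : (⟨x, hx⟩ : red.resSpace M) ∈ U p ⊔ Submodule.span k (Set.range w) := by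
      rw [hw p]; trivial
    obtain ⟨a, ha, b, hb, hab⟩ := Submodule.mem_sup.mp hmem
    refine Submodule.mem_sup.mpr ⟨a, ha, b, ?_, congrArg Subtype.val hab⟩
    have : (red.resSpace M).subtype b ∈
        (Submodule.span k (Set.range w)).map (red.resSpace M).subtype := ⟨b, hb, rfl⟩
    rw [Submodule.map_span, ← Set.range_comp] at this
    rw [show resF red ∘ u = (red.resSpace M).subtype ∘ w from funext hu]
    exact this
  · obtain ⟨hwli, hwdisj⟩ := compl_props (hU p) (by rw [red.finrank_resSpace]; omega) (hw p)
    have h0 : ∑ l, c l • w l = 0 := by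
      refine Submodule.disjoint_def.mp hwdisj _ ?_
        (Submodule.sum_mem _ fun l _ => Submodule.smul_mem _ _ (Submodule.subset_span ⟨l, rfl⟩))
      show (red.resSpace M).subtype _ ∈ red.resSpace (W p)
      simp only [map_sum, map_smul]
      simpa only [hu, Submodule.coe_subtype] using hc
    exact funext (Fintype.linearIndependent_iff.mp hwli _ h0)

/-- Expanding `(∑ y a • b a) * x` when each `b a * x` is `rem a + ∑ C l a • u l`. -/
theorem sum_smul_mul_eq {R L ι ι' : Type*} [CommRing R] [CommRing L] [Algebra R L] [Fintype ι]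
    [Fintype ι'] {b rem : ι → L} {x : L} {u : ι' → L} {C : Matrix ι' ι R}
    (h : ∀ a, b a * x = rem a + ∑ l, C l a • u l) (y : ι → R) :
    (∑ a, y a • b a) * x = (∑ a, y a • rem a) + ∑ l, (C *ᵥ y) l • u l := by
  simp only [Finset.sum_mul, smul_mul_assoc, h, smul_add, Finset.sum_add_distrib, Finset.smul_sum,
    smul_smul, Matrix.mulVec, dotProduct, Finset.sum_smul]
  rw [Finset.sum_comm]
  simp only [mul_comm (y _)]

include hS in
/-- A family cut out of a space with residue-independent basis `b`, generically and residually, by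
a matrix over `S`, is regular when it has constant dimension. -/
theorem Reg.of_kernel_matrix [Finite P] [Infinite k] {M : Submodule K F} [FiniteDimensional K M]
    {m : ℕ} {b : Fin m → F} (hbV : ∀ a, b a ∈ red.V) (hbli : LinearIndependent k (resF red ∘ b))
    (hbspan : Submodule.span K (Set.range b) = M) {I : Type} [Fintype I]
    (Q : Matrix I (Fin m) S) {X : P → Submodule K F} (hXM : ∀ p, X p ≤ M) {e : ℕ}
    (he : ∀ p, Module.finrank K (X p) = e)
    (hkerX : ∀ p (y : Fin m → K), Q.map (evK S p) *ᵥ y = 0 ↔ ∑ a, y a • b a ∈ X p)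
    (hkerk : ∀ p (y : Fin m → k),
      Q.map (evk S hS π p) *ᵥ y = 0 ↔ ∑ a, y a • resF red (b a) ∈ red.resSpace (X p)) :
    Reg red S X := by
  classical
  have hresbs : red.resSpace M = Submodule.span k (Set.range (resF red ∘ b)) :=
    (congrArg red.resSpace hbspan.symm).trans (resSpace_span_eq red hbV hbli)
  have hK : ∀ p, e ≤ Module.finrank K (LinearMap.ker (Q.map (evK S p)).mulVecLin) := by
    intro p
    set T := Fintype.linearCombination K b
    have hmap : X p ≤ (LinearMap.ker (Q.map (evK S p)).mulVecLin).map T := by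
      intro x hx
      obtain ⟨y, hy⟩ := (Submodule.mem_span_range_iff_exists_fun K).mp (hbspan ▸ hXM p hx)
      exact ⟨y, (hkerX p y).mpr (hy ▸ hx), hy⟩
    rw [← he p]
    exact (Submodule.finrank_mono hmap).trans (Submodule.finrank_map_le _ _)
  have hlift : ∀ p, ∀ x ∈ red.resSpace (X p), ∃ y : Fin m → k,
      Q.map (evk S hS π p) *ᵥ y = 0 ∧ ∑ a, y a • resF red (b a) = x := fun p x hx => by
    obtain ⟨y, hy⟩ := (Submodule.mem_span_range_iff_exists_fun k).mp
      (hresbs ▸ red.resSpace_mono (hXM p) hx)
    exact ⟨y, (hkerk p y).mpr (show ∑ a, y a • resF red (b a) ∈ _ from hy.symm ▸ hx), hy⟩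
  have hk : ∀ p, Module.finrank k (LinearMap.ker (Q.map (evk S hS π p)).mulVecLin) = e := by
    intro p
    have : FiniteDimensional K (X p) := Submodule.finiteDimensional_of_le (hXM p)
    set T := Fintype.linearCombination k (resF red ∘ b)
    have hT : Function.Injective T := by
      rw [← LinearMap.ker_eq_bot, LinearMap.ker_eq_bot']
      exact fun y hy => funext (Fintype.linearIndependent_iff.mp hbli y hy)
    have hmap : (LinearMap.ker (Q.map (evk S hS π p)).mulVecLin).map T = red.resSpace (X p) := by
      refine le_antisymm ?_ fun x hx => ?_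
      · rintro _ ⟨y, hy, rfl⟩
        exact (hkerk p y).mp hy
      · obtain ⟨y, hy, hyx⟩ := hlift p x hx
        exact ⟨y, hy, hyx⟩
    rw [(Submodule.equivMapOfInjective T hT _).finrank_eq, hmap, red.finrank_resSpace, he]
  obtain ⟨Z, hZ, hZres⟩ := exists_kernel_matrix red S hS Q e hk hK
  refine Reg.of_fintype red S (fun j : Fin m => ∑ a, Z a j • fun _ : P => b a)
    (fun j => sum_mem fun a _ => Submodule.smul_mem _ _ (const_mem_fam red S (hbV a)))
    (fun j p => ?_) fun p x hx => ?_
  · simp only [Finset.sum_apply, smul_apply_fam]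
    refine (hkerX p _).mp ?_
    funext il
    exact congrFun (congrFun (hZ p) il) j
  · obtain ⟨y, hyk, hy⟩ := hlift p x hx
    rw [← hy, Submodule.mem_span_range_iff_exists_fun]
    refine ⟨y, ?_⟩
    simp only [Finset.sum_apply, smul_apply_fam, resF_sum_smul red S hS _ hbV p, Finset.smul_sum,
      smul_smul]
    rw [Finset.sum_comm]
    refine Finset.sum_congr rfl fun a _ => ?_
    rw [← Finset.sum_smul]
    congr 1
    have := congrFun (hZres p y hyk) a
    rw [Matrix.mulVec, dotProduct] at this
    simpa [mul_comm] using this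

include hS in
/-- The transporter of a regular family is regular. -/
theorem Reg.transport [Finite P] [Infinite k] {M M' : Submodule K F} [FiniteDimensional K M]
    [FiniteDimensional K M'] {t : ℕ} (G : Fin t → P → F) (hG : ∀ i, G i ∈ fam red S)
    (hMG : ∀ h ∈ M, ∀ i p, h * G i p ∈ M') {W : P → Submodule K F} (hW : Reg red S W)
    (hWM : ∀ p, W p ≤ M') {r : ℕ} (hr : ∀ p, Module.finrank K (W p) = r)
    {X : P → Submodule K F} (hX : ∀ p h, h ∈ X p ↔ h ∈ M ∧ ∀ i, h * G i p ∈ W p) {e : ℕ}
    (he : ∀ p, Module.finrank K (X p) = e)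
    (hres : ∀ p, ∀ y ∈ red.resSpace M,
      (∀ i, y * resF red (G i p) ∈ red.resSpace (W p)) → y ∈ red.resSpace (X p)) :
    Reg red S X := by
  classical
  rcases isEmpty_or_nonempty P with hP | ⟨⟨p₀⟩⟩
  · exact ⟨0, Fin.elim0, fun j => j.elim0, fun j => j.elim0, fun p => isEmptyElim p⟩
  set d := Module.finrank K M' - r with hd
  have hsplit : r + d = Module.finrank K M' :=
    Nat.add_sub_cancel' (hr p₀ ▸ Submodule.finrank_mono (hWM p₀))
  obtain ⟨u, huV, huM, hsup, hdisj⟩ := exists_residual_complement red hWM hr hsplit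
  -- the matrix of the components of `b a * G i` along `u`
  obtain ⟨m, hm⟩ : ∃ m, Module.finrank K M = m := ⟨_, rfl⟩
  obtain ⟨b, hbV, hbM, hbli, hbspan⟩ := exists_resBasis red M hm
  have hbG : ∀ a i, (fun _ : P => b a) * G i ∈ fam red S := fun a i =>
    mul_mem_fam red S (const_mem_fam red S (hbV a)) (hG i)
  choose c hc using fun i a => exists_coeff red S hS hWM hW hr hsplit huV huM hsup (hbG a i)
    (fun p => hMG _ (hbM a) i p)
  set Q : Matrix (Fin t × Fin d) (Fin m) S := Matrix.of fun il a => c il.1 a il.2
  have hGV : ∀ i p, G i p ∈ red.V := fun i p => apply_mem_V red S hS (hG i) p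
  set remainder : Fin t → Fin m → P → F :=
    fun i a p => b a * G i p - ∑ l, evK S p (c i a l) • u l with hrem
  have hremW : ∀ i a p, remainder i a p ∈ W p := fun i a p => hc i a p
  have hQV : ∀ p i a l, evK S p (c i a l) • u l ∈ red.V := fun p i a l =>
    smul_mem_V red (hS _ (c i a l).2 p) (huV l)
  have hremV : ∀ i a p, remainder i a p ∈ red.V := fun i a p =>
    sub_mem (mul_mem (hbV a) (hGV i p)) (sum_mem fun l _ => hQV p i a l)
  refine Reg.of_kernel_matrix red S hS hbV hbli hbspan Q (fun p x hx => ((hX p x).mp hx).1) he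
    (fun p y => ?_) fun p y => ?_
  · -- the generic kernel
    have hexp : ∀ i, (∑ a, y a • b a) * G i p = (∑ a, y a • remainder i a p) +
        ∑ l, (Q.map (evK S p) *ᵥ y) (i, l) • u l := fun i =>
      sum_smul_mul_eq (C := Matrix.of fun l a => evK S p (c i a l))
        (fun a => (sub_add_cancel _ _).symm) y
    rw [hX]
    refine ⟨fun h => ⟨Submodule.sum_mem _ fun a _ => M.smul_mem _ (hbM a), fun i => ?_⟩,
      fun h => funext fun il => ?_⟩
    · rw [hexp, h]
      simpa using Submodule.sum_mem _ fun a _ => (W p).smul_mem (y a) (hremW i a p)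
    · have h1 : ∑ l, (Q.map (evK S p) *ᵥ y) (il.1, l) • u l ∈ W p := by
        have h2 := sub_mem (h.2 il.1)
          (Submodule.sum_mem _ fun a _ => (W p).smul_mem (y a) (hremW il.1 a p) :
            ∑ a, y a • remainder il.1 a p ∈ W p)
        rwa [hexp, add_sub_cancel_left] at h2
      exact congrFun (coeff_unique red (hWM p) (hr p) hsplit huV (hsup p) h1) il.2
  · -- the residual kernel
    have hb1 : ∀ i a, resF red (b a) * resF red (G i p) =
        resF red (remainder i a p) + ∑ l, evk S hS π p (c i a l) • resF red (u l) := by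
      intro i a
      rw [← resF_mul red (hbV a) (hGV i p), ← resF_sum_smul red S hS (c i a) huV p,
        ← resF_add red (hremV i a p) (sum_mem fun l _ => hQV p i a l), hrem]
      exact congrArg (resF red) (sub_add_cancel _ _).symm
    have hexp : ∀ i, (∑ a, y a • resF red (b a)) * resF red (G i p) =
        (∑ a, y a • resF red (remainder i a p)) +
          ∑ l, (Q.map (evk S hS π p) *ᵥ y) (i, l) • resF red (u l) := fun i =>
      sum_smul_mul_eq (C := Matrix.of fun l a => evk S hS π p (c i a l)) (hb1 i) y
    have hremsum : ∀ i, ∑ a, y a • resF red (remainder i a p) ∈ red.resSpace (W p) := fun i =>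
      Submodule.sum_mem _ fun a _ => Submodule.smul_mem _ _
        (resF_mem red (hremV i a p) (hremW i a p))
    refine ⟨fun h => hres p _ (Submodule.sum_mem _ fun a _ => Submodule.smul_mem _ _
        (resF_mem red (hbV a) (hbM a))) fun i => ?_, fun h => funext fun il => ?_⟩
    · rw [hexp, h]
      simpa using hremsum i
    · obtain ⟨x, hxV, hxX, hx⟩ := exists_resF_eq red h
      have h1 := mem_resSpace_mul red hxV (hGV il.1 p) hx (((hX p x).mp hxX).2 il.1)
      rw [hexp] at h1
      have h2 := sub_mem h1 (hremsum il.1)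
      rw [add_sub_cancel_left] at h2
      exact congrFun (hdisj p _ h2) il.2

end Fermat.Agent.GoodModel
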