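import Fermat.Agent.GoodReduction.Reduction
import Mathlib.LinearAlgebra.Matrix.ToLin
import Mathlib.LinearAlgebra.Matrix.NonsingularInverse
import Mathlib.LinearAlgebra.Basis.VectorSpace
import Mathlib.LinearAlgebra.Dimension.OrzechProperty
import Mathlib.LinearAlgebra.FiniteDimensional.Lemmas
import Mathlib.Tactic

/-!
# Residue-independent families and common complements

For a field with a reduction, integral families with linearly independent residues are independent,
have integral coefficients and extend to bases of finite-dimensional subspaces; finitely many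
subspaces of the same dimension have a common complement.
-/

set_option autoImplicit false

noncomputable section

open AlgebraicCurve

namespace Fermat.Agent.GoodModel

open Fermat.Agent.GoodReduction

variable {K k F κ : Type*} [Field K] [Field k] [Field F] [Field κ] [Algebra K F] [Algebra k κ]
variable {A : ValuationSubring K} {π : A →+* k} (red : Reduction F κ A π)

/-- The residue of an element, extended by zero off the valuation ring. -/
def resF (f : F) : κ :=
  open Classical in
  if h : f ∈ red.V then red.res ⟨f, h⟩ else 0

/-- `resF` is the residue map on integral functions. -/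
theorem resF_of_mem {f : F} (h : f ∈ red.V) : resF red f = red.res ⟨f, h⟩ := dif_pos h

/-- The residue of zero is zero. -/
theorem resF_zero : resF red (0 : F) = 0 := by
  rw [resF_of_mem red (zero_mem red.V)]
  exact map_zero red.res

/-- The residue of a sum of integral functions. -/
theorem resF_add {f f' : F} (h : f ∈ red.V) (h' : f' ∈ red.V) :
    resF red (f + f') = resF red f + resF red f' := by
  rw [resF_of_mem red h, resF_of_mem red h', resF_of_mem red (add_mem h h'), ← map_add]
  rfl

/-- The residue of a product of integral functions. -/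
theorem resF_mul {f f' : F} (h : f ∈ red.V) (h' : f' ∈ red.V) :
    resF red (f * f') = resF red f * resF red f' := by
  rw [resF_of_mem red h, resF_of_mem red h', resF_of_mem red (mul_mem h h'), ← map_mul]
  rfl

/-- The residue of a finite sum of integral functions. -/
theorem resF_sum {ι : Type*} (s : Finset ι) {f : ι → F} (h : ∀ i ∈ s, f i ∈ red.V) :
    resF red (∑ i ∈ s, f i) = ∑ i ∈ s, resF red (f i) := by
  classical
  induction s using Finset.induction with
  | empty => simpa using resF_zero red
  | insert a s ha ih =>
    rw [Finset.sum_insert ha, Finset.sum_insert ha,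
      resF_add red (h a (Finset.mem_insert_self a s))
        (sum_mem fun i hi => h i (Finset.mem_insert_of_mem hi)),
      ih fun i hi => h i (Finset.mem_insert_of_mem hi)]

include red in
/-- Integral scalars preserve integral functions. -/
theorem smul_mem_V {c : K} (hc : c ∈ A) {f : F} (h : f ∈ red.V) : c • f ∈ red.V := by
  rw [Algebra.smul_def]
  exact mul_mem (red.algebraMap_mem ⟨c, hc⟩) h

/-- The residue of an integral multiple of an integral function. -/
theorem resF_smul {c : K} (hc : c ∈ A) {f : F} (h : f ∈ red.V) :
    resF red (c • f) = π ⟨c, hc⟩ • resF red f := by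
  rw [Algebra.smul_def, resF_mul red (red.algebraMap_mem ⟨c, hc⟩) h, Algebra.smul_def,
    resF_of_mem red (red.algebraMap_mem ⟨c, hc⟩), red.res_algebraMap]

/-- Residues of integral members of a subspace lie in its residue space. -/
theorem resF_mem {W : Submodule K F} {f : F} (hV : f ∈ red.V) (hW : f ∈ W) :
    resF red f ∈ red.resSpace W := by
  rw [resF_of_mem red hV]
  exact red.res_mem hW

/-- Elements of a residue space lift to integral members of the subspace. -/
theorem exists_resF_eq {W : Submodule K F} {y : κ} (hy : y ∈ red.resSpace W) :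
    ∃ f, f ∈ red.V ∧ f ∈ W ∧ resF red f = y := by
  obtain ⟨x, hx, rfl⟩ := red.exists_of_mem_resSpace hy
  exact ⟨x, x.2, hx, by rw [resF_of_mem red x.2]⟩

/-- An element of `A` with nonzero residue is a unit. -/
theorem isUnit_of_map_ne_zero {a : A} (h : π a ≠ 0) (red : Reduction F κ A π) : IsUnit a := by
  by_contra hu
  exact h ((red.map_eq_zero_iff a).mpr hu)

section Independent

variable {ι : Type*} [Fintype ι] {b : ι → F}

/-- Coefficients of an integral combination of a residue-independent family are integral. -/
theorem coeff_mem (hb : ∀ i, b i ∈ red.V) (hli : LinearIndependent k (resF red ∘ b)) {c : ι → K}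
    (h : ∑ i, c i • b i ∈ red.V) (i : ι) : c i ∈ A := by
  classical
  by_contra hi
  have : Nonempty ι := ⟨i⟩
  obtain ⟨j, -, hj⟩ := Finset.exists_max_image Finset.univ (fun l => A.valuation (c l))
    Finset.univ_nonempty
  have hj1 : 1 < A.valuation (c j) := lt_of_lt_of_le
    (not_le.mp fun h => hi ((A.valuation_le_one_iff _).mp h)) (hj i (Finset.mem_univ i))
  have hj0 : c j ≠ 0 := fun h => by simp [h] at hj1
  have hinv : (c j)⁻¹ ∈ A := by
    rw [← A.valuation_le_one_iff, map_inv₀]
    exact inv_le_one_of_one_le₀ hj1.le
  have hd : ∀ l, (c j)⁻¹ * c l ∈ A := fun l => by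
    rw [← A.valuation_le_one_iff, map_mul, map_inv₀]
    calc (A.valuation (c j))⁻¹ * A.valuation (c l)
        ≤ (A.valuation (c j))⁻¹ * A.valuation (c j) :=
          mul_le_mul_of_nonneg_left (hj l (Finset.mem_univ l)) zero_le
      _ = 1 := inv_mul_cancel₀ (ne_of_gt (lt_trans zero_lt_one hj1))
  have hzero : π ⟨_, hinv⟩ = 0 := by
    refine (red.map_eq_zero_iff _).mpr fun hu => ?_
    obtain ⟨u, hu⟩ := hu
    have : c j ∈ A := by
      have h1 : ((u : A) : K) * ((↑u⁻¹ : A) : K) = 1 := congrArg Subtype.val u.mul_inv
      rw [hu] at h1
      have : ((↑u⁻¹ : A) : K) = c j := by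
        have := eq_inv_of_mul_eq_one_right h1
        simpa using this
      exact this ▸ (↑u⁻¹ : A).2
    exact absurd ((A.valuation_le_one_iff _).mpr this) (not_le.mpr hj1)
  have key : ∑ l, π ⟨_, hd l⟩ • resF red (b l) = 0 := by
    have h1 : resF red ((c j)⁻¹ • ∑ l, c l • b l) = 0 := by
      rw [resF_smul red hinv h, hzero, zero_smul]
    rw [Finset.smul_sum] at h1
    simp_rw [smul_smul] at h1
    rw [resF_sum red _ fun l _ => smul_mem_V red (hd l) (hb l)] at h1
    rw [← h1]
    exact Finset.sum_congr rfl fun l _ => (resF_smul red (hd l) (hb l)).symm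
  have h1 := Fintype.linearIndependent_iff.mp hli _ key j
  have h2 : (⟨_, hd j⟩ : A) = 1 := Subtype.ext (inv_mul_cancel₀ hj0)
  rw [h2, map_one] at h1
  exact one_ne_zero h1

include red in
/-- Integral functions with independent residues are independent. -/
theorem linearIndependent_of_res (hb : ∀ i, b i ∈ red.V)
    (hli : LinearIndependent k (resF red ∘ b)) : LinearIndependent K b := by
  classical
  rw [Fintype.linearIndependent_iff]
  intro c hc i
  by_contra hi
  have : Nonempty ι := ⟨i⟩
  have hcA : ∀ l, (c i)⁻¹ * c l ∈ A := fun l => coeff_mem red hb hli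
    (c := fun l => (c i)⁻¹ * c l) (by
      simp_rw [mul_smul, ← Finset.smul_sum, hc, smul_zero]
      exact zero_mem _) l
  have key : ∑ l, π ⟨_, hcA l⟩ • resF red (b l) = 0 := by
    have h1 : resF red ((c i)⁻¹ • ∑ l, c l • b l) = 0 := by rw [hc, smul_zero, resF_zero]
    rw [Finset.smul_sum] at h1
    simp_rw [smul_smul] at h1
    rw [resF_sum red _ fun l _ => smul_mem_V red (hcA l) (hb l)] at h1
    rw [← h1]
    exact Finset.sum_congr rfl fun l _ => (resF_smul red (hcA l) (hb l)).symm
  have h1 := Fintype.linearIndependent_iff.mp hli _ key i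
  have h2 : (⟨_, hcA i⟩ : A) = 1 := Subtype.ext (inv_mul_cancel₀ hi)
  rw [h2, map_one] at h1
  exact one_ne_zero h1

/-- A residue-independent family of full cardinality spans. -/
theorem span_eq_of_res {W : Submodule K F} [FiniteDimensional K W] (hb : ∀ i, b i ∈ red.V)
    (hW : ∀ i, b i ∈ W) (hli : LinearIndependent k (resF red ∘ b))
    (hcard : Module.finrank K W ≤ Fintype.card ι) : Submodule.span K (Set.range b) = W := by
  refine Submodule.eq_of_le_of_finrank_le
    (Submodule.span_le.mpr (by rintro _ ⟨i, rfl⟩; exact hW i)) ?_
  rw [finrank_span_eq_card (linearIndependent_of_res red hb hli)]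
  exact hcard

/-- The reduction of the span of a residue-independent family. -/
theorem resSpace_span_eq (hb : ∀ i, b i ∈ red.V) (hli : LinearIndependent k (resF red ∘ b)) :
    red.resSpace (Submodule.span K (Set.range b)) =
      Submodule.span k (Set.range (resF red ∘ b)) := by
  have := FiniteDimensional.span_of_finite K (Set.finite_range b)
  have := red.finite_resSpace (Submodule.span K (Set.range b))
  refine (Submodule.eq_of_le_of_finrank_le (Submodule.span_le.mpr ?_) ?_).symm
  · rintro _ ⟨i, rfl⟩
    exact resF_mem red (hb i) (Submodule.subset_span ⟨i, rfl⟩)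
  · rw [red.finrank_resSpace, finrank_span_eq_card (linearIndependent_of_res red hb hli),
      finrank_span_eq_card hli]

end Independent

/-- Lifts of a basis of the reduction. -/
theorem exists_resBasis (W : Submodule K F) [FiniteDimensional K W] {n : ℕ}
    (hn : Module.finrank K W = n) :
    ∃ b : Fin n → F, (∀ i, b i ∈ red.V) ∧ (∀ i, b i ∈ W) ∧
      LinearIndependent k (resF red ∘ b) ∧ Submodule.span K (Set.range b) = W := by
  have := red.finite_resSpace W
  obtain ⟨β⟩ : Nonempty (Module.Basis (Fin n) k (red.resSpace W)) :=
    ⟨Module.finBasisOfFinrankEq k (red.resSpace W) (by rw [red.finrank_resSpace, hn])⟩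
  choose b hbV hbW hb using fun i => exists_resF_eq red (β i).2
  have hli : LinearIndependent k (resF red ∘ b) := by
    have : resF red ∘ b = (red.resSpace W).subtype ∘ β := funext hb
    rw [this]
    exact β.linearIndependent.map' _ (Submodule.ker_subtype _)
  exact ⟨b, hbV, hbW, hli, span_eq_of_res red hbV hbW hli (by simp [hn])⟩

/-- A residue-independent family extends to one spanning a given finite subspace. -/
theorem exists_extend {ι : Type*} [Fintype ι] {b : ι → F} (hb : ∀ i, b i ∈ red.V)
    (hli : LinearIndependent k (resF red ∘ b)) (W : Submodule K F) [FiniteDimensional K W] :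
    ∃ (n : ℕ) (b' : Fin n → F), (∀ i, b' i ∈ red.V) ∧
      LinearIndependent k (resF red ∘ Sum.elim b b') ∧
      W ≤ Submodule.span K (Set.range (Sum.elim b b')) := by
  classical
  set U := Submodule.span K (Set.range b) ⊔ W with hU
  have : FiniteDimensional K (Submodule.span K (Set.range b)) :=
    FiniteDimensional.span_of_finite K (Set.finite_range b)
  have : FiniteDimensional K U := Submodule.finiteDimensional_sup _ _
  have := red.finite_resSpace U
  set P₀ := Submodule.span k (Set.range (resF red ∘ b)) with hP₀
  obtain ⟨Q₀, hQ₀⟩ := Submodule.exists_isCompl P₀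
  have hbU : ∀ i, b i ∈ U := fun i => Submodule.mem_sup_left (Submodule.subset_span ⟨i, rfl⟩)
  have hP₀U : P₀ ≤ red.resSpace U :=
    Submodule.span_le.mpr (by rintro _ ⟨i, rfl⟩; exact resF_mem red (hb i) (hbU i))
  have : FiniteDimensional k ↥(Q₀ ⊓ red.resSpace U) :=
    Submodule.finiteDimensional_of_le inf_le_right
  set β := Module.finBasis k ↥(Q₀ ⊓ red.resSpace U)
  choose b' hb'V hb'U hb' using fun i => exists_resF_eq red (β i).2.2
  have heq : resF red ∘ b' = (Q₀ ⊓ red.resSpace U).subtype ∘ β := funext hb'
  have hli' : LinearIndependent k (resF red ∘ b') := by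
    rw [heq]
    exact β.linearIndependent.map' _ (Submodule.ker_subtype _)
  have hspan' : Submodule.span k (Set.range (resF red ∘ b')) = Q₀ ⊓ red.resSpace U := by
    rw [heq, Set.range_comp, ← Submodule.map_span, β.span_eq, Submodule.map_top,
      Submodule.range_subtype]
  have hdisj : Disjoint P₀ (Submodule.span k (Set.range (resF red ∘ b'))) := by
    rw [hspan']
    exact hQ₀.disjoint.mono_right inf_le_left
  have hall : LinearIndependent k (resF red ∘ Sum.elim b b') := by
    rw [Sum.comp_elim]
    exact hli.sum_type hli' hdisj
  refine ⟨_, b', hb'V, hall, le_trans (le_sup_right : W ≤ U) (le_of_eq (Eq.symm ?_))⟩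
  refine span_eq_of_res red (by rintro (i | i) <;> simp [hb, hb'V])
    (by rintro (i | i); exacts [hbU i, hb'U i]) hall ?_
  rw [← red.finrank_resSpace U, ← finrank_span_eq_card hall]
  have : FiniteDimensional k (Submodule.span k (Set.range (resF red ∘ Sum.elim b b'))) :=
    FiniteDimensional.span_of_finite k (Set.finite_range _)
  refine Submodule.finrank_mono ?_
  rw [Sum.comp_elim, Set.Sum.elim_range, Submodule.span_union, hspan', ← hP₀,
    ← sup_inf_assoc_of_le Q₀ hP₀U, hQ₀.sup_eq_top, top_inf_eq]

/-- Finitely many subspaces of the same dimension have a common complement. -/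
theorem exists_common_compl {P V : Type*} [Finite P] [AddCommGroup V] [Module k V]
    [FiniteDimensional k V] [Infinite k] (d : ℕ) :
    ∀ (U : P → Submodule k V) (e : ℕ), (∀ p, Module.finrank k (U p) = e) →
      d + e = Module.finrank k V →
      ∃ w : Fin d → V, ∀ p, U p ⊔ Submodule.span k (Set.range w) = ⊤ := by
  induction d with
  | zero =>
    intro U e hU h
    refine ⟨Fin.elim0, fun p => ?_⟩
    rw [Submodule.eq_top_of_finrank_eq (K := k) (S := U p) (by rw [hU]; omega), top_sup_eq]
  | succ d ih =>
    intro U e hU h
    obtain ⟨v, hv⟩ := Submodule.exists_forall_notMem_of_forall_ne_top U fun p htop => by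
      have := hU p
      rw [htop, finrank_top] at this
      omega
    have hv' : ∀ p, Module.finrank k ↥(U p ⊔ Submodule.span k {v}) = e + 1 := by
      intro p
      have hlt : U p < U p ⊔ Submodule.span k {v} := by
        refine lt_of_le_of_ne le_sup_left fun heq => hv p ?_
        rw [heq]
        exact Submodule.mem_sup_right (Submodule.mem_span_singleton_self v)
      have h1 := Submodule.finrank_lt_finrank_of_lt hlt
      have h2 := Submodule.finrank_add_le_finrank_add_finrank (U p) (Submodule.span k {v})
      have h3 : Module.finrank k (Submodule.span k {v}) ≤ 1 := by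
        simpa using finrank_span_le_card ({v} : Set V)
      rw [hU] at h1 h2
      omega
    obtain ⟨w, hw⟩ := ih _ (e + 1) hv' (by omega)
    refine ⟨Fin.cons v w, fun p => ?_⟩
    rw [← hw p, Fin.range_cons, Submodule.span_insert, sup_assoc]

/-- `d` vectors spanning a complement of a subspace of codimension `d` are independent and
disjoint from it. -/
theorem compl_props {V : Type*} [AddCommGroup V] [Module k V] [FiniteDimensional k V] {d e : ℕ}
    {U : Submodule k V} {w : Fin d → V} (hU : Module.finrank k U = e)
    (hd : d + e = Module.finrank k V) (h : U ⊔ Submodule.span k (Set.range w) = ⊤) :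
    LinearIndependent k w ∧ Disjoint U (Submodule.span k (Set.range w)) := by
  have h1 := Submodule.finrank_sup_add_finrank_inf_eq U (Submodule.span k (Set.range w))
  rw [h, finrank_top, hU] at h1
  have h2 : Module.finrank k (Submodule.span k (Set.range w)) ≤ d :=
    (finrank_range_le_card w).trans (by simp)
  refine ⟨linearIndependent_iff_card_le_finrank_span.mpr ?_, ?_⟩
  · show Fintype.card (Fin d) ≤ Module.finrank k (Submodule.span k (Set.range w))
    simp only [Fintype.card_fin]
    omega
  · rw [disjoint_iff, ← Submodule.finrank_eq_zero (R := k)]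
    omega

end Fermat.Agent.GoodModel
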